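import Fermat.Agent.G1.A.DegreeC
import Fermat.Agent.G1.C.Finite

/-!
# G1-A: the generators `e_b(q)/Δ(q^d)` of `FF1 ℂ N` are algebraic over `ℂ(j)`
(the input `AlgRel ℂ N` of G1-C).
-/

set_option autoImplicit false

namespace Fermat.Agent.G1.A

open Fermat.Agent.G1 (FF1 eisGens uB)

theorem algRel_of_embedding {K : Type} [Field K] [CharZero K] (ι : K →+* ℂ) (N : ℕ) [NeZero N] :
    Fermat.Agent.G1.C.AlgRel K N := by
  intro x hx
  obtain ⟨P, hP0, -, hP⟩ := exists_annihilator_K ι N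
    (⟨x, Algebra.subset_adjoin (Or.inr hx)⟩ : A1 K N)
  refine ⟨P, hP0, ?_⟩
  have h3 := Polynomial.hom_eval₂ P (Polynomial.eval₂RingHom (algebraMap K (A1 K N)) (jA K N))
    ((A1 K N).val : A1 K N →+* LaurentSeries K) ⟨x, Algebra.subset_adjoin (Or.inr hx)⟩
  rw [hP, map_zero] at h3
  have h2 : ((A1 K N).val : A1 K N →+* LaurentSeries K).comp
      (Polynomial.eval₂RingHom (algebraMap K (A1 K N)) (jA K N)) =
      Polynomial.eval₂RingHom (algebraMap K (LaurentSeries K)) (ModularCurve.jqModC K) := by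
    apply Polynomial.ringHom_ext
    · intro c
      simp
    · simp
      rfl
  rw [h2] at h3
  exact h3.symm

/-- the input of G1-C. -/
theorem algRel (N : ℕ) [NeZero N] : Fermat.Agent.G1.C.AlgRel ℂ N :=
  algRel_of_embedding (RingHom.id ℂ) N

end Fermat.Agent.G1.A
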