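import Fermat.Agent.G1.Defs
import Fermat.Agent.GR.A.EisChar
import Fermat.Agent.S28.An.Unit

/-!
# G1-A: basic definitions of the analytic side for `Γ₁(M)`

* `Gpm M = ±Γ₁(M)`, `Cosets1 M = SL₂(ℤ)/±Γ₁(M)`, `permOf1`.
* `eisF M b`: the weight 12 Eisenstein series `c⁻¹ ∑_{(m,n), m ≡ b mod M} (m τ + n)^{-12}`, normalised so that
  its `q`-expansion is `eisZ M b`.
* `genF M b d τ = eisF M b τ / Δ(d τ)`: the analytic realisation of the generator `gen ℂ M b d` of `FF1 ℂ M`.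
-/

set_option autoImplicit false

open UpperHalfPlane CongruenceSubgroup
open scoped MatrixGroups Manifold Real ModularForm

namespace Fermat.Agent.G1.A

/-- `±Γ₁(M)`. -/
def Gpm (M : ℕ) : Subgroup SL(2, ℤ) where
  carrier := {γ | γ ∈ Gamma1 M ∨ -γ ∈ Gamma1 M}
  mul_mem' := by
    rintro a b (ha | ha) (hb | hb)
    · exact Or.inl (mul_mem ha hb)
    · exact Or.inr (by rw [← mul_neg]; exact mul_mem ha hb)
    · exact Or.inr (by rw [← neg_mul]; exact mul_mem ha hb)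
    · exact Or.inl (by rw [← neg_mul_neg]; exact mul_mem ha hb)
  one_mem' := Or.inl (one_mem _)
  inv_mem' := by
    rintro a (ha | ha)
    · exact Or.inl (inv_mem ha)
    · refine Or.inr ?_
      have h : -a⁻¹ = (-a)⁻¹ := by
        rw [eq_comm, inv_eq_iff_mul_eq_one, neg_mul_neg, mul_inv_cancel]
      rw [h]
      exact inv_mem ha

theorem mem_Gpm {M : ℕ} {γ : SL(2, ℤ)} : γ ∈ Gpm M ↔ γ ∈ Gamma1 M ∨ -γ ∈ Gamma1 M := Iff.rfl

theorem Gamma1_le_Gpm (M : ℕ) : Gamma1 M ≤ Gpm M := fun _ h => Or.inl h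

theorem neg_one_mem_Gpm (M : ℕ) : (-1 : SL(2, ℤ)) ∈ Gpm M := Or.inr (by rw [neg_neg]; exact one_mem _)

theorem neg_mem_Gpm {M : ℕ} {γ : SL(2, ℤ)} (h : γ ∈ Gpm M) : -γ ∈ Gpm M := by
  rcases h with h | h
  · exact Or.inr (by rwa [neg_neg])
  · exact Or.inl h

theorem Gpm_le_Gamma0 (M : ℕ) : Gpm M ≤ Gamma0 M := by
  rintro γ (h | h)
  · exact Gamma1_in_Gamma0 M h
  · have := Gamma1_in_Gamma0 M h
    rw [Gamma0_mem] at this ⊢
    simpa using this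

/-- a function on `ℍ` invariant under `Γ₁(M)` is invariant under `±Γ₁(M)`. -/
theorem inv_Gpm_of_inv_Gamma1 {M : ℕ} {X : Type*} {h : ℍ → X}
    (H : ∀ γ ∈ Gamma1 M, ∀ τ : ℍ, h (γ • τ) = h τ) : ∀ γ ∈ Gpm M, ∀ τ : ℍ, h (γ • τ) = h τ := by
  rintro γ (hγ | hγ) τ
  · exact H γ hγ τ
  · rw [← H (-γ) hγ τ, ModularGroup.SL_neg_smul]

/-- The coset space `SL₂(ℤ)/±Γ₁(M)` with its left `SL₂(ℤ)`-action. -/
abbrev Cosets1 (M : ℕ) : Type := SL(2, ℤ) ⧸ Gpm M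

/-- The permutation of the coset space induced by `γ`. -/
noncomputable def permOf1 (M : ℕ) (γ : SL(2, ℤ)) : Equiv.Perm (Cosets1 M) := MulAction.toPerm γ

instance finiteIndex_Gpm (M : ℕ) [NeZero M] : (Gpm M).FiniteIndex :=
  Subgroup.finiteIndex_of_le (Gamma1_le_Gpm M)

instance finite_cosets1 (M : ℕ) [NeZero M] : Finite (Cosets1 M) :=
  Subgroup.finite_quotient_of_finiteIndex

/-! ### the Eisenstein series -/

open Classical in
/-- the indicator function of `{(m, n) : m ≡ b mod M}`. -/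
noncomputable def eisW (M : ℕ) (b : ℤ) (v : Fin 2 → ℤ) : ℂ := if (M : ℤ) ∣ v 0 - b then 1 else 0

/-- the normalising constant `(-2πi)^12 / 11!`. -/
noncomputable def eisC : ℂ := (-2 * π * Complex.I) ^ 12 / (Nat.factorial 11 : ℂ)

/-- the normalised Eisenstein series `e_b`. -/
noncomputable def eisF (M : ℕ) (b : ℤ) (τ : ℍ) : ℂ := eisC⁻¹ * GR.A.wEis 12 (eisW M b) τ

/-- `e_b(τ) / Δ(d τ)`. -/
noncomputable def genF (M : ℕ) (b : ℤ) (d : ℕ) (τ : ℍ) : ℂ := eisF M b τ / S28.DeltaF (S28.affH d 0 1 τ)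

end Fermat.Agent.G1.A
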