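import Fermat.Agent.G1.A.ModFun

/-!
# GR-A: (A5) injectivity and (A6) surjectivity of `u ↦ χ_u`, in terms of `HasChar`
-/

set_option autoImplicit false

namespace Fermat.Agent.G1.A

open Fermat.Agent.GR Fermat.Agent.GR.A Fermat.Agent.G1

open ModularCurve UpperHalfPlane Complex Function CongruenceSubgroup
open scoped MatrixGroups Real Manifold
open Fermat.Agent.S28 (IsExp)

noncomputable section

variable {N n : ℕ}

/-- **(A5)** trivial character ⟹ `n`-th power. -/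
theorem kummerEquiv_one_of_hasChar_zero [NeZero N] [NeZero n] {u : LaurentSeries ℂ}
    (H : HasChar N n u 0) : KummerEquiv1 N n 1 u := by
  obtain ⟨c, w, f, hR, hf, z', hz', hz'0, rfl⟩ := H
  have hn : 0 < n := Nat.pos_of_ne_zero (NeZero.ne n)
  have hinv : ∀ γ ∈ Gamma1 N, ∀ τ, w (γ • τ) = w τ := by
    intro γ hγ τ
    have := hR.char ⟨γ, hγ⟩ τ
    simpa using this
  have hc : w ^ n = c := funext fun τ => hR.pow_eq τ
  have hp : IsModFun N (w ^ n) := hc ▸ hR.modFun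
  obtain ⟨h1, h2⟩ := exists_root_of_invariant hn hR.mdiff hinv hp
  have h3 : qexp (w ^ n) = f := by
    rw [hc]
    exact hR.modFun.isExp.unique one_pos hf
  have hw0 : qexp w ≠ 0 := by
    intro h0
    rw [(IsModFun.of_pow hn hR.mdiff hinv hp).qexp_eq_zero_iff] at h0
    obtain ⟨τ, hτ⟩ := hR.ne_zero
    apply hτ
    rw [← hR.pow_eq τ, h0]
    simp [hn.ne']
  refine ⟨qexp w * z', mul_mem h1 hz', mul_ne_zero hw0 hz'0, ?_⟩
  rw [one_mul, mul_pow, h2, h3]

/-- the character `γ ↦ e(φ(γ)/n)`. -/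
def charOf [NeZero n] (φ : Additive (Gamma1 N) →+ ZMod n) : Gamma1 N →* ℂˣ :=
  MonoidHom.toHomUnits
    { toFun := fun γ => ZMod.stdAddChar (φ (Additive.ofMul γ))
      map_one' := by simp
      map_mul' := fun a b => by rw [ofMul_mul, map_add, AddChar.map_add_eq_mul] }

theorem charOf_apply [NeZero n] (φ : Additive (Gamma1 N) →+ ZMod n) (γ : Gamma1 N) :
    ((charOf φ γ : ℂˣ) : ℂ) = ZMod.stdAddChar (φ (Additive.ofMul γ)) := rfl

theorem charOf_pow [NeZero n] (φ : Additive (Gamma1 N) →+ ZMod n) (γ : Gamma1 N) :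
    charOf φ γ ^ n = 1 := by
  apply Units.ext
  rw [Units.val_pow_eq_pow_val, charOf_apply, ← AddChar.map_nsmul_eq_pow]
  simp

theorem trace_sq_eq_four_of_c_eq_zero (γ : SL(2, ℤ)) (h : γ 1 0 = 0) :
    (γ : Matrix (Fin 2) (Fin 2) ℤ).trace ^ 2 = 4 := by
  have hdet := Matrix.SpecialLinearGroup.det_coe γ
  rw [Matrix.det_fin_two] at hdet
  have h' : (γ : Matrix (Fin 2) (Fin 2) ℤ) 1 0 = 0 := h
  rw [h', mul_zero, sub_zero] at hdet
  rw [Matrix.trace_fin_two]
  rcases Int.eq_one_or_neg_one_of_mul_eq_one' hdet with ⟨h1, h2⟩ | ⟨h1, h2⟩ <;> rw [h1, h2] <;>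
    norm_num

/-- **(A6)**, sharp form: only the triviality on the stabiliser of `∞` is used. -/
theorem exists_hasChar_of_infty [NeZero N] [NeZero n] (φ : Additive (Gamma1 N) →+ ZMod n)
    (hφ : ∀ γ : Gamma1 N, (γ : SL(2, ℤ)) 1 0 = 0 → φ (Additive.ofMul γ) = 0) :
    ∃ u : LaurentSeries ℂ, HasChar N n u φ := by
  have hpar : ∀ γ : Gamma1 N, (γ : SL(2, ℤ)) 1 0 = 0 → charOf φ γ = 1 := by
    intro γ hγ
    apply Units.ext
    rw [charOf_apply, hφ γ hγ]
    simp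
  obtain ⟨w, hw, hw0, hchar, hmod⟩ :=
    exists_root_with_char N n (NeZero.ne n) (charOf φ) (charOf_pow φ) hpar
  refine ⟨qexp (w ^ n), w ^ n, w, qexp (w ^ n), ⟨hmod, ?_, hw, fun τ => rfl, hchar⟩, hmod.isExp,
    1, one_mem _, one_ne_zero, by rw [one_pow, mul_one]⟩
  by_contra hcon
  push Not at hcon
  apply hw0
  funext τ
  have := hcon τ
  simpa [NeZero.ne n] using this

/-- **(A6)**: every homomorphism killing the elliptic and parabolic elements is a `χ_u`. (The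
hypothesis is `GR.B.Kills φ`, unfolded.) -/
theorem exists_hasChar [NeZero N] [NeZero n] (φ : Additive (Gamma1 N) →+ ZMod n)
    (hφ : ∀ γ : Gamma1 N, (IsOfFinOrder (γ : SL(2, ℤ)) ∨
      ((γ : SL(2, ℤ)) : Matrix (Fin 2) (Fin 2) ℤ).trace ^ 2 = 4) → φ (Additive.ofMul γ) = 0) :
    ∃ u : LaurentSeries ℂ, HasChar N n u φ :=
  exists_hasChar_of_infty φ fun γ hγ => hφ γ (Or.inr (trace_sq_eq_four_of_c_eq_zero _ hγ))

end

end Fermat.Agent.G1.A
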