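import Fermat.Agent.G1.A.EisQ
import Fermat.Agent.GR.A.ModFun

/-!
# G1-A: analytic properties of the generators `genF M b d` of the function field of `X₁(M)`
-/

set_option autoImplicit false

open UpperHalfPlane CongruenceSubgroup ModularCurve
open scoped MatrixGroups Manifold Real ModularForm

namespace Fermat.Agent.G1.A

theorem norm_eisW_le (M : ℕ) (b : ℤ) (v : Fin 2 → ℤ) : ‖eisW M b v‖ ≤ 1 := by
  unfold eisW
  split_ifs <;> simp

theorem eisC_ne_zero : eisC ≠ 0 := by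
  unfold eisC
  refine div_ne_zero (pow_ne_zero _ ?_) (Nat.cast_ne_zero.mpr (Nat.factorial_ne_zero 11))
  refine mul_ne_zero (mul_ne_zero (by norm_num) ?_) Complex.I_ne_zero
  exact_mod_cast Real.pi_ne_zero

theorem eisF_eq_smul (M : ℕ) (b : ℤ) : eisF M b = eisC⁻¹ • GR.A.wEis 12 (eisW M b) := by
  ext τ
  rfl

theorem mdiff_eisF (M : ℕ) (b : ℤ) : MDiff (eisF M b) := by
  have h := GR.A.mdiff_wEis (k := 12) (w := eisW M b) (by norm_num) (norm_eisW_le M b)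
  rw [UpperHalfPlane.mdifferentiable_iff] at h ⊢
  have e : eisF M b ∘ ofComplex = fun z => eisC⁻¹ * (GR.A.wEis 12 (eisW M b) ∘ ofComplex) z := rfl
  rw [e]
  exact h.const_mul _

theorem eisW_vecMul_inv (M : ℕ) (b : ℤ) (γ : SL(2, ℤ)) (hγ : γ ∈ Gamma0 M) (v : Fin 2 → ℤ) :
    eisW M b (Matrix.vecMul v ((γ⁻¹ : SL(2, ℤ)) : Matrix (Fin 2) (Fin 2) ℤ)) =
      eisW M (γ 0 0 * b) v := by
  rw [Gamma0_mem, ZMod.intCast_zmod_eq_zero_iff_dvd] at hγ
  obtain ⟨c, hc⟩ := hγ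
  have hdet := Matrix.SpecialLinearGroup.det_coe γ
  rw [Matrix.det_fin_two] at hdet
  have h0 : (Matrix.vecMul v ((γ⁻¹ : SL(2, ℤ)) : Matrix (Fin 2) (Fin 2) ℤ)) 0 =
      v 0 * γ 1 1 - v 1 * γ 1 0 := by
    rw [Matrix.SpecialLinearGroup.SL2_inv_expl]
    simp [Matrix.vecMul, dotProduct, Fin.sum_univ_two]
    ring
  unfold eisW
  rw [h0]
  have hiff : (M : ℤ) ∣ v 0 * γ 1 1 - v 1 * γ 1 0 - b ↔ (M : ℤ) ∣ v 0 - γ 0 0 * b := by
    constructor
    · rintro ⟨k, hk⟩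
      refine ⟨γ 0 0 * k + γ 0 0 * v 1 * c - v 0 * γ 0 1 * c, ?_⟩
      have e1 : v 0 = v 0 * (γ 0 0 * γ 1 1 - γ 0 1 * γ 1 0) := by rw [hdet, mul_one]
      rw [hc] at hk e1
      linear_combination e1 + γ 0 0 * hk
    · rintro ⟨k, hk⟩
      refine ⟨γ 1 1 * k - v 1 * c + b * γ 0 1 * c, ?_⟩
      have e1 : b = b * (γ 0 0 * γ 1 1 - γ 0 1 * γ 1 0) := by rw [hdet, mul_one]
      rw [hc] at e1 ⊢
      linear_combination γ 1 1 * hk - e1
  simp only [hiff]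

/-- `e_b ∣ γ = e_{α b}` for `γ = (α β; γ' δ) ∈ Γ₀(M)`. -/
theorem eisF_slash_of_mem_Gamma0 (M : ℕ) (b : ℤ) (γ : SL(2, ℤ)) (hγ : γ ∈ Gamma0 M) :
    eisF M b ∣[(12 : ℤ)] γ = eisF M (γ 0 0 * b) := by
  rw [eisF_eq_smul, eisF_eq_smul, ModularForm.SL_smul_slash, GR.A.wEis_slash]
  congr 2
  exact funext fun v => eisW_vecMul_inv M b γ hγ v

theorem isBoundedAtImInfty_eisF_slash (M : ℕ) (b : ℤ) (γ : SL(2, ℤ)) :
    IsBoundedAtImInfty (eisF M b ∣[(12 : ℤ)] γ) := by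
  rw [eisF_eq_smul, ModularForm.SL_smul_slash]
  have h := GR.A.isBoundedAtImInfty_wEis_slash (k := 12) (w := eisW M b) (by norm_num)
    (norm_eisW_le M b) γ
  exact h.const_smul_left _

theorem eisF_congr (M : ℕ) {b b' : ℤ} (h : (M : ℤ) ∣ b - b') : eisF M b = eisF M b' := by
  have hw : eisW M b = eisW M b' := by
    ext v
    unfold eisW
    have hiff : (M : ℤ) ∣ v 0 - b ↔ (M : ℤ) ∣ v 0 - b' := by
      constructor
      · intro h1
        have := dvd_add h1 h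
        rwa [sub_add_sub_cancel] at this
      · intro h1
        have h2 := dvd_sub h1 h
        have e : v 0 - b' - (b - b') = v 0 - b := by ring
        rwa [e] at h2
    simp only [hiff]
  rw [eisF_eq_smul, eisF_eq_smul, hw]

theorem eisF_neg (M : ℕ) (b : ℤ) : eisF M (-b) = eisF M b := by
  ext τ
  unfold eisF GR.A.wEis
  congr 1
  rw [← (Equiv.neg (Fin 2 → ℤ)).tsum_eq]
  refine tsum_congr fun v => ?_
  have h1 : eisW M (-b) ((Equiv.neg (Fin 2 → ℤ)) v) = eisW M b v := by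
    unfold eisW
    have hiff : (M : ℤ) ∣ ((Equiv.neg (Fin 2 → ℤ)) v) 0 - -b ↔ (M : ℤ) ∣ v 0 - b := by
      have e : ((Equiv.neg (Fin 2 → ℤ)) v) 0 - -b = -(v 0 - b) := by
        simp only [Equiv.neg_apply, Pi.neg_apply]
        ring
      rw [e, dvd_neg]
    simp only [hiff]
  have h2 : EisensteinSeries.eisSummand 12 ((Equiv.neg (Fin 2 → ℤ)) v) τ =
      EisensteinSeries.eisSummand 12 v τ := by
    unfold EisensteinSeries.eisSummand
    simp only [Equiv.neg_apply, Pi.neg_apply, Int.cast_neg]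
    have e : (-(v 0 : ℂ) * (τ : ℂ) + -(v 1 : ℂ)) = -((v 0 : ℂ) * (τ : ℂ) + (v 1 : ℂ)) := by ring
    rw [e]
    exact Even.neg_zpow (by decide) _
  rw [h1, h2]

theorem mdiff_genF (M : ℕ) (b : ℤ) (d : ℕ) [NeZero d] : MDiff (genF M b d) := by
  have h1 := mdiff_eisF M b
  have h2 : MDiff (fun τ => S28.DeltaF (S28.affH d 0 1 τ)) :=
    S28.mdiff_comp_affH S28.mdiff_DeltaF 0 (Nat.pos_of_ne_zero (NeZero.ne d)) one_pos
  rw [UpperHalfPlane.mdifferentiable_iff] at h1 h2 ⊢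
  have e : genF M b d ∘ ofComplex = fun z => (eisF M b ∘ ofComplex) z /
      ((fun τ => S28.DeltaF (S28.affH d 0 1 τ)) ∘ ofComplex) z := rfl
  rw [e]
  exact h1.div h2 (fun z _ => S28.DeltaF_ne_zero _)

/-- the `q`-expansion of `genF M b d` is the generator `uB ℂ M d (b : ZMod M)` of `FF1 ℂ M`. -/
theorem isExp_genF (M : ℕ) [NeZero M] (b : ℤ) (hb : ¬ (M : ℤ) ∣ b) (d : ℕ) [NeZero d] :
    S28.IsExp 1 (genF M b d) (uB ℂ M d (b : ZMod M)) := by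
  have h := S28.isExp_delta_inv.comp_affH (N := 1) (a := d) (δ := 1) (m := d) 0
    one_pos (Nat.pos_of_ne_zero (NeZero.ne d)) one_pos rfl
  rw [S28.rootU_one, S28.substL_one] at h
  exact ((isExp_eisF M b hb).mul h).congr fun τ => by
    simp only [Pi.mul_apply, genF, div_eq_mul_inv]

/-- the action of `Γ₀(M)` on the generators (diamond operators). -/
theorem genF_smul_of_mem_Gamma0 (M : ℕ) [NeZero M] (b : ℤ) (d : ℕ) [NeZero d] (hd : d ∣ M)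
    (γ : SL(2, ℤ)) (hγ : γ ∈ Gamma0 M) (τ : ℍ) :
    genF M b d (γ • τ) = genF M (γ 0 0 * b) d τ := by
  have hd0 : 0 < d := Nat.pos_of_ne_zero (NeZero.ne d)
  obtain ⟨c, hc⟩ := S28.exists_affH_smul γ d hd0
  have h1 := (hc τ).1
  rw [S28.gcd_of_mem_Gamma0 hγ hd, Nat.div_self hd0, S28.isExp_delta.affH_int hd0 c τ] at h1
  have h2 := congrFun (eisF_slash_of_mem_Gamma0 M b γ hγ) τ
  rw [ModularForm.SL_slash_apply] at h2
  have hden : denom γ τ ≠ 0 := denom_ne_zero _ τ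
  have hD1 := S28.DeltaF_ne_zero τ
  have hD2 := S28.DeltaF_ne_zero (γ • τ)
  have hD3 := S28.DeltaF_ne_zero (S28.affH d 0 1 τ)
  have hD4 := S28.DeltaF_ne_zero (S28.affH d 0 1 (γ • τ))
  have h3 := S28.DeltaF_smul γ τ
  have h4 : denom γ τ ^ (-(12 : ℤ)) = (denom γ τ ^ 12)⁻¹ := by
    rw [zpow_neg, zpow_ofNat]
  rw [h4] at h2
  unfold genF
  rw [← h2]
  have h5 : S28.DeltaF (S28.affH d 0 1 (γ • τ))
      = denom γ τ ^ 12 * S28.DeltaF (S28.affH d 0 1 τ) := by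
    have h6 : S28.DeltaF (S28.affH d 0 1 (γ • τ))
        = S28.DeltaF (γ • τ) * (S28.DeltaF (S28.affH d 0 1 τ) / S28.DeltaF τ) := by
      rw [div_eq_iff hD2] at h1
      rw [h1]
      simp
      ring
    rw [h6, h3]
    field_simp
  rw [h5]
  field_simp

theorem genF_smul_of_mem_Gpm (M : ℕ) [NeZero M] (b : ℤ) (d : ℕ) [NeZero d] (hd : d ∣ M)
    (γ : SL(2, ℤ)) (hγ : γ ∈ Gpm M) (τ : ℍ) : genF M b d (γ • τ) = genF M b d τ := by
  have key : ∀ γ' : SL(2, ℤ), γ' ∈ Gamma1 M → genF M b d (γ' • τ) = genF M b d τ := by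
    intro γ' hγ'
    rw [genF_smul_of_mem_Gamma0 M b d hd γ' (Gamma1_in_Gamma0 M hγ') τ]
    have h1 : ((γ' 0 0 : ℤ) : ZMod M) = 1 := ((Gamma1_mem M γ').mp hγ').1
    have h2 : (M : ℤ) ∣ γ' 0 0 - 1 := by
      rw [← ZMod.intCast_zmod_eq_zero_iff_dvd]
      push_cast
      rw [h1, sub_self]
    have h3 : (M : ℤ) ∣ γ' 0 0 * b - b := by
      have : γ' 0 0 * b - b = (γ' 0 0 - 1) * b := by ring
      rw [this]
      exact Dvd.dvd.mul_right h2 b
    unfold genF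
    rw [eisF_congr M h3]
  rcases hγ with h | h
  · exact key γ h
  · rw [← ModularGroup.SL_neg_smul]
    exact key (-γ) h

theorem Gen_conj_T_pow_mem_Gamma1 (M : ℕ) (γ : SL(2, ℤ)) :
    γ * ModularGroup.T ^ (M : ℤ) * γ⁻¹ ∈ Gamma1 M := by
  have h1 : ModularGroup.T ^ (M : ℤ) ∈ Gamma M := by
    simpa using ModularGroup_T_pow_mem_Gamma (M : ℤ) (M : ℤ) dvd_rfl
  have h2 := (Gamma_normal M).conj_mem _ h1 γ
  rw [Gamma_mem] at h2
  rw [Gamma1_mem]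
  exact ⟨h2.1, h2.2.2.2, h2.2.2.1⟩

/-- a `Γ₁(M)`-invariant function composed with any `γ ∈ SL₂(ℤ)` has period `M`. -/
theorem Gen_periodic_comp_smul {M : ℕ} {w : ℍ → ℂ}
    (hinv : ∀ γ ∈ Gamma1 M, ∀ τ, w (γ • τ) = w τ) (γ : SL(2, ℤ)) :
    Function.Periodic ((fun τ => w (γ • τ)) ∘ ofComplex) ((M : ℝ) : ℂ) := by
  refine S24.Hol_periodic_of_forall M fun τ τ' hτ => ?_
  have h1 : τ' = (ModularGroup.T ^ (M : ℤ)) • τ := by
    rw [UpperHalfPlane.modular_T_zpow_smul]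
    apply UpperHalfPlane.ext
    rw [hτ, UpperHalfPlane.coe_vadd]
    push_cast
    ring
  have h2 : γ * ModularGroup.T ^ (M : ℤ) = (γ * ModularGroup.T ^ (M : ℤ) * γ⁻¹) * γ := by group
  show w (γ • τ') = w (γ • τ)
  rw [h1, ← mul_smul, h2, mul_smul, hinv _ (Gen_conj_T_pow_mem_Gamma1 M γ)]

theorem Gen_genF_one_smul (M : ℕ) (b : ℤ) (γ : SL(2, ℤ)) (τ : ℍ) :
    genF M b 1 (γ • τ) = (eisF M b ∣[(12 : ℤ)] γ) τ / S28.DeltaF τ := by
  unfold genF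
  rw [S28.affH_one_zero_one, S28.DeltaF_smul, ModularForm.SL_slash_apply]
  have h1 : denom γ τ ≠ 0 := denom_ne_zero _ τ
  have h2 := S28.DeltaF_ne_zero τ
  rw [zpow_neg, zpow_ofNat]
  field_simp

theorem Gen_genF_one_smul_mem_MerInf (M : ℕ) [NeZero M] (b : ℤ) (γ : SL(2, ℤ)) :
    (fun τ => genF M b 1 (γ • τ)) ∈ S24.MerInf M := by
  obtain ⟨m, hm⟩ := GR.A.exists_isBounded_inv_DeltaF M
  refine S24.mem_MerInf.mpr ⟨S28.mdiff_comp_smul (mdiff_genF M b 1) γ,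
    Gen_periodic_comp_smul (fun γ' hγ' τ =>
      genF_smul_of_mem_Gpm M b 1 (one_dvd M) γ' (Gamma1_le_Gpm M hγ') τ) γ, m, ?_⟩
  have h1 := (isBoundedAtImInfty_eisF_slash M b γ).mul hm
  have h2 : (fun τ : ℍ => genF M b 1 (γ • τ) * Function.Periodic.qParam (M : ℝ) τ ^ m) =
      ((eisF M b ∣[(12 : ℤ)] γ) *
        fun τ : ℍ => (S28.DeltaF τ)⁻¹ * Function.Periodic.qParam (M : ℝ) τ ^ m) := by
    funext τ
    simp only [Pi.mul_apply]
    rw [Gen_genF_one_smul]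
    ring
  rw [h2]
  exact h1

/-- expansions at all cusps. -/
theorem exists_isExp_genF_smul (M : ℕ) [NeZero M] (b : ℤ) (d : ℕ) [NeZero d] (hd : d ∣ M)
    (γ : SL(2, ℤ)) : ∃ F : LaurentSeries ℂ, S28.IsExp M (fun τ => genF M b d (γ • τ)) F := by
  obtain ⟨f, hf⟩ := S28.exists_goodU_factor M γ d (Nat.mem_divisors.mpr ⟨hd, NeZero.ne M⟩)
  have hA := GR.A.isExp_laurentHom M ⟨_, Gen_genF_one_smul_mem_MerInf M b γ⟩
  refine ⟨_, (hA.mul hf.expInv).congr fun τ => ?_⟩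
  simp only [Pi.mul_apply, Pi.inv_apply]
  unfold genF
  rw [S28.affH_one_zero_one]
  have hD2 := S28.DeltaF_ne_zero (γ • τ)
  have hD4 := S28.DeltaF_ne_zero (S28.affH d 0 1 (γ • τ))
  field_simp

/-- `genF M 1 1` separates the cosets of `±Γ₁(M)` in `Γ₀(M)`. -/
theorem mem_Gpm_of_genF_smul (M : ℕ) [NeZero M] (γ : SL(2, ℤ)) (hγ : γ ∈ Gamma0 M)
    (h : ∀ τ : ℍ, genF M 1 1 (γ • τ) = genF M 1 1 τ) : γ ∈ Gpm M := by
  have hdet : γ 0 0 * γ 1 1 - γ 0 1 * γ 1 0 = 1 := by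
    have := γ.det_coe
    rwa [Matrix.det_fin_two] at this
  have h10 : ((γ 1 0 : ℤ) : ZMod M) = 0 := (Gamma0_mem).mp hγ
  have hprod : ((γ 0 0 : ℤ) : ZMod M) * ((γ 1 1 : ℤ) : ZMod M) = 1 := by
    have := congrArg (fun z : ℤ => (z : ZMod M)) hdet
    simp only [Int.cast_sub, Int.cast_mul, Int.cast_one, h10, mul_zero, sub_zero] at this
    exact this
  by_cases hM : M = 1
  · subst hM
    exact Or.inl ((Gamma1_mem 1 γ).mpr
      ⟨Subsingleton.elim _ _, Subsingleton.elim _ _, Subsingleton.elim _ _⟩)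
  have hM2 : 2 ≤ M := by
    have := NeZero.ne M
    omega
  have : Fact (1 < M) := ⟨by omega⟩
  have ha : ¬ (M : ℤ) ∣ γ 0 0 := by
    intro hdvd
    rw [← ZMod.intCast_zmod_eq_zero_iff_dvd] at hdvd
    rw [hdvd, zero_mul] at hprod
    exact zero_ne_one hprod
  have h1 : ¬ (M : ℤ) ∣ 1 := by
    intro hdvd
    have := Int.le_of_dvd one_pos hdvd
    omega
  have hfun : ∀ τ : ℍ, eisF M (γ 0 0) τ = eisF M 1 τ := by
    intro τ
    have h2 := h τ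
    rw [genF_smul_of_mem_Gamma0 M 1 1 (one_dvd M) γ hγ τ, mul_one] at h2
    unfold genF at h2
    exact (div_left_inj' (S28.DeltaF_ne_zero _)).mp h2
  have hser : eBL ℂ M ((γ 0 0 : ℤ) : ZMod M) = eBL ℂ M ((1 : ℤ) : ZMod M) :=
    ((isExp_eisF M (γ 0 0) ha).congr hfun).unique one_pos (isExp_eisF M 1 h1)
  have hcoeff : ∀ x : ZMod M, (eBL ℂ M x).coeff 1
      = (if (1 : ZMod M) = x then (1 : ℂ) else 0) + (if (1 : ZMod M) = -x then 1 else 0) := by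
    intro x
    have e1 : (eBL ℂ M x).coeff ((1 : ℕ) : ℤ)
        = PowerSeries.coeff 1 ((eB M x).map (Int.castRingHom ℂ)) := by
      rw [eBL, HahnSeries.ofPowerSeries_apply_coeff]
    rw [Nat.cast_one] at e1
    rw [e1, PowerSeries.coeff_map, coeff_eB]
    simp
  have h3 := congrArg (fun F : LaurentSeries ℂ => F.coeff 1) hser
  simp only [hcoeff, Int.cast_one, if_true] at h3
  have h4 : (1 : ZMod M) = ((γ 0 0 : ℤ) : ZMod M) ∨ (1 : ZMod M) = -((γ 0 0 : ℤ) : ZMod M) := by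
    by_contra hcon
    push Not at hcon
    rw [if_neg hcon.1, if_neg hcon.2] at h3
    split_ifs at h3 <;> norm_num at h3
  rcases h4 with h4 | h4
  · refine Or.inl ((Gamma1_mem M γ).mpr ⟨h4.symm, ?_, h10⟩)
    rw [← h4, one_mul] at hprod
    exact hprod
  · refine Or.inr ((Gamma1_mem M (-γ)).mpr ⟨?_, ?_, ?_⟩)
    · simp only [Matrix.SpecialLinearGroup.coe_neg, Matrix.neg_apply, Int.cast_neg]
      exact h4.symm
    · simp only [Matrix.SpecialLinearGroup.coe_neg, Matrix.neg_apply, Int.cast_neg]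
      have h5 : ((γ 0 0 : ℤ) : ZMod M) = -1 := by rw [h4, neg_neg]
      rw [h5] at hprod
      linear_combination hprod
    · simp only [Matrix.SpecialLinearGroup.coe_neg, Matrix.neg_apply, Int.cast_neg, h10, neg_zero]

/-- `j(Mτ)` and `genF M 1 1` separate the cosets of `±Γ₁(M)` in `SL₂(ℤ)`. -/
theorem mem_Gpm_of_smul (M : ℕ) [NeZero M] (γ : SL(2, ℤ))
    (h1 : ∀ τ : ℍ, S24.jdfun M (γ • τ) = S24.jdfun M τ)
    (h2 : ∀ τ : ℍ, genF M 1 1 (γ • τ) = genF M 1 1 τ) : γ ∈ Gpm M :=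
  mem_Gpm_of_genF_smul M γ (S24.mem_Gamma0_of_jdfun_smul M γ h1) h2

/-! ### the same in the language of `S24` (`Hol`, `MerInf`, `laurentHom`) -/

/-- `genF` as a holomorphic function. -/
noncomputable def genHol (M : ℕ) (b : ℤ) (d : ℕ) [NeZero d] : S24.Hol := ⟨genF M b d, mdiff_genF M b d⟩

theorem genF_mem_MerInf_one (M : ℕ) [NeZero M] (b : ℤ) (hb : ¬ (M : ℤ) ∣ b) (d : ℕ) [NeZero d] :
    genF M b d ∈ S24.MerInf 1 :=
  GR.A.mem_MerInf_of_isExp 1 (isExp_genF M b hb d)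

theorem laurentHom_genF (M : ℕ) [NeZero M] (b : ℤ) (hb : ¬ (M : ℤ) ∣ b) (d : ℕ) [NeZero d] :
    S24.laurentHom 1 ⟨genF M b d, genF_mem_MerInf_one M b hb d⟩ = uB ℂ M d (b : ZMod M) :=
  GR.A.laurentHom_eq_of_isExp 1 (isExp_genF M b hb d) _

theorem genF_smul_mem_MerInf (M : ℕ) [NeZero M] (b : ℤ) (d : ℕ) [NeZero d] (hd : d ∣ M)
    (γ : SL(2, ℤ)) : (fun τ => genF M b d (γ • τ)) ∈ S24.MerInf M := by
  obtain ⟨F, hF⟩ := exists_isExp_genF_smul M b d hd γ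
  exact GR.A.mem_MerInf_of_isExp M hF

end Fermat.Agent.G1.A
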