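import Fermat.Agent.S24.Ev
import Fermat.Agent.G1.A.Gen

/-!
# GR-A, port of `S24/Ev.lean` to a general base field `K` with an embedding `ι : K →+* ℂ`

`A1 K N = K[j(q^d) : d ∣ N] ⊆ FF1 K N ⊆ K((q))`, its analytic realisation
`evA ι N : A1 K N →+* Hol`.

We keep `K` GENERIC on purpose (we only need `K = ℂ`, `ι = id`): over the literal field `ℂ`
instance synthesis finds shortcut instances (`Complex.instSemiring`, ...) which do not unify
syntactically with the instances coming from the generic Prelude definitions, and `rw`/`simp`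
fail or time out.
-/

set_option autoImplicit false

namespace Fermat.Agent.G1.A

open Fermat.Agent.GR Fermat.Agent.GR.A Fermat.Agent.G1

open UpperHalfPlane Function AlgebraicCurve IntermediateField
open Fermat.Agent.S24 (Hol constHol compHom taylorHom MerInf laurentHom jfun jdfun jHol
  UnifData laurentHom_jdfun laurentHom_injective jdfun_mem_MerInf jfun_mem_MerInf laurentHom_jfun)
open scoped Manifold MatrixGroups

section Extra

theorem genF_congr (M : ℕ) {b b' : ℤ} (h : (M : ℤ) ∣ b - b') (d : ℕ) : genF M b d = genF M b' d := by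
  funext τ
  unfold genF
  rw [eisF_congr M h]

theorem intCast_val_eq (M : ℕ) [NeZero M] (b : ZMod M) : (((b.val : ℕ) : ℤ) : ZMod M) = b := by
  rw [Int.cast_natCast, ZMod.natCast_zmod_val]

theorem not_dvd_val (M : ℕ) [NeZero M] {b : ZMod M} (hb : b ≠ 0) : ¬ (M : ℤ) ∣ ((b.val : ℕ) : ℤ) := by
  intro h
  apply hb
  rw [← intCast_val_eq M b]
  exact (ZMod.intCast_zmod_eq_zero_iff_dvd _ M).mpr h

theorem mem_Gpm_of_dvd_one (M : ℕ) (hM : (M : ℤ) ∣ 1) (γ : SL(2, ℤ)) : γ ∈ Gpm M := by
  have h1 : M = 1 := by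
    have : (M : ℤ) = 1 := Int.eq_one_of_dvd_one (Int.natCast_nonneg M) hM
    exact_mod_cast this
  subst h1
  exact Or.inl ((CongruenceSubgroup.Gamma1_mem 1 γ).mpr
    ⟨Subsingleton.elim _ _, Subsingleton.elim _ _, Subsingleton.elim _ _⟩)

/-- variant of `mem_Gpm_of_smul` which only uses generators of `FF1`. -/
theorem mem_Gpm_of_smul' (M : ℕ) [NeZero M] (γ : SL(2, ℤ))
    (h1 : ∀ τ : ℍ, S24.jdfun M (γ • τ) = S24.jdfun M τ)
    (h2 : (1 : ZMod M) ≠ 0 → ∀ τ : ℍ, genF M (((1 : ZMod M).val : ℕ) : ℤ) 1 (γ • τ) =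
      genF M (((1 : ZMod M).val : ℕ) : ℤ) 1 τ) : γ ∈ Gpm M := by
  by_cases hM : (M : ℤ) ∣ 1
  · exact mem_Gpm_of_dvd_one M hM γ
  · have h10 : (1 : ZMod M) ≠ 0 := by
      intro h
      apply hM
      have := (ZMod.intCast_zmod_eq_zero_iff_dvd 1 M).mp (by simpa using h)
      exact this
    have hc : genF M (((1 : ZMod M).val : ℕ) : ℤ) 1 = genF M 1 1 := by
      apply genF_congr
      rw [← ZMod.intCast_zmod_eq_zero_iff_dvd]
      push_cast
      rw [ZMod.natCast_zmod_val, sub_self]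
    have h2' := h2 h10
    rw [hc] at h2'
    exact mem_Gpm_of_smul M γ h1 h2'

end Extra

section Alg

variable (K : Type) [Field K]

/-- The `K`-algebra generated by the `j(q^d)`, `d ∣ N`, and the `e_b Δ(q^d)⁻¹`. -/
noncomputable def A1 (N : ℕ) : Subalgebra K (LaurentSeries K) :=
  Algebra.adjoin K (ModularCurve.divisorExpansionsC K N ∪ eisGens K N)

theorem A1_le (N : ℕ) : A1 K N ≤ (FF1 K N).toSubalgebra :=
  IntermediateField.algebra_adjoin_le_adjoin _ _

/-- The inclusion of `A1 K N` in the function field. -/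
noncomputable def incl (N : ℕ) : A1 K N →ₐ[K] FF1 K N := Subalgebra.inclusion (A1_le K N)

theorem incl_injective (N : ℕ) : Function.Injective (incl K N) :=
  Subalgebra.inclusion_injective _

@[simp] theorem coe_incl (N : ℕ) (a : A1 K N) :
    ((incl K N a : FF1 K N) : LaurentSeries K) = a := rfl

/-- The generator `j(q^d)`. -/
noncomputable def jdA (N d : ℕ) [NeZero d] (hd : d ∣ N) : A1 K N :=
  ⟨ModularCurve.qExpand K d (ModularCurve.jqModC K),
    Algebra.subset_adjoin (Or.inl (ModularCurve.mem_divisorExpansionsC K N hd))⟩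

/-- The generator `e_b Δ(q^d)⁻¹`. -/
noncomputable def genA (N : ℕ) (b : ZMod N) (hb : b ≠ 0) (d : ℕ) [NeZero d] (hd : d ∣ N) : A1 K N :=
  ⟨uB K N d b, Algebra.subset_adjoin (Or.inr ⟨d, ‹_›, b, hd, hb, rfl⟩)⟩

noncomputable def jA (N : ℕ) : A1 K N :=
  ⟨ModularCurve.jqModC K, by
    have h := (jdA K N 1 (one_dvd N)).2
    simp only [jdA] at h
    rwa [ModularCurve.qExpand_one_apply] at h⟩

/-- `j` as an element of the function field. -/
noncomputable def jF (N : ℕ) : FF1 K N := incl K N (jA K N)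

/-- `j(q^d)` as an element of the function field. -/
noncomputable def jdF (N d : ℕ) [NeZero d] (hd : d ∣ N) : FF1 K N := incl K N (jdA K N d hd)

/-- Every element of the function field is a fraction of elements of `A1`. -/
theorem exists_frac (N : ℕ) (f : FF1 K N) :
    ∃ a b : A1 K N, b ≠ 0 ∧ f = incl K N a / incl K N b := by
  have hf : (f : LaurentSeries K) ∈ IntermediateField.adjoin K
      (ModularCurve.divisorExpansionsC K N ∪ eisGens K N) := f.2
  obtain ⟨r, s, hrs⟩ := (IntermediateField.mem_adjoin_iff K _).mp hf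
  have hmem : ∀ r : MvPolynomial (ModularCurve.divisorExpansionsC K N ∪ eisGens K N : Set _) K,
      MvPolynomial.aeval Subtype.val r ∈ A1 K N := by
    intro r
    unfold A1
    rw [Algebra.adjoin_eq_range]
    exact ⟨r, rfl⟩
  by_cases hs : MvPolynomial.aeval Subtype.val s = (0 : LaurentSeries K)
  · refine ⟨0, 1, one_ne_zero, ?_⟩
    rw [hs, div_zero] at hrs
    rw [map_zero, zero_div]
    exact Subtype.ext hrs
  · refine ⟨⟨_, hmem r⟩, ⟨_, hmem s⟩, fun h => hs (congrArg Subtype.val h), ?_⟩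
    exact Subtype.ext hrs

/-- `FF1 K N` is the fraction field of `A1 K N`: injective ring homomorphisms to fields extend. -/
theorem exists_lift (N : ℕ) {L : Type*} [Field L] (Ψ : A1 K N →+* L)
    (hΨ : Function.Injective Ψ) :
    ∃ φ : FF1 K N →+* L, ∀ a : A1 K N, φ (incl K N a) = Ψ a := by
  let _ : Algebra (A1 K N) (FF1 K N) := (incl K N).toRingHom.toAlgebra
  have : FaithfulSMul (A1 K N) (FF1 K N) :=
    (faithfulSMul_iff_algebraMap_injective _ _).mpr (incl_injective K N)
  have : IsFractionRing (A1 K N) (FF1 K N) := IsFractionRing.of_field _ _ (fun z => by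
    obtain ⟨a, b, -, h⟩ := exists_frac K N z
    exact ⟨a, b, h⟩)
  exact ⟨IsFractionRing.lift hΨ, fun a => IsFractionRing.lift_algebraMap hΨ a⟩

/-- Induction principle for `A1`. -/
theorem A1_induction (N : ℕ) {p : A1 K N → Prop}
    (hgen : ∀ (d : ℕ) (_ : NeZero d) (hd : d ∣ N), p (jdA K N d hd))
    (hgen2 : ∀ (b : ZMod N) (hb : b ≠ 0) (d : ℕ) (_ : NeZero d) (hd : d ∣ N), p (genA K N b hb d hd))
    (hconst : ∀ c : K, p (algebraMap K (A1 K N) c))
    (hadd : ∀ a b, p a → p b → p (a + b)) (hmul : ∀ a b, p a → p b → p (a * b)) (a : A1 K N) :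
    p a := by
  obtain ⟨a, ha⟩ := a
  have key : ∀ x (hx : x ∈ Algebra.adjoin K (ModularCurve.divisorExpansionsC K N ∪ eisGens K N)),
      p ⟨x, hx⟩ := by
    intro x hx
    induction hx using Algebra.adjoin_induction with
    | mem x hx =>
      rcases hx with hx | hx
      · obtain ⟨d, hd0, hd, rfl⟩ := hx
        exact hgen d hd0 hd
      · obtain ⟨d, hd0, b, hd, hb, rfl⟩ := hx
        exact hgen2 b hb d hd0 hd
    | algebraMap c => exact hconst c
    | add x y hx hy h1 h2 =>
      have e : (⟨x + y, (A1 K N).add_mem hx hy⟩ : A1 K N) = (⟨x, hx⟩ : A1 K N) + (⟨y, hy⟩ : A1 K N) :=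
        Subtype.ext (Subalgebra.coe_add (A1 K N) ⟨x, hx⟩ ⟨y, hy⟩).symm
      exact e ▸ hadd _ _ h1 h2
    | mul x y hx hy h1 h2 =>
      have e : (⟨x * y, (A1 K N).mul_mem hx hy⟩ : A1 K N) = (⟨x, hx⟩ : A1 K N) * (⟨y, hy⟩ : A1 K N) :=
        Subtype.ext (Subalgebra.coe_mul (A1 K N) ⟨x, hx⟩ ⟨y, hy⟩).symm
      exact e ▸ hmul _ _ h1 h2
  exact key a ha

end Alg

section Ev

variable {K : Type} [Field K] (ι : K →+* ℂ)

theorem coeffMap_qExpand_jq (d : ℕ) [NeZero d] :
    ModularCurve.coeffMap ι (ModularCurve.qExpand K d (ModularCurve.jqModC K))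
      = ModularCurve.qExpand ℂ d (ModularCurve.jqModC ℂ) := by
  rw [ModularCurve.coeffMap_qExpand]
  congr 1
  exact ModularCurve.map_jqModC (K := K) _

theorem coeffMap_algebraMap (c : K) :
    ModularCurve.coeffMap ι (algebraMap K (LaurentSeries K) c) = HahnSeries.C (ι c) := by
  rw [ModularCurve.algebraMap_laurentSeries_eq_single, ModularCurve.coeffMap_single,
    HahnSeries.C_apply]

theorem coeffMap_mem_range (N : ℕ) [NeZero N] (a : LaurentSeries K) (ha : a ∈ A1 K N) :
    ModularCurve.coeffMap ι a ∈ (laurentHom 1).range := by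
  unfold A1 at ha
  induction ha using Algebra.adjoin_induction with
  | mem x hx =>
    rcases hx with hx | hx
    · obtain ⟨d, hd0, -, rfl⟩ := hx
      rw [coeffMap_qExpand_jq, ← laurentHom_jdfun]
      exact ⟨_, rfl⟩
    · obtain ⟨d, hd0, b, -, hb, rfl⟩ := hx
      rw [coeffMap_uB, ← intCast_val_eq N b, ← laurentHom_genF N _ (not_dvd_val N hb) d]
      exact ⟨_, rfl⟩
  | algebraMap c =>
    rw [coeffMap_algebraMap, ← Fermat.Agent.S24.Ev.laurentHom_const]
    exact ⟨_, rfl⟩
  | add x y _ _ h1 h2 =>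
    rw [map_add]; exact add_mem h1 h2
  | mul x y _ _ h1 h2 =>
    rw [map_mul]; exact mul_mem h1 h2

/-- Every element of `A1` is the `q`-expansion of a (unique) holomorphic function. -/
theorem exists_evA (N : ℕ) [NeZero N] :
    ∃ ev : A1 K N →+* Hol, ∀ a : A1 K N, ∃ h : ((ev a : Hol) : ℍ → ℂ) ∈ MerInf 1,
      laurentHom 1 ⟨_, h⟩ = ModularCurve.coeffMap ι (a : LaurentSeries K) := by
  let e : MerInf 1 ≃+* (laurentHom 1).range :=
    RingEquiv.ofBijective (laurentHom 1).rangeRestrict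
      ⟨fun x y hxy => laurentHom_injective 1 (congrArg Subtype.val hxy),
        (laurentHom 1).rangeRestrict_surjective⟩
  let c : A1 K N →+* (laurentHom 1).range :=
    ((ModularCurve.coeffMap ι).comp (A1 K N).val.toRingHom).codRestrict (laurentHom 1).range
      (fun a => coeffMap_mem_range ι N a a.2)
  refine ⟨(Subring.inclusion (Fermat.Agent.S24.Ev.MerInf_le_Hol 1)).comp (e.symm.toRingHom.comp c),
    fun a => ?_⟩
  refine ⟨(e.symm (c a)).2, ?_⟩
  have h1 : e (e.symm (c a)) = c a := e.apply_symm_apply _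
  exact congrArg Subtype.val h1

/-- Evaluation of `q`-series in `A1` as holomorphic functions on `ℍ`. -/
noncomputable def evA (N : ℕ) [NeZero N] : A1 K N →+* Hol := (exists_evA ι N).choose

theorem evA_mem (N : ℕ) [NeZero N] (a : A1 K N) : ((evA ι N a : Hol) : ℍ → ℂ) ∈ MerInf 1 :=
  ((exists_evA ι N).choose_spec a).choose

theorem laurentHom_evA (N : ℕ) [NeZero N] (a : A1 K N) :
    laurentHom 1 ⟨_, evA_mem ι N a⟩ = ModularCurve.coeffMap ι (a : LaurentSeries K) :=
  ((exists_evA ι N).choose_spec a).choose_spec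

theorem coeffMap_injective : Function.Injective (ModularCurve.coeffMap ι) := by
  intro x y h
  ext k
  have := congrArg (fun z => z.coeff k) h
  exact ι.injective (by simpa using this)

theorem evA_eq_of_laurentHom (N : ℕ) [NeZero N] (a : A1 K N) (f : ℍ → ℂ) (hf : f ∈ MerInf 1)
    (h : laurentHom 1 ⟨f, hf⟩ = ModularCurve.coeffMap ι (a : LaurentSeries K)) :
    ((evA ι N a : Hol) : ℍ → ℂ) = f := by
  have := laurentHom_injective 1 ((laurentHom_evA ι N a).trans h.symm)
  exact congrArg Subtype.val this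

theorem evA_injective (N : ℕ) [NeZero N] : Function.Injective (evA ι N) := by
  intro a b hab
  have h1 := laurentHom_evA ι N a
  have h2 := laurentHom_evA ι N b
  have h3 : (⟨_, evA_mem ι N a⟩ : MerInf 1) = ⟨_, evA_mem ι N b⟩ :=
    Subtype.ext (congrArg (fun z : Hol => (z : ℍ → ℂ)) hab)
  rw [h3] at h1
  exact Subtype.ext (coeffMap_injective ι (h1.symm.trans h2))

theorem evA_algebraMap (N : ℕ) [NeZero N] (c : K) :
    evA ι N (algebraMap K (A1 K N) c) = constHol (ι c) := by
  apply Subtype.ext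
  apply evA_eq_of_laurentHom ι N _ _ (Fermat.Agent.S24.Ev.const_mem_MerInf (ι c))
  rw [Fermat.Agent.S24.Ev.laurentHom_const]
  exact (coeffMap_algebraMap ι c).symm

theorem evA_jdA (N d : ℕ) [NeZero N] [NeZero d] (hd : d ∣ N) (τ : ℍ) :
    (evA ι N (jdA K N d hd) : ℍ → ℂ) τ = jdfun d τ := by
  have := evA_eq_of_laurentHom ι N (jdA K N d hd) _ (jdfun_mem_MerInf d) (by
    rw [laurentHom_jdfun]
    exact (coeffMap_qExpand_jq ι d).symm)
  rw [this]

theorem evA_genA (N : ℕ) [NeZero N] (b : ZMod N) (hb : b ≠ 0) (d : ℕ) [NeZero d] (hd : d ∣ N) (τ : ℍ) :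
    (evA ι N (genA K N b hb d hd) : ℍ → ℂ) τ = genF N (b.val : ℤ) d τ := by
  have := evA_eq_of_laurentHom ι N (genA K N b hb d hd) _
    (genF_mem_MerInf_one N _ (not_dvd_val N hb) d) (by
    rw [laurentHom_genF N _ (not_dvd_val N hb) d, intCast_val_eq]
    exact (coeffMap_uB ι N d b).symm)
  rw [this]

theorem evA_jA (N : ℕ) [NeZero N] : evA ι N (jA K N) = jHol := by
  apply Subtype.ext
  apply evA_eq_of_laurentHom ι N _ _ jfun_mem_MerInf
  rw [laurentHom_jfun]
  have := coeffMap_qExpand_jq ι 1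
  rw [ModularCurve.qExpand_one_apply, ModularCurve.qExpand_one_apply] at this
  exact this.symm

/-- Uniformisation data on the level of `A1`. -/
structure PreUnif (N : ℕ) (c : K) (e : ℤ) (e0 : ℕ) (g : Equiv.Perm (Cosets1 N)) where
  Ψ : Cosets1 N → A1 K N →+* LaurentSeries ℂ
  inj_each : ∀ i, Function.Injective (Ψ i)
  map_const : ∀ i a, Ψ i (algebraMap K (A1 K N) a) = HahnSeries.C (ι a)
  map_j : ∀ i i', Ψ i (jA K N) = Ψ i' (jA K N)
  inj : Function.Injective Ψ
  e0_pos : 0 < e0
  order_x : ∀ i, (Ψ i (jA K N - algebraMap K (A1 K N) c)).order = e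
  order_perm : ∀ i a, (Ψ (g i) a).order = (Ψ i a).order
  order_dvd : ∀ i (w : ℕ), (g ^ w) i = i → ∀ a, (e0 : ℤ) ∣ (w : ℤ) * (Ψ i a).order

variable {ι}

/-- common part of V6 and V7 -/
theorem exists_family {N : ℕ} {c : K} {e : ℤ} {e0 : ℕ} {g : Equiv.Perm (Cosets1 N)}
    (P : PreUnif ι N c e e0 g) :
    ∃ φ : Cosets1 N → FF1 K N →+* LaurentSeries ℂ,
      (∀ i a, φ i (incl K N a) = P.Ψ i a) ∧
      (∀ i a, φ i (algebraMap K (FF1 K N) a) = HahnSeries.C (ι a)) ∧
      Function.Injective φ ∧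
      (∀ i f, (φ (g i) f).order = (φ i f).order) ∧
      (∀ i (w : ℕ), (g ^ w) i = i → ∀ f, (e0 : ℤ) ∣ (w : ℤ) * (φ i f).order) := by
  choose φ hφ using fun i => exists_lift K N (P.Ψ i) (P.inj_each i)
  have hord : ∀ i (a b : A1 K N), a ≠ 0 → b ≠ 0 →
      (φ i (incl K N a / incl K N b)).order = (P.Ψ i a).order - (P.Ψ i b).order := by
    intro i a b ha hb
    rw [map_div₀, hφ, hφ, Fermat.Agent.S24.Ev.order_div ((map_ne_zero_iff _ (P.inj_each i)).mpr ha)
      ((map_ne_zero_iff _ (P.inj_each i)).mpr hb)]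
  refine ⟨φ, hφ, ?_, ?_, ?_, ?_⟩
  · intro i a
    rw [← (incl K N).commutes a, hφ, P.map_const]
  · intro i i' h
    apply P.inj
    ext1 a
    rw [← hφ, ← hφ, h]
  · intro i f
    obtain ⟨a, b, hb, rfl⟩ := exists_frac K N f
    rcases eq_or_ne a 0 with rfl | ha
    · simp
    · rw [hord _ a b ha hb, hord _ a b ha hb, P.order_perm, P.order_perm]
  · intro i w hw f
    obtain ⟨a, b, hb, rfl⟩ := exists_frac K N f
    rcases eq_or_ne a 0 with rfl | ha
    · simp
    · rw [hord _ a b ha hb, mul_sub]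
      exact dvd_sub (P.order_dvd i w hw a) (P.order_dvd i w hw b)

/-- PIECE V6. -/
theorem PreUnif.toUnifData {N : ℕ} {c : K} {e0 : ℕ} {g : Equiv.Perm (Cosets1 N)}
    (P : PreUnif ι N c (e0 : ℤ) e0 g) :
    ∃ U : UnifData K (FF1 K N) (Cosets1 N) (jF K N - algebraMap K (FF1 K N) c) e0 g,
      U.ι = ι ∧ ∀ i a, U.φ i (incl K N a) = P.Ψ i a := by
  obtain ⟨φ, h1, h2, h3, h4, h5⟩ := exists_family P
  have hx : ∀ i, φ i (jF K N - algebraMap K (FF1 K N) c)
      = P.Ψ i (jA K N - algebraMap K (A1 K N) c) := by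
    intro i
    rw [← h1, map_sub (incl K N), (incl K N).commutes]
    rfl
  exact ⟨{ φ := φ
           ι := ι
           map_const := h2
           map_x := fun i i' => by
            rw [hx, hx, map_sub, map_sub, P.map_j i i', P.map_const, P.map_const]
           inj := h3
           e0_pos := P.e0_pos
           order_x := fun i => by rw [hx, P.order_x]
           order_perm := h4
           order_dvd := h5 }, rfl, h1⟩

/-- PIECE V7. -/
theorem PreUnif.toUnifDataInv {N : ℕ} {e0 : ℕ} {g : Equiv.Perm (Cosets1 N)}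
    (P : PreUnif ι N 0 (-(e0 : ℤ)) e0 g) :
    ∃ U : UnifData K (FF1 K N) (Cosets1 N) (jF K N)⁻¹ e0 g,
      U.ι = ι ∧ ∀ i a, U.φ i (incl K N a) = P.Ψ i a := by
  obtain ⟨φ, h1, h2, h3, h4, h5⟩ := exists_family P
  have hx : ∀ i, φ i (jF K N)⁻¹ = (P.Ψ i (jA K N))⁻¹ := by
    intro i
    rw [map_inv₀, ← h1]
    rfl
  have hord : ∀ i, (P.Ψ i (jA K N)).order = -(e0 : ℤ) := by
    intro i
    have := P.order_x i
    rwa [map_zero, sub_zero] at this
  have hne : ∀ i, P.Ψ i (jA K N) ≠ 0 := by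
    intro i h0
    have := hord i
    rw [h0, HahnSeries.order_zero] at this
    have := P.e0_pos
    omega
  exact ⟨{ φ := φ
           ι := ι
           map_const := h2
           map_x := fun i i' => by rw [hx, hx, P.map_j i i']
           inj := h3
           e0_pos := P.e0_pos
           order_x := fun i => by rw [hx, Fermat.Agent.S24.Ev.order_inv (hne i), hord, neg_neg]
           order_perm := h4
           order_dvd := h5 }, rfl, h1⟩

end Ev

end Fermat.Agent.G1.A
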