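import Fermat.Agent.S24.Degree
import Fermat.Agent.G1.A.ConjC

/-!
# GR-A, port of `S24/Degree.lean` (the part depending on the base field):
`[FF1 K N : K(j)] = [SL₂(ℤ) : Γ₀(N)]`.
-/

set_option autoImplicit false

namespace Fermat.Agent.G1.A

open Fermat.Agent.GR Fermat.Agent.GR.A Fermat.Agent.G1

open UpperHalfPlane Function IntermediateField
open Fermat.Agent.S24 (Hol constHol compHom taylorHom MerInf laurentHom jfun jdfun jHol
  compHom_apply compHom_constHol compHom_mul compHom_one compHom_jHol degree_eval₂_injective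
  degree_mem_MerInf_one exists_polynomial_of_invariant degreeR1 degreeLam degree_const_mem_MerInf
  degree_laurentHom_const degree_module_eq degreeAux_linearIndependent_of
  degreeAux_eq_zero_of_linearIndependent degreeAux_finrank_le taylorHom_injective)
open scoped Manifold MatrixGroups

variable {K : Type} [Field K] [CharZero K] (ι : K →+* ℂ)

include ι

theorem degree_evA_eval₂ (N : ℕ) [NeZero N] (P : Polynomial K) :
    evA ι N (Polynomial.eval₂ (algebraMap K (A1 K N)) (jA K N) P) =
      Polynomial.eval₂ constHol jHol (P.map ι) := by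
  rw [Polynomial.hom_eval₂, Polynomial.eval₂_map, evA_jA]
  congr 1
  ext c : 1
  exact evA_algebraMap ι N c

theorem transcendental_jA (N : ℕ) [NeZero N] : Transcendental K (jA K N) := by
  rw [transcendental_iff]
  intro p hp
  have h1 : evA ι N (Polynomial.eval₂ (algebraMap K (A1 K N)) (jA K N) p) = 0 := by
    rw [← Polynomial.aeval_def, hp, map_zero]
  rw [degree_evA_eval₂] at h1
  have h2 : p.map ι = 0 := degree_eval₂_injective (by rw [map_zero]; exact h1)
  exact (Polynomial.map_eq_zero ι).1 h2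

/-- PIECE D1. -/
theorem transcendental_jF (N : ℕ) [NeZero N] : Transcendental K (jF K N) := by
  rw [transcendental_iff]
  intro p hp
  rw [jF, Polynomial.aeval_algHom_apply] at hp
  have := incl_injective K N (hp.trans (map_zero _).symm)
  exact (transcendental_iff.1 (transcendental_jA ι N)) p this

/-- PIECE D2. Linear disjointness: a family of Laurent series over `ℚ̄` which is linearly
independent over `ℚ̄` stays so over `ℂ`. -/
theorem linearIndependent_coeffMap {I : Type} (v : I → LaurentSeries K)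
    (hv : LinearIndependent K v) :
    LinearIndependent ℂ (fun i => ModularCurve.coeffMap ι (v i)) := by
  classical
  let _ : Algebra K ℂ := ι.toAlgebra
  let b := Module.Basis.ofVectorSpace K ℂ
  rw [linearIndependent_iff'] at hv ⊢
  intro s g hg i hi
  have key : ∀ k, ∀ i ∈ s, b.coord k (g i) = 0 := by
    intro k
    apply hv s (fun i => b.coord k (g i))
    ext n
    have h1 := congrArg (fun x => HahnSeries.coeff x n) hg
    simp only [HahnSeries.coeff_sum, HahnSeries.coeff_smul, ModularCurve.coeffMap_coeff,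
      HahnSeries.coeff_zero, smul_eq_mul] at h1 ⊢
    have h2 := congrArg (b.coord k) h1
    rw [map_sum, map_zero] at h2
    rw [← h2]
    apply Finset.sum_congr rfl
    intro i _
    have : g i * ι ((v i).coeff n) = ((v i).coeff n) • g i := by
      rw [Algebra.smul_def, mul_comm]; rfl
    rw [this, map_smul, smul_eq_mul, mul_comm]
  apply b.ext_elem
  intro k
  have := key k i hi
  simpa using this


local notation "𝕢" => Periodic.qParam

/-- PIECE D3. Every `a ∈ A1` is a root of a monic polynomial of degree `|X|` over `ℂ[j]`. -/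
theorem exists_monic_annihilator (N : ℕ) [NeZero N] (a : A1 K N) :
    ∃ P : Polynomial (Polynomial ℂ), P.Monic ∧ P.natDegree = Nat.card (Cosets1 N) ∧
      Polynomial.eval₂ (Polynomial.eval₂RingHom constHol jHol) (evA ι N a) P = 0 := by
  classical
  let _ := Fintype.ofFinite (Cosets1 N)
  let P : Polynomial Hol := ∏ x : Cosets1 N, (Polynomial.X - Polynomial.C (conjHom ι N x a))
  have hPmonic : P.Monic := Polynomial.monic_prod_X_sub_C _ _
  have hPdeg : P.natDegree = Nat.card (Cosets1 N) := by
    rw [Polynomial.natDegree_finsetProd_X_sub_C_eq_card, Finset.card_univ, Nat.card_eq_fintype_card]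
  have hPmap : ∀ γ : SL(2, ℤ), P.map (compHom γ⁻¹) = P := by
    intro γ
    simp only [P, Polynomial.map_prod, Polynomial.map_sub, Polynomial.map_X, Polynomial.map_C,
      ← conjHom_smul]
    exact Equiv.prod_comp (MulAction.toPerm γ)
      (fun x : Cosets1 N => (Polynomial.X - Polynomial.C (conjHom ι N x a)))
  have hinv : ∀ (n : ℕ) (γ : SL(2, ℤ)), compHom γ (P.coeff n) = P.coeff n := by
    intro n γ
    have := congrArg (fun Q => Polynomial.coeff Q n) (hPmap γ⁻¹)
    simpa [Polynomial.coeff_map] using this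
  let R' : Subring Hol := (MerInf N).comap Hol.subtype
  have hPlift : P ∈ Polynomial.liftsRing R'.subtype := by
    apply Subring.prod_mem
    intro x _
    apply Subring.sub_mem
    · exact Polynomial.X_mem_lifts _
    · exact Polynomial.C_mem_lifts R'.subtype ⟨conjHom ι N x a, conjHom_mem_MerInf ι N x a⟩
  have hmerN : ∀ n, ((P.coeff n : Hol) : ℍ → ℂ) ∈ MerInf N := by
    intro n
    obtain ⟨r, hr⟩ := (Polynomial.lifts_iff_coeff_lifts P).1 hPlift n
    rw [← hr]
    exact r.2
  have hmer1 : ∀ n, ((P.coeff n : Hol) : ℍ → ℂ) ∈ MerInf 1 := by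
    intro n
    apply degree_mem_MerInf_one N _ (hmerN n)
    intro τ
    have := congrArg (fun f : Hol => (f : ℍ → ℂ) τ) (hinv n ModularGroup.T)
    simpa using this
  have hPlift2 : P ∈ Polynomial.lifts (Polynomial.eval₂RingHom constHol jHol) := by
    rw [Polynomial.lifts_iff_coeff_lifts]
    intro n
    obtain ⟨Q, hQ⟩ := exists_polynomial_of_invariant (P.coeff n) (hinv n) (hmer1 n)
    exact ⟨Q, hQ.symm⟩
  obtain ⟨Q, hQ1, hQ2, hQ3⟩ := Polynomial.lifts_and_natDegree_eq_and_monic hPlift2 hPmonic
  refine ⟨Q, hQ3, hQ2.trans hPdeg, ?_⟩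
  rw [Polynomial.eval₂_eq_eval_map, hQ1]
  simp only [P, Polynomial.eval_prod, Polynomial.eval_sub, Polynomial.eval_X, Polynomial.eval_C]
  apply Finset.prod_eq_zero (Finset.mem_univ (QuotientGroup.mk 1 : Cosets1 N))
  rw [conjHom_mk, inv_one, compHom_one, sub_self]

theorem degree_relation_transfer (N : ℕ) [NeZero N] (a : A1 K N) (Q : Polynomial (Polynomial ℂ))
    (hQ : Polynomial.eval₂ (Polynomial.eval₂RingHom constHol jHol) (evA ι N a) Q = 0) :
    Polynomial.eval₂ (Polynomial.eval₂RingHom (algebraMap ℂ (LaurentSeries ℂ))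
      (ModularCurve.coeffMap ι (jA K N : LaurentSeries K)))
      (ModularCurve.coeffMap ι (a : LaurentSeries K)) Q = 0 := by
  let evA' : A1 K N →+* degreeR1 := (evA ι N).codRestrict degreeR1 (evA_mem ι N)
  let constR1 : ℂ →+* degreeR1 := constHol.codRestrict degreeR1 degree_const_mem_MerInf
  have hΛev : ∀ b : A1 K N, degreeLam (evA' b) = ModularCurve.coeffMap ι (b : LaurentSeries K) :=
    fun b => laurentHom_evA ι N b
  have hΛc : ∀ c : ℂ, degreeLam (constR1 c) = algebraMap ℂ (LaurentSeries ℂ) c :=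
    fun c => degree_laurentHom_const c
  let f1 : Polynomial ℂ →+* degreeR1 := Polynomial.eval₂RingHom constR1 (evA' (jA K N))
  have h1 : degreeR1.subtype.comp f1 = Polynomial.eval₂RingHom constHol jHol := by
    apply Polynomial.ringHom_ext
    · intro c
      simp only [f1, RingHom.comp_apply, Polynomial.coe_eval₂RingHom, Polynomial.eval₂_C]
      rfl
    · simp only [f1, RingHom.comp_apply, Polynomial.coe_eval₂RingHom, Polynomial.eval₂_X]
      exact evA_jA ι N
  have h2 : degreeLam.comp f1 = Polynomial.eval₂RingHom (algebraMap ℂ (LaurentSeries ℂ))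
      (ModularCurve.coeffMap ι (jA K N : LaurentSeries K)) := by
    apply Polynomial.ringHom_ext
    · intro c
      simp [f1, hΛc]
    · simp [f1, hΛev]
  have h3 : Polynomial.eval₂ f1 (evA' a) Q = 0 := by
    apply degreeR1.subtype_injective
    rw [Polynomial.hom_eval₂, h1, map_zero]
    exact hQ
  have h4 := congrArg degreeLam h3
  rw [Polynomial.hom_eval₂, h2, map_zero, hΛev] at h4
  exact h4

theorem degree_linearIndependent_val (N : ℕ) {I : Type} (v : I → A1 K N)
    (hv : LinearIndependent K v) :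
    LinearIndependent K (fun i => (v i : LaurentSeries K)) := by
  rw [← degree_module_eq]
  let inst : Module K (LaurentSeries K) := Algebra.toModule
  exact hv.map' (A1 K N).val.toLinearMap (LinearMap.ker_eq_bot.2 Subtype.val_injective)

/-- PIECE D4. -/
theorem exists_annihilator_K (N : ℕ) [NeZero N] (a : A1 K N) :
    ∃ P : Polynomial (Polynomial K), P ≠ 0 ∧ P.natDegree ≤ Nat.card (Cosets1 N) ∧
      Polynomial.eval₂ (Polynomial.eval₂RingHom (algebraMap K (A1 K N)) (jA K N)) a P = 0 := by
  by_contra hcon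
  push Not at hcon
  have hK : LinearIndependent K
      (fun i : ℕ × Fin (Nat.card (Cosets1 N) + 1) => (jA K N) ^ i.1 * a ^ (i.2 : ℕ)) := by
    apply degreeAux_linearIndependent_of
    intro P hdeg heval
    by_contra hP
    exact hcon P hP hdeg heval
  have hC := linearIndependent_coeffMap ι _ (degree_linearIndependent_val ι N _ hK)
  rw [← degree_module_eq] at hC
  obtain ⟨Q, hQ1, hQ2, hQ3⟩ := exists_monic_annihilator ι N a
  have e : (fun i : ℕ × Fin (Nat.card (Cosets1 N) + 1) => ModularCurve.coeffMap ι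
      ((jA K N ^ i.1 * a ^ (i.2 : ℕ) : A1 K N) : LaurentSeries K)) = fun i =>
      (ModularCurve.coeffMap ι (jA K N : LaurentSeries K)) ^ i.1 *
        (ModularCurve.coeffMap ι (a : LaurentSeries K)) ^ (i.2 : ℕ) := by
    funext i; simp
  rw [e] at hC
  exact hQ1.ne_zero (degreeAux_eq_zero_of_linearIndependent _ _ _ hC Q hQ2.le
    (degree_relation_transfer ι N a Q hQ3))

set_option maxHeartbeats 1600000 in
set_option synthInstance.maxHeartbeats 400000 in
theorem degree_incl_bound (N : ℕ) [NeZero N] (a : A1 K N) :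
    IsIntegral K⟮jF K N⟯ (incl K N a) ∧
      (minpoly K⟮jF K N⟯ (incl K N a)).natDegree ≤ Nat.card (Cosets1 N) := by
  obtain ⟨P, hP0, hPdeg, hPev⟩ := exists_annihilator_K ι N a
  let φ : Polynomial K →+* K⟮jF K N⟯ :=
    (Polynomial.aeval (AdjoinSimple.gen K (jF K N))).toRingHom
  have hφ : Function.Injective φ := by
    have h1 : Transcendental K (AdjoinSimple.gen K (jF K N)) := by
      rw [← transcendental_algebraMap_iff (algebraMap K⟮jF K N⟯ (FF1 K N)).injective,
        AdjoinSimple.algebraMap_gen]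
      exact transcendental_jF ι N
    exact transcendental_iff_injective.1 h1
  have hQ0 : P.map φ ≠ 0 := (Polynomial.map_ne_zero_iff hφ).2 hP0
  have hQdeg : (P.map φ).natDegree ≤ Nat.card (Cosets1 N) :=
    (Polynomial.natDegree_map_le).trans hPdeg
  have hQev : Polynomial.aeval (incl K N a) (P.map φ) = 0 := by
    rw [Polynomial.aeval_def, Polynomial.eval₂_map]
    have h2 : (algebraMap K⟮jF K N⟯ (FF1 K N)).comp φ = (incl K N : A1 K N →+* FF1 K N).comp
        (Polynomial.eval₂RingHom (algebraMap K (A1 K N)) (jA K N)) := by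
      apply Polynomial.ringHom_ext
      · intro c
        simp [φ]
      · have h4 : φ Polynomial.X = AdjoinSimple.gen K (jF K N) := Polynomial.aeval_X _
        rw [RingHom.comp_apply, h4, AdjoinSimple.algebraMap_gen, RingHom.comp_apply,
          Polynomial.coe_eval₂RingHom, Polynomial.eval₂_X]
        rfl
    rw [h2]
    have h3 := Polynomial.hom_eval₂ P (Polynomial.eval₂RingHom (algebraMap K (A1 K N)) (jA K N))
      (incl K N : A1 K N →+* FF1 K N) a
    rw [hPev, map_zero] at h3
    exact h3.symm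
  exact ⟨isAlgebraic_iff_isIntegral.1 ⟨_, hQ0, hQev⟩,
    (Polynomial.natDegree_le_of_dvd (minpoly.dvd _ _ hQev) hQ0).trans hQdeg⟩

set_option synthInstance.maxHeartbeats 400000 in
theorem degree_main (N : ℕ) [NeZero N] : FiniteDimensional K⟮jF K N⟯ (FF1 K N) ∧
    Module.finrank K⟮jF K N⟯ (FF1 K N) ≤ Nat.card (Cosets1 N) := by
  have : CharZero K⟮jF K N⟯ :=
    charZero_of_injective_algebraMap (algebraMap K K⟮jF K N⟯).injective
  apply degreeAux_finrank_le (Set.range (incl K N)) _ ⟨_, ⟨0, rfl⟩⟩
  · rintro _ ⟨a, rfl⟩ _ ⟨b, rfl⟩ k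
    exact ⟨a + (k : A1 K N) * b, by simp⟩
  · rintro _ ⟨a, rfl⟩
    exact (degree_incl_bound ι N a).1
  · rintro _ ⟨a, rfl⟩
    exact (degree_incl_bound ι N a).2
  · intro x
    obtain ⟨a, b, -, rfl⟩ := exists_frac K N x
    exact ⟨_, ⟨a, rfl⟩, _, ⟨b, rfl⟩, rfl⟩

/-- PIECE D5. -/
theorem finiteDimensional_FF (N : ℕ) [NeZero N] : FiniteDimensional K⟮jF K N⟯ (FF1 K N) :=
  (degree_main ι N).1

theorem finrank_FF_le (N : ℕ) [NeZero N] :
    Module.finrank K⟮jF K N⟯ (FF1 K N) ≤ Nat.card (Cosets1 N) :=
  (degree_main ι N).2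

set_option synthInstance.maxHeartbeats 400000 in
/-- PIECE D6. -/
theorem card_le_finrank_FF (N : ℕ) [NeZero N] :
    Nat.card (Cosets1 N) ≤ Module.finrank K⟮jF K N⟯ (FF1 K N) := by
  haveI := finiteDimensional_FF ι N
  let τ : ℍ := UpperHalfPlane.I
  let Ψ : Cosets1 N → A1 K N →+* LaurentSeries ℂ := fun x =>
    (HahnSeries.ofPowerSeries ℤ ℂ).comp ((taylorHom τ).comp (conjHom ι N x))
  have hΨinj : ∀ x, Function.Injective (Ψ x) := fun x =>
    (HahnSeries.ofPowerSeries_injective).comp ((taylorHom_injective τ).comp (conjHom_injective ι N x))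
  choose φ hφ using fun x => exists_lift K N (Ψ x) (hΨinj x)
  let x0 : Cosets1 N := QuotientGroup.mk 1
  let _ : Algebra K⟮jF K N⟯ (LaurentSeries ℂ) :=
    ((φ x0).comp (algebraMap K⟮jF K N⟯ (FF1 K N))).toAlgebra
  have hconj : ∀ x (r : Polynomial K), conjHom ι N x (Polynomial.aeval (jA K N) r) =
      Polynomial.eval₂ (constHol.comp ι) jHol r := by
    intro x r
    rw [Polynomial.aeval_def, Polynomial.hom_eval₂, conjHom_jA]
    congr 1
    ext c : 1
    exact conjHom_algebraMap ι N x c
  have hpoly : ∀ x (r : Polynomial K), φ x (Polynomial.aeval (jF K N) r) =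
      φ x0 (Polynomial.aeval (jF K N) r) := by
    intro x r
    rw [jF, Polynomial.aeval_algHom_apply, hφ, hφ]
    simp only [Ψ, RingHom.comp_apply, hconj]
  have hagree : ∀ x (z : K⟮jF K N⟯), φ x (algebraMap _ _ z) = φ x0 (algebraMap _ _ z) := by
    intro x z
    obtain ⟨r, s, hz⟩ := (mem_adjoin_simple_iff K (z : FF1 K N)).1 z.2
    have : algebraMap K⟮jF K N⟯ (FF1 K N) z = Polynomial.aeval (jF K N) r / Polynomial.aeval (jF K N) s :=
      hz
    rw [this, map_div₀, map_div₀, hpoly, hpoly x s]
  let Φ : Cosets1 N → (FF1 K N →ₐ[K⟮jF K N⟯] LaurentSeries ℂ) := fun x =>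
    { φ x with commutes' := fun z => hagree x z }
  have hΦinj : Function.Injective Φ := by
    intro x y hxy
    apply conjHom_index_injective ι N
    ext a : 1
    apply taylorHom_injective τ
    apply HahnSeries.ofPowerSeries_injective (Γ := ℤ)
    have h1 : φ x (incl K N a) = φ y (incl K N a) := congrArg (fun f => f (incl K N a)) hxy
    rw [hφ, hφ] at h1
    exact h1
  calc Nat.card (Cosets1 N) ≤ Nat.card (FF1 K N →ₐ[K⟮jF K N⟯] LaurentSeries ℂ) :=
        Nat.card_le_card_of_injective Φ hΦinj
    _ ≤ Module.finrank K⟮jF K N⟯ (FF1 K N) := card_algHom_le_finrank _ _ _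

theorem finrank_FF (N : ℕ) [NeZero N] :
    Nat.card (Cosets1 N) = Module.finrank K⟮jF K N⟯ (FF1 K N) :=
  le_antisymm (card_le_finrank_FF ι N) (finrank_FF_le ι N)

end Fermat.Agent.G1.A
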