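import Fermat.Agent.S24.Local
import Fermat.Agent.G1.A.ConjC

/-!
# GR-A, port of `S24/Local.lean` (the part depending on the base field): local expansions of the
conjugates at points of `ℍ` (`localPsi`) and at `i∞` (`localPsiInf`), uniformisation data.
-/

set_option autoImplicit false

namespace Fermat.Agent.G1.A

open Fermat.Agent.GR Fermat.Agent.GR.A Fermat.Agent.G1

open UpperHalfPlane Function
open Fermat.Agent.S24 (Hol constHol compHom taylorHom MerInf laurentHom jfun jdfun jHol
  compHom_apply compHom_constHol compHom_mul compHom_one compHom_jHol taylorHom_injective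
  localStab mem_localStab local_neg_one_mem local_permOf_pow local_mem_of_coprime local_S_sq
  local_ST_cube taylorHom_constHol local_order_ofPowerSeries order_taylorHom_compHom
  order_taylorHom_generic rhoPt ST_smul_rhoPt three_dvd_order_of_invariant order_taylorHom_rhoPt
  S_smul_I two_dvd_order_of_invariant order_taylorHom_I local_laurentHom_congr laurentHom_injective
  laurentHom_eq_of_hasSum constHol_apply laurentHom_of_MerInf_one jfun_mem_MerInf laurentHom_jfun
  local_order_qExpand_jq local_order_eq_of_coeff coeff_laurentHom_compHom_T)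
open scoped Manifold MatrixGroups Topology

local notation "𝕢" => Periodic.qParam

variable {K : Type} [Field K] (ι : K →+* ℂ)

theorem local_permOf_pow (N : ℕ) (γ : SL(2, ℤ)) (w : ℕ) (x : Cosets1 N) :
    (permOf1 N γ ^ w) x = γ ^ w • x := by
  induction w generalizing x with
  | zero => simp
  | succ n ih =>
    rw [pow_succ, Equiv.Perm.mul_apply, ih, pow_succ, mul_smul]
    rfl

theorem local_pow_mem_stab (N : ℕ) [NeZero N] (γ : SL(2, ℤ)) (x : Cosets1 N) (a : A1 K N) (w : ℕ)
    (h : (permOf1 N γ ^ w) x = x) : γ ^ w ∈ localStab (conjHom ι N x a) := by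
  rw [local_permOf_pow] at h
  have h1 := conjHom_smul ι N (γ ^ w) x a
  rw [h] at h1
  have : (γ ^ w)⁻¹ ∈ localStab (conjHom ι N x a) := mem_localStab.mpr h1.symm
  simpa using (localStab (conjHom ι N x a)).inv_mem this

/-- Taylor expansions of the conjugates at `τ`. -/
noncomputable def localPsi (N : ℕ) [NeZero N] (τ : ℍ) (x : Cosets1 N) :
    A1 K N →+* LaurentSeries ℂ :=
  (HahnSeries.ofPowerSeries ℤ ℂ).comp ((taylorHom τ).comp (conjHom ι N x))

theorem localPsi_apply (N : ℕ) [NeZero N] (τ : ℍ) (x : Cosets1 N) (a : A1 K N) :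
    localPsi ι N τ x a = HahnSeries.ofPowerSeries ℤ ℂ (taylorHom τ (conjHom ι N x a)) := rfl

theorem localPsi_injective (N : ℕ) [NeZero N] (τ : ℍ) (x : Cosets1 N) :
    Function.Injective (localPsi ι N τ x) := by
  intro a b h
  rw [localPsi_apply, localPsi_apply] at h
  exact conjHom_injective ι N x (taylorHom_injective τ (HahnSeries.ofPowerSeries_injective h))

theorem localPsi_const (N : ℕ) [NeZero N] (τ : ℍ) (x : Cosets1 N) (c : K) :
    localPsi ι N τ x (algebraMap K (A1 K N) c) = HahnSeries.C (ι c) := by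
  rw [localPsi_apply, conjHom_algebraMap, taylorHom_constHol, HahnSeries.ofPowerSeries_C]

theorem localPsi_jA (N : ℕ) [NeZero N] (τ : ℍ) (x : Cosets1 N) :
    localPsi ι N τ x (jA K N) = HahnSeries.ofPowerSeries ℤ ℂ (taylorHom τ jHol) := by
  rw [localPsi_apply, conjHom_jA]

theorem localPsi_index_injective (N : ℕ) [NeZero N] (τ : ℍ) :
    Function.Injective (localPsi ι N τ) := by
  intro x y h
  apply conjHom_index_injective ι N
  ext1 a
  have := congrArg (fun φ : A1 K N →+* LaurentSeries ℂ => φ a) h
  simp only [localPsi_apply] at this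
  exact taylorHom_injective τ (HahnSeries.ofPowerSeries_injective this)

theorem localPsi_order (N : ℕ) [NeZero N] (τ : ℍ) (x : Cosets1 N) (a : A1 K N) :
    (localPsi ι N τ x a).order = ((taylorHom τ (conjHom ι N x a)).order.toNat : ℤ) := by
  rw [localPsi_apply, local_order_ofPowerSeries]

theorem localPsi_order_sub (N : ℕ) [NeZero N] (τ : ℍ) (x : Cosets1 N) (c : K) :
    (localPsi ι N τ x (jA K N - algebraMap K (A1 K N) c)).order =
      ((taylorHom τ (jHol - constHol (ι c))).order.toNat : ℤ) := by
  rw [localPsi_order, map_sub, conjHom_jA, conjHom_algebraMap]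

theorem localPsi_order_perm (N : ℕ) [NeZero N] (τ : ℍ) (γ : SL(2, ℤ)) (hγ : γ • τ = τ)
    (x : Cosets1 N) (a : A1 K N) :
    (localPsi ι N τ (permOf1 N γ x) a).order = (localPsi ι N τ x a).order := by
  rw [localPsi_order, localPsi_order]
  have h1 : permOf1 N γ x = γ • x := rfl
  rw [h1, conjHom_smul, order_taylorHom_compHom]
  rw [inv_smul_eq_iff, hγ]

theorem localPsi_order_dvd (N : ℕ) [NeZero N] (τ : ℍ) (γ : SL(2, ℤ)) (e : ℕ) (he : e.Prime)
    (hpow : γ ^ e = -1)
    (hdvd : ∀ f : Hol, f ≠ 0 → compHom γ f = f → e ∣ (taylorHom τ f).order.toNat)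
    (x : Cosets1 N) (w : ℕ) (hw : (permOf1 N γ ^ w) x = x) (a : A1 K N) :
    (e : ℤ) ∣ (w : ℤ) * (localPsi ι N τ x a).order := by
  by_cases hew : e ∣ w
  · exact Dvd.dvd.mul_right (by exact_mod_cast hew) _
  · apply Dvd.dvd.mul_left
    by_cases ha : a = 0
    · subst ha
      simp
    · rw [localPsi_order]
      have hF : conjHom ι N x a ≠ 0 := by
        intro h0
        exact ha (conjHom_injective ι N x (by rw [h0, map_zero]))
      have hmem : γ ∈ localStab (conjHom ι N x a) := by
        refine local_mem_of_coprime _ γ w e (local_pow_mem_stab ι N γ x a w hw) ?_ ?_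
        · rw [hpow]; exact local_neg_one_mem _
        · exact ((Nat.Prime.coprime_iff_not_dvd he).mpr hew).symm
      exact_mod_cast hdvd _ hF hmem

/-- uniformisation data at a point `τ` with `j(τ) = ι c ≠ 0, 1728`. -/
noncomputable def preUnifGeneric (N : ℕ) [NeZero N] (c : K) (h0 : c ≠ 0) (h1 : c ≠ 1728) (τ : ℍ)
    (hτ : jfun τ = ι c) : PreUnif ι N c 1 1 1 where
  Ψ := localPsi ι N τ
  inj_each := localPsi_injective ι N τ
  map_const := localPsi_const ι N τ
  map_j := fun i i' => by rw [localPsi_jA, localPsi_jA]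
  inj := localPsi_index_injective ι N τ
  e0_pos := one_pos
  order_x := fun i => by
    rw [localPsi_order_sub, ← hτ, order_taylorHom_generic τ]
    · rfl
    · rw [hτ]
      intro h
      exact h0 (ι.injective (by rw [h, map_zero]))
    · rw [hτ]
      intro h
      apply h1
      apply ι.injective
      rw [h, (map_ofNat ι 1728)]
  order_perm := fun i a => rfl
  order_dvd := fun i w _ a => by simp

/-- uniformisation data at `ρ` (`j = 0`). -/
noncomputable def preUnifZero (N : ℕ) [NeZero N] :
    PreUnif ι N 0 3 3 (permOf1 N (ModularGroup.S * ModularGroup.T)) where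
  Ψ := localPsi ι N rhoPt
  inj_each := localPsi_injective ι N rhoPt
  map_const := localPsi_const ι N rhoPt
  map_j := fun i i' => by rw [localPsi_jA, localPsi_jA]
  inj := localPsi_index_injective ι N rhoPt
  e0_pos := by norm_num
  order_x := fun i => by
    rw [localPsi_order_sub, map_zero, map_zero, sub_zero, order_taylorHom_rhoPt]
    rfl
  order_perm := fun i a => localPsi_order_perm ι N rhoPt _ ST_smul_rhoPt i a
  order_dvd := fun i w hw a => localPsi_order_dvd ι N rhoPt _ 3 Nat.prime_three local_ST_cube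
      three_dvd_order_of_invariant i w hw a

/-- uniformisation data at `i` (`j = 1728`). -/
noncomputable def preUnif1728 (N : ℕ) [NeZero N] :
    PreUnif ι N 1728 2 2 (permOf1 N ModularGroup.S) where
  Ψ := localPsi ι N UpperHalfPlane.I
  inj_each := localPsi_injective ι N UpperHalfPlane.I
  map_const := localPsi_const ι N UpperHalfPlane.I
  map_j := fun i i' => by rw [localPsi_jA, localPsi_jA]
  inj := localPsi_index_injective ι N UpperHalfPlane.I
  e0_pos := by norm_num
  order_x := fun i => by
    rw [localPsi_order_sub]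
    rw [(map_ofNat ι 1728), order_taylorHom_I]
    rfl
  order_perm := fun i a => localPsi_order_perm ι N UpperHalfPlane.I _ S_smul_I i a
  order_dvd := fun i w hw a => localPsi_order_dvd ι N UpperHalfPlane.I _ 2 Nat.prime_two local_S_sq
      two_dvd_order_of_invariant i w hw a

/-- `q_N`-expansions of the conjugates. -/
noncomputable def localPsiInf (N : ℕ) [NeZero N] (x : Cosets1 N) : A1 K N →+* LaurentSeries ℂ :=
  (laurentHom N).comp
    ((Hol.subtype.comp (conjHom ι N x)).codRestrict (MerInf N) (conjHom_mem_MerInf ι N x))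

theorem localPsiInf_apply (N : ℕ) [NeZero N] (x : Cosets1 N) (a : A1 K N) :
    localPsiInf ι N x a = laurentHom N ⟨_, conjHom_mem_MerInf ι N x a⟩ := rfl

theorem localPsiInf_injective (N : ℕ) [NeZero N] (x : Cosets1 N) :
    Function.Injective (localPsiInf ι N x) := by
  intro a b h
  rw [localPsiInf_apply, localPsiInf_apply] at h
  have h1 := laurentHom_injective N h
  apply conjHom_injective ι N x
  exact Subtype.ext (congrArg (fun g : MerInf N => (g : ℍ → ℂ)) h1)

theorem localPsiInf_const (N : ℕ) [NeZero N] (x : Cosets1 N) (c : K) :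
    localPsiInf ι N x (algebraMap K (A1 K N) c) = HahnSeries.C (ι c) := by
  rw [localPsiInf_apply]
  refine laurentHom_eq_of_hasSum N _ _ 0 (fun k hk => ?_) (fun τ => ?_)
  · rw [HahnSeries.C_apply, HahnSeries.coeff_single_of_ne]
    simp at hk
    omega
  · show HasSum _ (((conjHom ι N x (algebraMap K (A1 K N) c) : Hol) : ℍ → ℂ) τ * _)
    rw [conjHom_algebraMap, constHol_apply, pow_zero, mul_one]
    convert hasSum_single (f := fun n : ℕ => (HahnSeries.C (ι c) : LaurentSeries ℂ).coeff
      ((n : ℤ) - ((0 : ℕ) : ℤ)) * 𝕢 (N : ℝ) τ ^ n) 0 ?_ using 1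
    · simp [HahnSeries.C_apply]
    · intro n hn
      rw [HahnSeries.C_apply, HahnSeries.coeff_single_of_ne, zero_mul]
      simp only [Nat.cast_zero, sub_zero]
      exact_mod_cast hn

theorem localPsiInf_jA (N : ℕ) [NeZero N] (x : Cosets1 N) :
    localPsiInf ι N x (jA K N) = ModularCurve.qExpand ℂ N (ModularCurve.jqModC ℂ) := by
  rw [localPsiInf_apply]
  have hfun : ((conjHom ι N x (jA K N) : Hol) : ℍ → ℂ) = jfun := by
    rw [conjHom_jA]; rfl
  have hmem : jfun ∈ MerInf N := hfun ▸ conjHom_mem_MerInf ι N x (jA K N)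
  rw [local_laurentHom_congr N _ hmem hfun, laurentHom_of_MerInf_one N jfun jfun_mem_MerInf hmem,
    laurentHom_jfun]

theorem localPsiInf_index_injective (N : ℕ) [NeZero N] : Function.Injective (localPsiInf ι N) := by
  intro x y h
  apply conjHom_index_injective ι N
  ext1 a
  have := congrArg (fun φ : A1 K N →+* LaurentSeries ℂ => φ a) h
  simp only [localPsiInf_apply] at this
  exact Subtype.ext (congrArg (fun g : MerInf N => (g : ℍ → ℂ)) (laurentHom_injective N this))

theorem localPsiInf_order_perm (N : ℕ) [NeZero N] (x : Cosets1 N) (a : A1 K N) :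
    (localPsiInf ι N (permOf1 N ModularGroup.T x) a).order = (localPsiInf ι N x a).order := by
  rw [localPsiInf_apply, localPsiInf_apply]
  have h1 : permOf1 N ModularGroup.T x = ModularGroup.T • x := rfl
  have hfun : ((conjHom ι N (permOf1 N ModularGroup.T x) a : Hol) : ℍ → ℂ) =
      ((compHom (ModularGroup.T ^ (-1 : ℤ)) (conjHom ι N x a) : Hol) : ℍ → ℂ) := by
    rw [h1, conjHom_smul, zpow_neg_one]
  have hmem : ((compHom (ModularGroup.T ^ (-1 : ℤ)) (conjHom ι N x a) : Hol) : ℍ → ℂ) ∈ MerInf N :=
    hfun ▸ conjHom_mem_MerInf ι N _ a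
  rw [local_laurentHom_congr N _ hmem hfun]
  exact local_order_eq_of_coeff _ _ _ (fun k => Complex.exp_ne_zero _)
    (coeff_laurentHom_compHom_T N (conjHom ι N x a) (conjHom_mem_MerInf ι N x a) (-1) hmem)

theorem localPsiInf_order_dvd (N : ℕ) [NeZero N] (x : Cosets1 N) (w : ℕ)
    (hw : (permOf1 N ModularGroup.T ^ w) x = x) (a : A1 K N) :
    (N : ℤ) ∣ (w : ℤ) * (localPsiInf ι N x a).order := by
  by_cases ha : a = 0
  · subst ha
    simp
  have hL : localPsiInf ι N x a ≠ 0 := by
    intro h0
    exact ha (localPsiInf_injective ι N x (by rw [h0, map_zero]))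
  have hstab := local_pow_mem_stab ι N ModularGroup.T x a w hw
  rw [mem_localStab] at hstab
  have hfun : ((compHom (ModularGroup.T ^ (w : ℤ)) (conjHom ι N x a) : Hol) : ℍ → ℂ) =
      ((conjHom ι N x a : Hol) : ℍ → ℂ) := by
    rw [zpow_natCast, hstab]
  have hmem : ((compHom (ModularGroup.T ^ (w : ℤ)) (conjHom ι N x a) : Hol) : ℍ → ℂ) ∈ MerInf N :=
    hfun.symm ▸ conjHom_mem_MerInf ι N x a
  have hc := coeff_laurentHom_compHom_T N (conjHom ι N x a) (conjHom_mem_MerInf ι N x a) w hmem
    (localPsiInf ι N x a).order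
  rw [local_laurentHom_congr N hmem (conjHom_mem_MerInf ι N x a) hfun, ← localPsiInf_apply] at hc
  have hne : (localPsiInf ι N x a).coeff (localPsiInf ι N x a).order ≠ 0 := fun h0 =>
    hL (HahnSeries.coeff_order_eq_zero.mp h0)
  have hexp : Complex.exp (2 * Real.pi * Complex.I * ((w : ℤ) : ℂ) *
      ((localPsiInf ι N x a).order : ℂ) / N) = 1 := by
    have h4 : (1 : ℂ) * (localPsiInf ι N x a).coeff (localPsiInf ι N x a).order =
        Complex.exp (2 * Real.pi * Complex.I * ((w : ℤ) : ℂ) *
          ((localPsiInf ι N x a).order : ℂ) / N) *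
          (localPsiInf ι N x a).coeff (localPsiInf ι N x a).order := by
      rw [one_mul]; exact hc
    exact (mul_right_cancel₀ hne h4).symm
  rw [Complex.exp_eq_one_iff] at hexp
  obtain ⟨k, hk⟩ := hexp
  have hN : (N : ℂ) ≠ 0 := by exact_mod_cast NeZero.ne N
  have hpi : (2 * Real.pi * Complex.I : ℂ) ≠ 0 := Complex.two_pi_I_ne_zero
  have h2 : ((w : ℤ) : ℂ) * ((localPsiInf ι N x a).order : ℂ) = (N : ℂ) * k := by
    field_simp at hk
    have h3 : (2 * Real.pi * Complex.I : ℂ) * (((w : ℤ) : ℂ) * ((localPsiInf ι N x a).order : ℂ)) =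
        (2 * Real.pi * Complex.I : ℂ) * ((N : ℂ) * k) := by
      linear_combination (2 * Real.pi * Complex.I : ℂ) * hk
    exact mul_left_cancel₀ hpi h3
  refine ⟨k, ?_⟩
  exact_mod_cast h2

/-- uniformisation data at the cusps (`1/j = 0`), in terms of `q_N`-expansions. -/
noncomputable def preUnifInfty (N : ℕ) [NeZero N] :
    PreUnif ι N 0 (-(N : ℤ)) N (permOf1 N ModularGroup.T) where
  Ψ := localPsiInf ι N
  inj_each := localPsiInf_injective ι N
  map_const := localPsiInf_const ι N
  map_j := fun i i' => by rw [localPsiInf_jA, localPsiInf_jA]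
  inj := localPsiInf_index_injective ι N
  e0_pos := Nat.pos_of_ne_zero (NeZero.ne N)
  order_x := fun i => by
    rw [map_zero, sub_zero, localPsiInf_jA, local_order_qExpand_jq]
  order_perm := localPsiInf_order_perm ι N
  order_dvd := fun i w hw a => localPsiInf_order_dvd ι N i w hw a

end Fermat.Agent.G1.A
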