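import Fermat.Agent.G1.A.IsKummerOfChar

/-!
# G1-A : leaves L4 and L5 of the official split, in the exact shape asked by the lead
-/

set_option autoImplicit false

namespace Fermat.Agent.G1.A

open Fermat.Agent.GR Fermat.Agent.GR.A Fermat.Agent.G1

open UpperHalfPlane Function AlgebraicCurve CongruenceSubgroup IntermediateField
open Fermat.Agent.S24 (Hol constHol compHom taylorHom MerInf laurentHom)
open Fermat.Agent.S48.Per (Kills1)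
open scoped Manifold MatrixGroups

variable {N : ℕ} [NeZero N] {n : ℕ} [NeZero n] {c w : ℍ → ℂ} {φ : Additive (Gamma1 N) →+ ZMod n}

theorem jF_eq_C_jF : jF ℂ N = C.jF ℂ N := rfl

theorem HasRoot.pow_eq_hol (h : HasRoot N n c w φ) :
    (⟨w, h.mdiff⟩ : Hol) ^ n = ⟨c, h.modFun.mdiff⟩ := by
  apply Subtype.ext
  funext τ
  exact h.pow_eq τ

theorem HasRoot.compHom_eq (h : HasRoot N n c w φ) (γ : SL(2, ℤ)) (hγ : γ ∈ Gamma1 N)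
    (h0 : φ (Additive.ofMul ⟨γ, hγ⟩) = 0) : compHom γ (⟨w, h.mdiff⟩ : Hol) = ⟨w, h.mdiff⟩ := by
  apply Subtype.ext
  funext τ
  have := h.char ⟨γ, hγ⟩ τ
  rw [h0, AddChar.map_zero_eq_one, one_mul] at this
  exact this

theorem HasRoot.qexp_ne_zero (h : HasRoot N n c w φ) :
    (⟨qexp c, h.modFun.qexp_mem⟩ : FF1 ℂ N) ≠ 0 := by
  intro h0
  obtain ⟨τ, hτ⟩ := h.ne_zero
  apply hτ
  rw [(h.modFun.qexp_eq_zero_iff).1 (congrArg Subtype.val h0)]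
  rfl

/-- L4. -/
theorem HasRoot.dvd_ord_of_finite (h : HasRoot N n c w φ)
    (hφ : ∀ γ : Gamma1 N, IsOfFinOrder (γ : SL(2, ℤ)) → φ (Additive.ofMul γ) = 0)
    (v : Place ℂ (FF1 ℂ N)) (hv : 0 ≤ v.ord (C.jF ℂ N)) :
    (n : ℤ) ∣ v.ord (⟨qexp c, h.modFun.qexp_mem⟩ : FF1 ℂ N) :=
  dvd_ord_of_root_of_ord_j_nonneg (RingHom.id ℂ) N n (Nat.pos_of_ne_zero (NeZero.ne n)) _
    h.qexp_ne_zero ⟨c, h.modFun.mdiff⟩ ⟨w, h.mdiff⟩ (evF_qexp h.modFun) h.pow_eq_hol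
    (fun γ hγ hfin => h.compHom_eq γ hγ (hφ ⟨γ, hγ⟩ hfin)) v hv

/-- L5. -/
theorem HasRoot.dvd_ord_of_infinite (h : HasRoot N n c w φ)
    (hφ : ∀ γ : Gamma1 N, ((γ : SL(2, ℤ)) : Matrix (Fin 2) (Fin 2) ℤ).trace ^ 2 = 4 →
      φ (Additive.ofMul γ) = 0)
    (v : Place ℂ (FF1 ℂ N)) (hv : v.ord (C.jF ℂ N) < 0) :
    (n : ℤ) ∣ v.ord (⟨qexp c, h.modFun.qexp_mem⟩ : FF1 ℂ N) := by
  exact dvd_ord_of_root_of_ord_j_neg (RingHom.id ℂ) N n (Nat.pos_of_ne_zero (NeZero.ne n)) _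
    h.qexp_ne_zero ⟨c, h.modFun.mdiff⟩ ⟨w, h.mdiff⟩ (evF_qexp h.modFun)
    (fun δ => h.modFun.cusp δ) h.pow_eq_hol
    (fun γ hγ htr => h.compHom_eq γ hγ (hφ ⟨γ, hγ⟩ htr)) v hv

end Fermat.Agent.G1.A
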