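import Fermat.Agent.G1.A.Base

/-!
# G1-A: the Eisenstein (Poincaré) series attached to a character of `Γ₁(N)`

Textual port of the second half of `GR/A/EisChar.lean` (`chiWeight`, ..., `exists_eisChar`) from `Γ₀(N)` to `Γ₁(N)`.
The level independent part (`wEis`, `wConst`, `botRow`, `tendsto_wEis`, ...) is reused from `GR.A`.
-/

set_option autoImplicit false

namespace Fermat.Agent.G1.A

open UpperHalfPlane ModularForm EisensteinSeries Matrix MatrixGroups Filter Topology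
  CongruenceSubgroup
open scoped Manifold
open Fermat.Agent.GR.A

noncomputable section

local notation:1024 "↑ₘ" A:1024 => ((A : SL(2, ℤ)) : Matrix (Fin 2) (Fin 2) ℤ)

variable {k : ℤ} {N : ℕ}

open Classical in
/-- `χ(γ)⁻¹` if `v` is the bottom row of `γ ∈ Γ₁(N)`, and `0` if there is no such `γ`. -/
def chiWeight (χ : Gamma1 N →* ℂˣ) (v : Fin 2 → ℤ) : ℂ :=
  if h : ∃ γ : Gamma1 N, botRow γ = v then (((χ h.choose)⁻¹ : ℂˣ) : ℂ) else 0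

variable {χ : Gamma1 N →* ℂˣ}

lemma chi_eq_of_botRow_eq (hpar : ∀ γ : Gamma1 N, (γ : SL(2, ℤ)) 1 0 = 0 → χ γ = 1)
    {γ γ' : Gamma1 N} (h : botRow γ' = botRow γ) : χ γ' = χ γ := by
  have h1 : botRow ((γ' * γ⁻¹ : Gamma1 N) : SL(2, ℤ)) = ![0, 1] := by
    rw [Subgroup.coe_mul, botRow_mul, h, ← botRow_mul, Subgroup.coe_inv, mul_inv_cancel,
      botRow_one]
  have h2 : ((γ' * γ⁻¹ : Gamma1 N) : SL(2, ℤ)) 1 0 = 0 := by
    have := congrFun h1 0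
    simpa [botRow_apply] using this
  have h3 := hpar _ h2
  rw [map_mul, map_inv, mul_inv_eq_one] at h3
  exact h3

lemma chiWeight_botRow (hpar : ∀ γ : Gamma1 N, (γ : SL(2, ℤ)) 1 0 = 0 → χ γ = 1)
    (γ : Gamma1 N) : chiWeight χ (botRow γ) = (((χ γ)⁻¹ : ℂˣ) : ℂ) := by
  have h : ∃ γ' : Gamma1 N, botRow γ' = botRow γ := ⟨γ, rfl⟩
  rw [chiWeight, dif_pos h, chi_eq_of_botRow_eq hpar h.choose_spec]

lemma chiWeight_of_not_exists {v : Fin 2 → ℤ} (h : ¬ ∃ γ : Gamma1 N, botRow γ = v) :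
    chiWeight χ v = 0 := by
  rw [chiWeight, dif_neg h]

lemma chiWeight_vecMul (hpar : ∀ γ : Gamma1 N, (γ : SL(2, ℤ)) 1 0 = 0 → χ γ = 1)
    (δ : Gamma1 N) (v : Fin 2 → ℤ) :
    chiWeight χ (v ᵥ* ↑ₘ((δ : SL(2, ℤ))⁻¹)) = (χ δ : ℂ) * chiWeight χ v := by
  by_cases h : ∃ γ : Gamma1 N, botRow γ = v
  · obtain ⟨γ, rfl⟩ := h
    have h1 : botRow γ ᵥ* ↑ₘ((δ : SL(2, ℤ))⁻¹) = botRow ((γ * δ⁻¹ : Gamma1 N) : SL(2, ℤ)) := by
      rw [Subgroup.coe_mul, botRow_mul, Subgroup.coe_inv]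
    rw [h1, chiWeight_botRow hpar, chiWeight_botRow hpar, map_mul, map_inv, mul_inv, inv_inv,
      Units.val_mul, mul_comm]
  · have h' : ¬ ∃ γ : Gamma1 N, botRow γ = v ᵥ* ↑ₘ((δ : SL(2, ℤ))⁻¹) := by
      rintro ⟨γ, hγ⟩
      refine h ⟨γ * δ, ?_⟩
      rw [Subgroup.coe_mul, botRow_mul, hγ, vecMul_vecMul, coe_inv_mul_coe, vecMul_one]
    rw [chiWeight_of_not_exists h, chiWeight_of_not_exists h', mul_zero]

lemma norm_chiWeight_le (hfin : ∀ γ, ‖(χ γ : ℂ)‖ = 1) (v : Fin 2 → ℤ) : ‖chiWeight χ v‖ ≤ 1 := by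
  by_cases h : ∃ γ : Gamma1 N, botRow γ = v
  · rw [chiWeight, dif_pos h, Units.val_inv_eq_inv_val, norm_inv, hfin, inv_one]
  · rw [chiWeight_of_not_exists h, norm_zero]
    exact zero_le_one

lemma chiWeight_zero_one (hpar : ∀ γ : Gamma1 N, (γ : SL(2, ℤ)) 1 0 = 0 → χ γ = 1) :
    chiWeight χ ![0, 1] = 1 := by
  have := chiWeight_botRow hpar (1 : Gamma1 N)
  rw [Subgroup.coe_one, botRow_one, map_one] at this
  simpa using this

lemma chiWeight_zero_neg_one (hpar : ∀ γ : Gamma1 N, (γ : SL(2, ℤ)) 1 0 = 0 → χ γ = 1) :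
    chiWeight χ ![0, -1] = 1 ∨ chiWeight χ ![0, -1] = 0 := by
  by_cases h : ∃ γ : Gamma1 N, botRow γ = ![0, -1]
  · left
    obtain ⟨γ, hγ⟩ := h
    have e0 : (γ : SL(2, ℤ)) 1 0 = 0 := by rw [← botRow_apply, hγ]; rfl
    have := chiWeight_botRow hpar γ
    rw [hγ, hpar γ e0] at this
    simpa using this
  · right
    exact chiWeight_of_not_exists h

/-- the constant term is `1 + chiWeight χ (0, -1)`, which is `1` or `2`. -/
lemma wConst_chiWeight (hk2 : Even k)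
    (hpar : ∀ γ : Gamma1 N, (γ : SL(2, ℤ)) 1 0 = 0 → χ γ = 1) :
    wConst k (chiWeight χ) = 1 + chiWeight χ ![0, -1] := by
  have hne : (![0, 1] : Fin 2 → ℤ) ≠ ![0, -1] := by
    intro h
    have := congrFun h 1
    simp at this
  rw [wConst, tsum_eq_sum (s := {![0, 1], ![0, -1]}), Finset.sum_pair hne]
  · rw [chiWeight_zero_one hpar]
    have h3 : ((-1 : ℂ)) ^ (-k) = 1 := (Even.neg hk2).neg_one_zpow
    simp [h3]
  · intro v hv
    by_cases h0 : v 0 = 0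
    · rw [chiWeight_of_not_exists, zero_mul]
      rintro ⟨γ, hγ⟩
      have hdet := Matrix.det_fin_two ↑ₘ(γ : SL(2, ℤ))
      rw [(γ : SL(2, ℤ)).2] at hdet
      have e0 : (γ : SL(2, ℤ)) 1 0 = 0 := by rw [← botRow_apply, hγ, h0]
      have e1 : (γ : SL(2, ℤ)) 1 1 = v 1 := by rw [← botRow_apply, hγ]
      have hdet' : (γ : SL(2, ℤ)) 0 0 * v 1 = 1 := by
        rw [← e1]
        have : (1 : ℤ) = (γ : SL(2, ℤ)) 0 0 * (γ : SL(2, ℤ)) 1 1 -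
          (γ : SL(2, ℤ)) 0 1 * (γ : SL(2, ℤ)) 1 0 := hdet
        rw [e0] at this
        linarith
      have hu : v 1 = 1 ∨ v 1 = -1 := Int.isUnit_iff.mp (IsUnit.of_mul_eq_one _ (by
        rw [mul_comm]; exact hdet'))
      apply hv
      simp only [Finset.mem_insert, Finset.mem_singleton]
      rcases hu with hu | hu
      · left
        ext i
        fin_cases i <;> simp [h0, hu]
      · right
        ext i
        fin_cases i <;> simp [h0, hu]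
    · simp [h0]

lemma wConst_chiWeight_ne_zero (hk2 : Even k)
    (hpar : ∀ γ : Gamma1 N, (γ : SL(2, ℤ)) 1 0 = 0 → χ γ = 1) :
    wConst k (chiWeight χ) ≠ 0 := by
  rw [wConst_chiWeight hk2 hpar]
  rcases chiWeight_zero_neg_one hpar with h | h <;> rw [h] <;> norm_num

/-- The Eisenstein (Poincaré) series of weight `k` attached to a character `χ` of `Γ₁(N)`. -/
def eisChar (k : ℤ) (χ : Gamma1 N →* ℂˣ) : ℍ → ℂ := wEis k (chiWeight χ)

theorem mdiff_eisChar (hk : 3 ≤ k) (hfin : ∀ γ, ‖(χ γ : ℂ)‖ = 1) : MDiff (eisChar k χ) :=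
  mdiff_wEis hk (norm_chiWeight_le hfin)

theorem eisChar_slash (hpar : ∀ γ : Gamma1 N, (γ : SL(2, ℤ)) 1 0 = 0 → χ γ = 1)
    (γ : Gamma1 N) : eisChar k χ ∣[k] (γ : SL(2, ℤ)) = (χ γ : ℂ) • eisChar k χ := by
  rw [eisChar, wEis_slash]
  ext z
  simp only [wEis, chiWeight_vecMul hpar, Pi.smul_apply, smul_eq_mul, mul_assoc, tsum_mul_left]

theorem isBoundedAtImInfty_eisChar_slash (hk : 3 ≤ k) (hfin : ∀ γ, ‖(χ γ : ℂ)‖ = 1)
    (γ : SL(2, ℤ)) : IsBoundedAtImInfty (eisChar k χ ∣[k] γ) :=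
  isBoundedAtImInfty_wEis_slash hk (norm_chiWeight_le hfin) γ

/-- `T` as an element of `Γ₁(N)`. -/
def TGamma1 (N : ℕ) : Gamma1 N := ⟨ModularGroup.T, by
  rw [Gamma1_mem]
  simp [ModularGroup.T]⟩

theorem tendsto_eisChar' (hk : 3 ≤ k) (hfin : ∀ γ, ‖(χ γ : ℂ)‖ = 1)
    (hpar : ∀ γ : Gamma1 N, (γ : SL(2, ℤ)) 1 0 = 0 → χ γ = 1) :
    Tendsto (eisChar k χ) atImInfty (𝓝 (wConst k (chiWeight χ))) := by
  refine tendsto_wEis hk (norm_chiWeight_le hfin) fun v => ?_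
  have := chiWeight_vecMul hpar (TGamma1 N) v
  rw [hpar (TGamma1 N) T_one_zero] at this
  simpa [TGamma1] using this

theorem tendsto_eisChar (hk : 3 ≤ k) (hk2 : Even k) (hfin : ∀ γ, ‖(χ γ : ℂ)‖ = 1)
    (hpar : ∀ γ : Gamma1 N, (γ : SL(2, ℤ)) 1 0 = 0 → χ γ = 1) :
    ∃ c : ℂ, c ≠ 0 ∧ Tendsto (eisChar k χ) atImInfty (𝓝 c) :=
  ⟨_, wConst_chiWeight_ne_zero hk2 hpar, tendsto_eisChar' hk hfin hpar⟩

/-- **Eisenstein series with a character.** -/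
theorem exists_eisChar (N : ℕ) (k : ℤ) (hk : 3 ≤ k) (hk2 : Even k) (χ : Gamma1 N →* ℂˣ)
    (hfin : ∀ γ, ‖(χ γ : ℂ)‖ = 1)
    (hpar : ∀ γ : Gamma1 N, (γ : SL(2, ℤ)) 1 0 = 0 → χ γ = 1) :
    ∃ E : ℍ → ℂ, MDiff E ∧ (∀ γ : Gamma1 N, E ∣[k] (γ : SL(2, ℤ)) = (χ γ : ℂ) • E) ∧
      (∀ γ : SL(2, ℤ), IsBoundedAtImInfty (E ∣[k] γ)) ∧
      ∃ c : ℂ, c ≠ 0 ∧ Tendsto E atImInfty (𝓝 c) :=
  ⟨eisChar k χ, mdiff_eisChar hk hfin, eisChar_slash hpar, isBoundedAtImInfty_eisChar_slash hk hfin,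
    tendsto_eisChar hk hk2 hfin hpar⟩

end

end Fermat.Agent.G1.A
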