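import Fermat.Agent.G1.A.Base

/-!
# G1-A: the `q`-expansion of the Eisenstein series `eisF M b` at `∞`
-/

set_option autoImplicit false

open UpperHalfPlane CongruenceSubgroup ModularCurve
open scoped MatrixGroups Manifold Real ModularForm

namespace Fermat.Agent.G1.A

open Complex EisensteinSeries


/-- regrouping of a weighted double series by `n = c r`. -/
theorem EisQ_regroup (w : ℕ → ℂ) (hw : ∀ c, ‖w c‖ ≤ 2) (k : ℕ) {q : ℂ} (hq : ‖q‖ < 1) :
    HasSum (fun n : ℕ+ => (∑ c ∈ (n : ℕ).divisors, w c * (((n : ℕ) / c : ℕ) : ℂ) ^ k) * q ^ (n : ℕ))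
      (∑' c : ℕ+, w c * ∑' r : ℕ+, ((r : ℕ) : ℂ) ^ k * q ^ (c * r : ℕ)) := by
  set F : ℕ+ × ℕ+ → ℂ := fun x => w x.1 * (((x.2 : ℕ) : ℂ) ^ k * q ^ (x.1 * x.2 : ℕ)) with hFdef
  have hF : Summable F := by
    have h0 := (summable_prod_mul_pow (𝕜 := ℂ) k hq).norm.mul_left 2
    refine Summable.of_norm_bounded h0 (fun x => ?_)
    rw [hFdef, norm_mul]
    exact mul_le_mul_of_nonneg_right (hw _) (norm_nonneg _)
  have hT : ∑' x, F x = ∑' c : ℕ+, w c * ∑' r : ℕ+, ((r : ℕ) : ℂ) ^ k * q ^ (c * r : ℕ) := by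
    rw [hF.tsum_prod]
    refine tsum_congr (fun c => ?_)
    simp only [hFdef]
    rw [tsum_mul_left]
  rw [← hT]
  have h1 : HasSum (F ∘ sigmaAntidiagonalEquivProd) (∑' x, F x) :=
    sigmaAntidiagonalEquivProd.hasSum_iff.mpr hF.hasSum
  refine h1.sigma (fun n => ?_)
  have h2 := hasSum_fintype (fun x : (n : ℕ).divisorsAntidiagonal =>
    (F ∘ sigmaAntidiagonalEquivProd) ⟨n, x⟩)
  convert h2 using 1
  rw [Finset.univ_eq_attach]
  have h3 : ∀ x : (n : ℕ).divisorsAntidiagonal, (F ∘ sigmaAntidiagonalEquivProd) ⟨n, x⟩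
      = (fun y : ℕ × ℕ => w y.1 * ((y.2 : ℂ) ^ k * q ^ (y.1 * y.2))) x.1 := by
    intro x
    simp [hFdef, sigmaAntidiagonalEquivProd, divisorsAntidiagonalFactors]
  simp_rw [h3]
  rw [(n : ℕ).divisorsAntidiagonal.sum_attach
    (fun y : ℕ × ℕ => w y.1 * ((y.2 : ℂ) ^ k * q ^ (y.1 * y.2))),
    Nat.sum_divisorsAntidiagonal (fun x y => w x * ((y : ℂ) ^ k * q ^ (x * y))), Finset.sum_mul]
  refine Finset.sum_congr rfl (fun c hc => ?_)
  rw [Nat.mul_div_cancel' (Nat.dvd_of_mem_divisors hc)]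
  ring

/-- the inner sum for `c > 0`. -/
theorem EisQ_inner (c : ℕ+) (z : ℍ) :
    ∑' d : ℤ, eisSummand 12 ![(c : ℤ), d] z
      = eisC * ∑' r : ℕ+, ((r : ℕ) : ℂ) ^ 11 * cexp (2 * π * Complex.I * z) ^ (c * r : ℕ) := by
  have H := qExpansion_identity_pnat (k := 11) (by norm_num) ⟨c * z, by simpa using z.2⟩
  simp only [show 11 + 1 = 12 by norm_num] at H
  have e1 : ∀ d : ℤ, eisSummand 12 ![(c : ℤ), d] z = 1 / (((c : ℂ) * z) + d) ^ 12 := by
    intro d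
    simp [eisSummand]

  simp_rw [e1]
  rw [eisC]
  refine H.trans ?_
  congr 1
  refine tsum_congr (fun r => ?_)
  congr 1
  rw [← Complex.exp_nat_mul, ← Complex.exp_nat_mul]
  congr 1
  push_cast
  ring

theorem EisQ_inner_neg (c : ℤ) (z : ℍ) :
    ∑' d : ℤ, eisSummand 12 ![-c, d] z = ∑' d : ℤ, eisSummand 12 ![c, d] z := by
  rw [← (Equiv.neg ℤ).tsum_eq]
  refine tsum_congr (fun d => ?_)
  simp only [eisSummand, Equiv.neg_apply, Matrix.cons_val_zero, Matrix.cons_val_one]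
  have : ((-c : ℤ) : ℂ) * (z : ℂ) + ((-d : ℤ) : ℂ) = -((c : ℂ) * z + d) := by push_cast; ring
  rw [this]
  exact (Even.neg_zpow (by decide) _)

/-- the weight of `c`. -/
noncomputable def EisQ_w (M : ℕ) (b : ℤ) (c : ℕ) : ℂ :=
  (if ((c : ℕ) : ZMod M) = (b : ZMod M) then 1 else 0) +
    (if ((c : ℕ) : ZMod M) = -(b : ZMod M) then 1 else 0)

theorem EisQ_norm_w (M : ℕ) (b : ℤ) (c : ℕ) : ‖EisQ_w M b c‖ ≤ 2 := by
  unfold EisQ_w
  refine (norm_add_le _ _).trans ?_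
  have h1 : ∀ P : Prop, [Decidable P] → ‖(if P then (1 : ℂ) else 0)‖ ≤ 1 := by
    intro P _
    split_ifs <;> simp
  linarith [h1 (((c : ℕ) : ZMod M) = (b : ZMod M)), h1 (((c : ℕ) : ZMod M) = -(b : ZMod M))]

theorem EisQ_norm_eisW (M : ℕ) (b : ℤ) (v : Fin 2 → ℤ) : ‖eisW M b v‖ ≤ 1 := by
  unfold eisW
  split_ifs <;> simp

theorem EisQ_eisW_add (M : ℕ) (b : ℤ) (c : ℕ) (d d' : ℤ) :
    eisW M b ![(c : ℤ), d] + eisW M b ![-(c : ℤ), d'] = EisQ_w M b c := by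
  unfold eisW EisQ_w
  simp only [Matrix.cons_val_zero]
  have h1 : ((M : ℤ) ∣ (c : ℤ) - b) ↔ ((c : ℕ) : ZMod M) = (b : ZMod M) := by
    have hc : ((c : ℕ) : ZMod M) = (((c : ℤ)) : ZMod M) := by push_cast; rfl
    rw [hc, eq_comm, ZMod.intCast_eq_intCast_iff_dvd_sub]
  have h2 : ((M : ℤ) ∣ -(c : ℤ) - b) ↔ ((c : ℕ) : ZMod M) = -(b : ZMod M) := by
    have hc : ((c : ℕ) : ZMod M) = (((c : ℤ)) : ZMod M) := by push_cast; rfl
    rw [hc, ← Int.cast_neg, ZMod.intCast_eq_intCast_iff_dvd_sub]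
    rw [show -b - (c : ℤ) = -(c : ℤ) - b by ring]
  simp only [h1, h2]

theorem EisQ_wEis (M : ℕ) [NeZero M] (b : ℤ) (hb : ¬ (M : ℤ) ∣ b) (z : ℍ) :
    GR.A.wEis 12 (eisW M b) z = eisC * ∑' c : ℕ+, EisQ_w M b c *
      ∑' r : ℕ+, ((r : ℕ) : ℂ) ^ 11 * cexp (2 * π * Complex.I * z) ^ (c * r : ℕ) := by
  have hs : Summable fun v : Fin 2 → ℤ => eisW M b v * eisSummand 12 v z :=
    GR.A.summable_wEis (by norm_num) (EisQ_norm_eisW M b) z
  have hs' : Summable fun x : ℤ × ℤ => eisW M b ![x.1, x.2] * eisSummand 12 ![x.1, x.2] z :=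
    (finTwoArrowEquiv ℤ).symm.summable_iff.mpr hs
  have hW : ∀ c d : ℤ, eisW M b ![c, d] = eisW M b ![c, 0] := fun c d => rfl
  have e1 : ∀ c : ℤ, ∑' d : ℤ, eisW M b ![c, d] * eisSummand 12 ![c, d] z
      = eisW M b ![c, 0] * ∑' d : ℤ, eisSummand 12 ![c, d] z := by
    intro c
    rw [← tsum_mul_left]
    exact tsum_congr (fun d => by rw [hW c d])
  have hs'' : Summable fun c : ℤ => eisW M b ![c, 0] * ∑' d : ℤ, eisSummand 12 ![c, d] z := by
    have := hs'.prod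
    simp only [e1] at this
    exact this
  rw [GR.A.wEis, ← (finTwoArrowEquiv ℤ).symm.tsum_eq]
  simp only [finTwoArrowEquiv_symm_apply]
  rw [hs'.tsum_prod]
  simp only [e1]
  rw [tsum_int_eq_zero_add_tsum_pnat hs'']
  have h0 : eisW M b ![0, 0] = 0 := by
    simp [eisW, hb]
  rw [h0, zero_mul, zero_add]
  have hinj : Function.Injective (fun c : ℕ+ => ((c : ℕ) : ℤ)) :=
    Nat.cast_injective.comp PNat.coe_injective
  have hp : Summable fun c : ℕ+ => eisW M b ![(c : ℤ), 0] * ∑' d : ℤ, eisSummand 12 ![(c : ℤ), d] z :=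
    hs''.comp_injective hinj
  have hn : Summable fun c : ℕ+ => eisW M b ![-(c : ℤ), 0] * ∑' d : ℤ, eisSummand 12 ![-(c : ℤ), d] z :=
    hs''.comp_injective (neg_injective.comp hinj)
  rw [← hp.tsum_add hn, ← tsum_mul_left]
  refine tsum_congr (fun c => ?_)
  rw [EisQ_inner_neg, EisQ_inner, ← add_mul]
  have := EisQ_eisW_add M b c 0 0
  rw [this]
  ring

theorem EisQ_eisC_ne_zero : eisC ≠ 0 := by
  unfold eisC
  refine div_ne_zero (pow_ne_zero _ ?_) (Nat.cast_ne_zero.mpr (Nat.factorial_ne_zero 11))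
  simp [Real.pi_ne_zero, Complex.I_ne_zero]

theorem EisQ_coeff (M : ℕ) (b : ℤ) (n : ℕ) :
    PowerSeries.coeff n ((eB M (b : ZMod M)).map (Int.castRingHom ℂ))
      = ∑ c ∈ n.divisors, EisQ_w M b c * ((n / c : ℕ) : ℂ) ^ 11 := by
  rw [PowerSeries.coeff_map, coeff_eB, map_sum]
  refine Finset.sum_congr rfl (fun c _ => ?_)
  unfold EisQ_w
  simp only [eq_intCast]
  push_cast
  rfl

/-- `eisF M b = ∑_n eisCoeff M b n q^n` (`M ∤ b`). -/
theorem isExp_eisF (M : ℕ) [NeZero M] (b : ℤ) (hb : ¬ (M : ℤ) ∣ b) :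
    S28.IsExp 1 (eisF M b) (eBL ℂ M (b : ZMod M)) := by
  intro τ
  have hq : S28.tParam 1 τ = cexp (2 * π * Complex.I * τ) := by
    simp [S28.tParam, Function.Periodic.qParam]
  have hq1 : ‖cexp (2 * π * Complex.I * τ)‖ < 1 := norm_exp_two_pi_I_lt_one τ
  rw [hq]
  set q := cexp (2 * π * Complex.I * τ) with hqdef
  have h1 := EisQ_regroup (EisQ_w M b) (EisQ_norm_w M b) 11 hq1
  have hval : eisF M b τ = ∑' c : ℕ+, EisQ_w M b c *
      ∑' r : ℕ+, ((r : ℕ) : ℂ) ^ 11 * q ^ (c * r : ℕ) := by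
    rw [eisF, EisQ_wEis M b hb, inv_mul_cancel_left₀ EisQ_eisC_ne_zero]
  rw [← hval] at h1
  -- from `ℕ+` to `ℕ`
  have h2 : HasSum (fun n : ℕ =>
      PowerSeries.coeff n ((eB M (b : ZMod M)).map (Int.castRingHom ℂ)) * q ^ n) (eisF M b τ) := by
    rw [← PNat.coe_injective.hasSum_iff]
    · have hfun : ((fun n : ℕ => PowerSeries.coeff n ((eB M (b : ZMod M)).map (Int.castRingHom ℂ))
          * q ^ n) ∘ (fun n : ℕ+ => (n : ℕ))) = fun n : ℕ+ =>
          (∑ c ∈ (n : ℕ).divisors, EisQ_w M b c * (((n : ℕ) / c : ℕ) : ℂ) ^ 11) * q ^ (n : ℕ) := by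
        funext n
        simp only [Function.comp_apply, EisQ_coeff]
      rw [hfun]
      exact h1
    · intro n hn
      have hn0 : n = 0 := by
        by_contra hne
        exact hn ⟨⟨n, Nat.pos_of_ne_zero hne⟩, rfl⟩
      subst hn0
      rw [EisQ_coeff]
      simp
  -- from `ℕ` to `ℤ`
  rw [eBL, ← Nat.cast_injective.hasSum_iff]
  · have hfun : ((fun j : ℤ => (HahnSeries.ofPowerSeries ℤ ℂ
        ((eB M (b : ZMod M)).map (Int.castRingHom ℂ))).coeff j * q ^ j) ∘ (Nat.cast : ℕ → ℤ))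
        = fun n : ℕ => PowerSeries.coeff n ((eB M (b : ZMod M)).map (Int.castRingHom ℂ)) * q ^ n := by
      funext n
      simp [HahnSeries.ofPowerSeries_apply_coeff]
    rw [hfun]
    exact h2
  · intro j hj
    have hj' : j < 0 := by
      by_contra hcon
      exact hj ⟨j.toNat, Int.toNat_of_nonneg (not_lt.mp hcon)⟩
    rw [ofPowerSeries_coeff_of_neg _ hj', zero_mul]

end Fermat.Agent.G1.A
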