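import Fermat.Agent.G1.A.IsKummerOfChar
import Fermat.Agent.GR.A.SL2Fix1
import Fermat.Agent.GR.C.Place1

/-!
# G1-A, (A1), points of `ℍ`

* `ellA1_val` : an embedding of a function field into `ℂ((t))` with nontrivial order function is a
  multiple of a place.
* `dvd_order_of_isKummer` (L1)
* `HasRoot.eq_zero_of_finOrder` (L2)
-/

set_option autoImplicit false

namespace Fermat.Agent.G1.A

open Fermat.Agent.GR Fermat.Agent.GR.A Fermat.Agent.G1

open UpperHalfPlane Function AlgebraicCurve CongruenceSubgroup IntermediateField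
open Fermat.Agent.S24 (Hol constHol compHom taylorHom MerInf laurentHom jfun jHol)
open Fermat.Agent.S48.Per (Kills1)
open scoped Manifold MatrixGroups Topology

/-- (VAL) -/
theorem ellA1_val {F : Type} [Field F] [Algebra ℂ F] (φ : F →+* LaurentSeries ℂ)
    (hφ : ∀ c : ℂ, φ (algebraMap ℂ F c) = HahnSeries.C c) (x : F) (hx : (φ x).order ≠ 0) :
    ∃ (v : Place ℂ F) (k : ℕ), 0 < k ∧ ∀ f : F, (φ f).order = (k : ℤ) * v.ord f := by
  have hmul : ∀ {f g : F}, f ≠ 0 → g ≠ 0 → (φ (f * g)).order = (φ f).order + (φ g).order := by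
    intro f g hf hg
    rw [map_mul]
    exact HahnSeries.order_mul ((map_ne_zero φ).2 hf) ((map_ne_zero φ).2 hg)
  have hinv : ∀ f : F, f ≠ 0 → (φ f⁻¹).order = -(φ f).order := by
    intro f hf
    have := hmul hf (inv_ne_zero hf)
    rw [mul_inv_cancel₀ hf, map_one, HahnSeries.order_one] at this
    omega
  let H : AddSubgroup ℤ :=
    { carrier := {m | ∃ f : F, f ≠ 0 ∧ (φ f).order = m}
      zero_mem' := ⟨1, one_ne_zero, by simp⟩
      add_mem' := by
        rintro a b ⟨f, hf, rfl⟩ ⟨g, hg, rfl⟩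
        exact ⟨f * g, mul_ne_zero hf hg, hmul hf hg⟩
      neg_mem' := by
        rintro a ⟨f, hf, rfl⟩
        exact ⟨f⁻¹, inv_ne_zero hf, hinv f hf⟩ }
  obtain ⟨a, ha⟩ := Int.subgroup_cyclic H
  have hx0 : x ≠ 0 := by
    rintro rfl
    simp at hx
  have hmemH : ∀ f : F, f ≠ 0 → (φ f).order ∈ H := fun f hf => ⟨f, hf, rfl⟩
  have hdvd : ∀ f : F, f ≠ 0 → a ∣ (φ f).order := by
    intro f hf
    have := hmemH f hf
    rw [ha, AddSubgroup.mem_closure_singleton] at this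
    obtain ⟨m, hm⟩ := this
    exact ⟨m, by rw [← hm]; simp [mul_comm]⟩
  have ha0 : a ≠ 0 := by
    rintro rfl
    exact hx (zero_dvd_iff.1 (hdvd x hx0))
  set k : ℕ := a.natAbs with hk
  have hk0 : 0 < k := Int.natAbs_pos.2 ha0
  have hkdvd : ∀ f : F, f ≠ 0 → (k : ℤ) ∣ (φ f).order := fun f hf =>
    (Int.natAbs_dvd).2 (hdvd f hf)
  have hkH : (k : ℤ) ∈ H := by
    have haH : a ∈ H := by
      rw [ha]; exact AddSubgroup.mem_closure_singleton_self a
    rcases Int.natAbs_eq a with h | h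
    · rw [hk, ← h]; exact haH
    · have : ((a.natAbs : ℕ) : ℤ) = -a := by omega
      rw [hk, this]; exact H.neg_mem haH
  obtain ⟨t, ht0, ht⟩ := hkH
  have hkz : (0 : ℤ) < (k : ℤ) := by exact_mod_cast hk0
  obtain ⟨v, -, hv⟩ := C.Place1_core (K := ℂ) (C.Place1_sub φ) (fun f => (φ f).order / (k : ℤ))
    (by simp)
    (fun {f g} hf hg => by
      show (φ (f * g)).order / (k : ℤ) = _
      rw [hmul hf hg, Int.add_ediv_of_dvd_left (hkdvd f hf)])
    (fun f hf => by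
      rw [C.Place1_mem_sub]
      obtain ⟨m, hm⟩ := hkdvd f hf
      rw [hm, Int.mul_ediv_cancel_left _ hkz.ne']
      constructor
      · intro h
        by_contra hneg
        push Not at hneg
        have := mul_neg_of_pos_of_neg hkz hneg
        omega
      · intro h
        positivity)
    (fun c => by rw [C.Place1_mem_sub, hφ, HahnSeries.order_C]) t ht0
    (by show (φ t).order / (k : ℤ) = 1; rw [ht, Int.ediv_self hkz.ne'])
  refine ⟨v, k, hk0, fun f => ?_⟩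
  rcases eq_or_ne f 0 with rfl | hf
  · simp [Place.ord_zero]
  · rw [hv f hf, Int.mul_ediv_cancel' (hkdvd f hf)]

variable {N : ℕ} [NeZero N]

/-- Taylor expansion at `τ` of the elements of the function field. -/
noncomputable def ellA1Phi (N : ℕ) [NeZero N] (τ : ℍ) : FF1 ℂ N →+* LaurentSeries ℂ :=
  (taylorMer τ).comp (evF (RingHom.id ℂ) N)

theorem ellA1Phi_const (τ : ℍ) (c : ℂ) :
    ellA1Phi N τ (algebraMap ℂ (FF1 ℂ N) c) = HahnSeries.C c := by
  show taylorMer τ (evF (RingHom.id ℂ) N (algebraMap ℂ (FF1 ℂ N) c)) = _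
  rw [evF_algebraMap]
  show taylorMer τ (holMer (constHol c)) = _
  rw [taylorMer_holMer, S24.taylorHom_constHol, HahnSeries.ofPowerSeries_C]

theorem ellA1Phi_incl (τ : ℍ) (a : A1 ℂ N) :
    ellA1Phi N τ (incl ℂ N a) =
      HahnSeries.ofPowerSeries ℤ ℂ (taylorHom τ (evA (RingHom.id ℂ) N a)) := by
  show taylorMer τ (evF (RingHom.id ℂ) N (incl ℂ N a)) = _
  rw [evF_incl, taylorMer_holMer]

theorem ellA1Phi_qexp (τ : ℍ) {h : ℍ → ℂ} (H : IsModFun N h) :
    ellA1Phi N τ ⟨qexp h, H.qexp_mem⟩ =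
      HahnSeries.ofPowerSeries ℤ ℂ (taylorHom τ ⟨h, H.mdiff⟩) := by
  show taylorMer τ (evF (RingHom.id ℂ) N _) = _
  rw [evF_qexp H, taylorMer_holMer]

/-- the place attached to a point of `ℍ`. -/
theorem ellA1_exists_place (τ : ℍ) :
    ∃ (v : Place ℂ (FF1 ℂ N)) (k : ℕ), 0 < k ∧
      ∀ f : FF1 ℂ N, (ellA1Phi N τ f).order = (k : ℤ) * v.ord f := by
  refine ellA1_val (ellA1Phi N τ) (ellA1Phi_const τ)
    (jF ℂ N - algebraMap ℂ (FF1 ℂ N) (jfun τ)) ?_
  have h1 : ellA1Phi N τ (jF ℂ N - algebraMap ℂ (FF1 ℂ N) (jfun τ)) =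
      HahnSeries.ofPowerSeries ℤ ℂ (taylorHom τ (jHol - constHol (jfun τ))) := by
    rw [map_sub, ellA1Phi_const, jF, ellA1Phi_incl, evA_jA, map_sub, map_sub,
      S24.taylorHom_constHol, HahnSeries.ofPowerSeries_C]
  rw [h1, S24.local_order_ofPowerSeries]
  have hne : jHol - constHol (jfun τ) ≠ 0 := by
    intro h0
    have h2 : ellA1Phi N τ (jF ℂ N - algebraMap ℂ (FF1 ℂ N) (jfun τ)) = 0 := by
      rw [h1, h0, map_zero, map_zero]
    have h3 := (map_eq_zero _).1 h2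
    exact S24.transcendental_sub_algebraMap (transcendental_jF (RingHom.id ℂ) N) (jfun τ)
      (h3 ▸ isAlgebraic_zero)
  have htop := S24.local_order_ne_top τ _ hne
  obtain ⟨m, hm⟩ := ENat.ne_top_iff_exists.1 htop
  rw [← hm, ENat.toNat_natCast]
  have hm0 : m ≠ 0 := by
    rintro rfl
    have h4 : (taylorHom τ (jHol - constHol (jfun τ))).order = 0 := hm.symm
    refine (PowerSeries.order_ne_zero_iff_constCoeff_eq_zero.2 ?_) h4
    rw [S24.constantCoeff_taylorHom]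
    show jfun τ - jfun τ = 0
    exact sub_self _
  exact_mod_cast hm0

/-- **L1.** -/
theorem dvd_order_of_isKummer {n : ℕ} [NeZero n] {c : ℍ → ℂ} (hc : IsModFun N c) (hc0 : c ≠ 0)
    (hK : IsKummer1 (M := N) n (qexp c)) (τ : ℍ) :
    ∃ m : ℕ, (S24.taylorHom τ ⟨c, hc.mdiff⟩).order = (n : ℕ∞) * m := by
  obtain ⟨v, k, hk, hv⟩ := ellA1_exists_place (N := N) τ
  obtain ⟨-, hmem, hdiv⟩ := hK
  obtain ⟨m, hm⟩ := hdiv v
  have h1 := hv ⟨qexp c, hc.qexp_mem⟩
  rw [ellA1Phi_qexp τ hc, S24.local_order_ofPowerSeries, hm] at h1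
  have hne : (⟨c, hc.mdiff⟩ : Hol) ≠ 0 := fun h => hc0 (congrArg Subtype.val h)
  obtain ⟨r, hr⟩ := ENat.ne_top_iff_exists.1 (S24.local_order_ne_top τ _ hne)
  rw [← hr, ENat.toNat_natCast] at h1
  have hn : (0 : ℤ) < n := by exact_mod_cast Nat.pos_of_ne_zero (NeZero.ne n)
  have hkz : (0 : ℤ) < k := by exact_mod_cast hk
  have hm0 : 0 ≤ m := by
    by_contra hneg
    push Not at hneg
    have := mul_neg_of_pos_of_neg hkz (mul_neg_of_pos_of_neg hn hneg)
    omega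
  refine ⟨k * m.toNat, ?_⟩
  rw [← hr]
  have h2 : (r : ℤ) = ((n * (k * m.toNat) : ℕ) : ℤ) := by
    push_cast
    rw [Int.toNat_of_nonneg hm0, h1]
    ring
  have h3 : r = n * (k * m.toNat) := by exact_mod_cast h2
  rw [h3]
  push_cast
  rfl

/-- twisted version of `S24.local_pow_eq_one`. -/
theorem ellA1_pow_eq {F h : ℂ → ℂ} {z0 ζ c : ℂ} {n : ℕ} (hF : AnalyticAt ℂ F z0)
    (hn : analyticOrderAt F z0 = n) (hh : HasDerivAt h ζ z0) (hz : h z0 = z0)
    (hinv : F ∘ h =ᶠ[𝓝 z0] fun z => c * F z) : ζ ^ n = c := by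
  obtain ⟨g, hg, hg0, hFg⟩ := (hF.analyticOrderAt_eq_natCast).mp hn
  have hcont : Filter.Tendsto h (𝓝 z0) (𝓝 z0) := by
    have := hh.continuousAt.tendsto
    rwa [hz] at this
  have hFg' : ∀ᶠ z in 𝓝 z0, F (h z) = (h z - z0) ^ n • g (h z) := hcont.eventually hFg
  have hslope : Filter.Tendsto (slope h z0) (𝓝[≠] z0) (𝓝 ζ) := hasDerivAt_iff_tendsto_slope.mp hh
  have hev : ∀ᶠ z in 𝓝[≠] z0, c * g z = (slope h z0 z) ^ n * g (h z) := by
    have h1 : ∀ᶠ z in 𝓝[≠] z0, F z = (z - z0) ^ n • g z := hFg.filter_mono nhdsWithin_le_nhds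
    have h2 : ∀ᶠ z in 𝓝[≠] z0, F (h z) = (h z - z0) ^ n • g (h z) :=
      hFg'.filter_mono nhdsWithin_le_nhds
    have h3 : ∀ᶠ z in 𝓝[≠] z0, F (h z) = c * F z := hinv.filter_mono nhdsWithin_le_nhds
    filter_upwards [h1, h2, h3, self_mem_nhdsWithin] with z e1 e2 e3 hne
    have hne' : z - z0 ≠ 0 := sub_ne_zero.mpr hne
    have hs : slope h z0 z = (h z - z0) / (z - z0) := by
      rw [slope_def_field, hz]
    rw [hs, div_pow]
    have : c * ((z - z0) ^ n * g z) = (h z - z0) ^ n * g (h z) := by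
      rw [← smul_eq_mul (a := (z - z0) ^ n), ← smul_eq_mul (a := (h z - z0) ^ n), ← e1, ← e2, e3]
    field_simp
    linear_combination this
  have hl1 : Filter.Tendsto (fun z => c * g z) (𝓝[≠] z0) (𝓝 (c * g z0)) :=
    (hg.continuousAt.tendsto.mono_left nhdsWithin_le_nhds).const_mul c
  have hl2 : Filter.Tendsto (fun z => (slope h z0 z) ^ n * g (h z)) (𝓝[≠] z0)
      (𝓝 (ζ ^ n * g z0)) := by
    refine (hslope.pow n).mul ?_
    exact (hg.continuousAt.tendsto.comp hcont).mono_left nhdsWithin_le_nhds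
  have heq : c * g z0 = ζ ^ n * g z0 :=
    tendsto_nhds_unique hl1 (hl2.congr' (hev.mono fun _ h => h.symm))
  exact (mul_right_cancel₀ hg0 heq).symm

/-- the multiplier of a semi-invariant function at a fixed point. -/
theorem ellA1_multiplier (τ : ℍ) (γ : SL(2, ℤ)) (hγ : γ • τ = τ) (f : Hol) (hf : f ≠ 0) (c : ℂ)
    (h : compHom γ f = constHol c * f) :
    (1 / (((γ 1 0 : ℤ) : ℂ) * τ + ((γ 1 1 : ℤ) : ℂ)) ^ 2) ^ (taylorHom τ f).order.toNat = c := by
  have hn : analyticOrderAt ((f : ℍ → ℂ) ∘ ofComplex) (τ : ℂ) =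
      ((taylorHom τ f).order.toNat : ℕ∞) := by
    rw [← S24.order_taylorHom, ENat.natCast_toNat (S24.local_order_ne_top τ f hf)]
  refine ellA1_pow_eq (S24.local_analyticAt f τ) hn (S24.local_hasDerivAt_mob γ τ) ?_ ?_
  · rw [← S24.local_coe_smul, hγ]
  · have h1 := S24.local_comp_eventuallyEq γ τ (f : ℍ → ℂ)
    have h2 : (fun σ : ℍ => (f : ℍ → ℂ) (γ • σ)) = fun σ => c * (f : ℍ → ℂ) σ := by
      have := congrArg (fun g : Hol => (g : ℍ → ℂ)) h
      exact this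
    rw [h2] at h1
    exact h1.symm

/-- **L2.** -/
theorem HasRoot.eq_zero_of_finOrder {n : ℕ} [NeZero n] {c w : ℍ → ℂ}
    {φ : Additive (Gamma1 N) →+ ZMod n} (h : HasRoot N n c w φ)
    (hK : IsKummer1 (M := N) n (qexp c)) (γ : Gamma1 N) (hγ : IsOfFinOrder (γ : SL(2, ℤ))) :
    φ (Additive.ofMul γ) = 0 := by
  have hn : 0 < n := Nat.pos_of_ne_zero (NeZero.ne n)
  set ζ : ℂ := ZMod.stdAddChar (φ (Additive.ofMul γ)) with hζ
  suffices hζ1 : ζ = 1 by
    apply ZMod.injective_stdAddChar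
    rw [← hζ, hζ1, AddChar.map_zero_eq_one]
  set W : Hol := ⟨w, h.mdiff⟩ with hW
  set C : Hol := ⟨c, h.modFun.mdiff⟩ with hC
  have hWn : W ^ n = C := by
    apply Subtype.ext
    funext τ
    exact h.pow_eq τ
  obtain ⟨τ1, hτ1⟩ := h.ne_zero
  have hC0 : C ≠ 0 := fun h0 => hτ1 (congrFun (congrArg Subtype.val h0) τ1)
  have hW0 : W ≠ 0 := by
    rintro h0
    rw [h0, zero_pow hn.ne'] at hWn
    exact hC0 hWn.symm
  have hwτ1 : w τ1 ≠ 0 := by
    intro h0
    apply hτ1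
    rw [← h.pow_eq, h0, zero_pow hn.ne']
  have htriv : (∀ τ : ℍ, (γ : SL(2, ℤ)) • τ = τ) → ζ = 1 := by
    intro hfix
    have := h.char γ τ1
    rw [hfix τ1] at this
    exact (mul_right_cancel₀ hwτ1 (by rw [one_mul]; exact this)).symm
  by_cases h1 : (γ : SL(2, ℤ)) = 1
  · exact htriv fun τ => by rw [h1, one_smul]
  by_cases h2 : (γ : SL(2, ℤ)) = -1
  · exact htriv fun τ => by rw [h2, ModularGroup.SL_neg_smul, one_smul]
  obtain ⟨τ, hτ⟩ := exists_fixed_of_finOrder (γ : SL(2, ℤ)) hγ h1 h2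
  have hchar : compHom (γ : SL(2, ℤ)) W = constHol ζ * W := by
    apply Subtype.ext
    funext σ
    exact h.char γ σ
  set lam : ℂ := 1 / ((((γ : SL(2, ℤ)) 1 0 : ℤ) : ℂ) * τ + (((γ : SL(2, ℤ)) 1 1 : ℤ) : ℂ)) ^ 2
    with hlam
  have hmult := ellA1_multiplier τ (γ : SL(2, ℤ)) hτ W hW0 ζ hchar
  rw [← hlam] at hmult
  obtain ⟨v, k, hk, hv⟩ := ellA1_exists_place (N := N) τ
  -- `lam ^ k = 1`
  have hlamk : lam ^ k = 1 := by
    obtain ⟨π, hπ⟩ := IsDiscreteValuationRing.exists_irreducible v.toValuationSubring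
    have hordπ : v.ord (π : FF1 ℂ N) = 1 := v.ord_coe_irreducible hπ
    have h3 := hv (π : FF1 ℂ N)
    rw [hordπ, mul_one] at h3
    obtain ⟨a, b, hb, hab⟩ := exists_frac ℂ N (π : FF1 ℂ N)
    have ha : a ≠ 0 := by
      rintro rfl
      rw [hab, map_zero, zero_div, map_zero, HahnSeries.order_zero] at h3
      omega
    have hb' : incl ℂ N b ≠ 0 := fun h => hb (incl_injective ℂ N (by rw [h, map_zero]))
    have ha' : incl ℂ N a ≠ 0 := fun h => ha (incl_injective ℂ N (by rw [h, map_zero]))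
    rw [hab, S24.order_map_div _ ha' hb', ellA1Phi_incl, ellA1Phi_incl,
      S24.local_order_ofPowerSeries, S24.local_order_ofPowerSeries] at h3
    have hA0 : evA (RingHom.id ℂ) N a ≠ 0 := fun h =>
      ha (evA_injective (RingHom.id ℂ) N (by rw [h, map_zero]))
    have hB0 : evA (RingHom.id ℂ) N b ≠ 0 := fun h =>
      hb (evA_injective (RingHom.id ℂ) N (by rw [h, map_zero]))
    have hA := S24.local_multiplier_pow τ (γ : SL(2, ℤ)) hτ _ hA0
      (compHom_evA_of_mem_Gpm (RingHom.id ℂ) N _ (Gamma1_le_Gpm N γ.2) a)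
    have hB := S24.local_multiplier_pow τ (γ : SL(2, ℤ)) hτ _ hB0
      (compHom_evA_of_mem_Gpm (RingHom.id ℂ) N _ (Gamma1_le_Gpm N γ.2) b)
    rw [← hlam] at hA hB
    have h4 : (taylorHom τ (evA (RingHom.id ℂ) N a)).order.toNat =
        (taylorHom τ (evA (RingHom.id ℂ) N b)).order.toNat + k := by omega
    rw [h4, pow_add, hB, one_mul] at hA
    exact hA
  -- `k ∣ ord W`
  obtain ⟨-, hmem, hdiv⟩ := hK
  obtain ⟨m, hm⟩ := hdiv v
  have h5 := hv ⟨qexp c, h.modFun.qexp_mem⟩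
  rw [ellA1Phi_qexp τ h.modFun, S24.local_order_ofPowerSeries, hm] at h5
  have h6 : ((taylorHom τ C).order.toNat : ℤ) = (n : ℤ) * ((taylorHom τ W).order.toNat : ℤ) := by
    rw [← hWn, map_pow, PowerSeries.order_pow]
    obtain ⟨r, hr⟩ := ENat.ne_top_iff_exists.1 (S24.local_order_ne_top τ W hW0)
    rw [← hr]
    have : (n • (r : ℕ∞)) = ((n * r : ℕ) : ℕ∞) := by
      rw [nsmul_eq_mul]; push_cast; rfl
    rw [this, ENat.toNat_natCast, ENat.toNat_natCast]
    push_cast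
    rfl
  have h7 : ((taylorHom τ W).order.toNat : ℤ) = (k : ℤ) * m := by
    have hnz : (n : ℤ) ≠ 0 := by exact_mod_cast hn.ne'
    apply mul_left_cancel₀ hnz
    rw [← h6]
    rw [hC, h5]
    ring
  have hkz : (0 : ℤ) < k := by exact_mod_cast hk
  have hm0 : 0 ≤ m := by
    by_contra hneg
    push Not at hneg
    have := mul_neg_of_pos_of_neg hkz hneg
    omega
  have h8 : (taylorHom τ W).order.toNat = k * m.toNat := by
    have : ((taylorHom τ W).order.toNat : ℤ) = ((k * m.toNat : ℕ) : ℤ) := by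
      push_cast
      rw [Int.toNat_of_nonneg hm0, h7]
    exact_mod_cast this
  rw [← hmult, h8, pow_mul, hlamk, one_pow]

end Fermat.Agent.G1.A
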