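import Fermat.Agent.GR.A.Defs
import Fermat.Agent.G1.A.ConjC

/-!
# GR-A : the analytic realisation `evF ι N : FF1 K N →+* Mer` of the function field
-/

set_option autoImplicit false

namespace Fermat.Agent.G1.A

open Fermat.Agent.GR Fermat.Agent.GR.A Fermat.Agent.G1

open UpperHalfPlane Function AlgebraicCurve CongruenceSubgroup
open Fermat.Agent.S24 (Hol constHol compHom taylorHom MerInf laurentHom jfun jdfun jHol)
open scoped Manifold MatrixGroups

variable {K : Type} [Field K] (ι : K →+* ℂ) (N : ℕ) [NeZero N]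

theorem exists_evF : ∃ ev : FF1 K N →+* Mer, ∀ a : A1 K N, ev (incl K N a) = holMer (evA ι N a) :=
  exists_lift K N (holMer.comp (evA ι N)) (holMer_injective.comp (evA_injective ι N))

/-- The analytic realisation `FF1 K N → Mer`, `j(q^d) ↦ (τ ↦ j(dτ))`, `c ↦ ι c`. -/
noncomputable def evF : FF1 K N →+* Mer := (exists_evF ι N).choose

@[simp] theorem evF_incl (a : A1 K N) : evF ι N (incl K N a) = holMer (evA ι N a) :=
  (exists_evF ι N).choose_spec a

theorem evF_injective : Function.Injective (evF ι N) := (evF ι N).injective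

theorem evF_algebraMap (c : K) : evF ι N (algebraMap K (FF1 K N) c) = constMer (ι c) := by
  rw [← (incl K N).commutes c, evF_incl, evA_algebraMap]
  rfl

/-- `j` as a meromorphic function -/
noncomputable def jMer : Mer := holMer jHol

theorem evF_jF : evF ι N (jF K N) = jMer := by
  rw [jF, evF_incl, evA_jA]
  rfl

/-- `τ ↦ j(dτ)` as a holomorphic function -/
noncomputable def jdHol (d : ℕ) [NeZero d] : Hol :=
  ⟨jdfun d, (Fermat.Agent.S24.jdfun_mem_MerInf d).1⟩

theorem evF_jdF (d : ℕ) [NeZero d] (hd : d ∣ N) : evF ι N (jdF K N d hd) = holMer (jdHol d) := by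
  rw [jdF, evF_incl]
  congr 1
  ext τ
  exact evA_jdA ι N d hd τ

/-- Invariance under `Γ₀(N)`. -/
theorem compMer_evF_of_mem_Gpm (γ : SL(2, ℤ)) (hγ : γ ∈ Gpm N) (f : FF1 K N) :
    compMer γ (evF ι N f) = evF ι N f := by
  obtain ⟨a, b, -, rfl⟩ := exists_frac K N f
  rw [map_div₀, map_div₀, evF_incl, evF_incl, compMer_holMer, compMer_holMer,
    compHom_evA_of_mem_Gpm ι N γ hγ, compHom_evA_of_mem_Gpm ι N γ hγ]

theorem compMer_evF (γ : SL(2, ℤ)) (hγ : γ ∈ Gamma1 N) (f : FF1 K N) :
    compMer γ (evF ι N f) = evF ι N f :=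
  compMer_evF_of_mem_Gpm ι N γ (Gamma1_le_Gpm N hγ) f

/-- the conjugates: `compMer δ (evF (incl a)) = conjHom (δ⁻¹ Γ₀(N)) a`. -/
theorem compMer_evF_incl (δ : SL(2, ℤ)) (a : A1 K N) :
    compMer δ (evF ι N (incl K N a)) =
      holMer (conjHom ι N (QuotientGroup.mk δ⁻¹ : Cosets1 N) a) := by
  rw [evF_incl, compMer_holMer, conjHom_mk, inv_inv]

/-- Compatibility with `q`-expansions: `f = a / b` with `a, b` holomorphic on `ℍ`,
`1`-periodic, meromorphic at `i∞`, and the same relation holds between the `q`-expansions. -/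
theorem evF_qExpansion (f : FF1 K N) : ∃ a b : MerInf 1, b ≠ 0 ∧
    evF ι N f * holMer (MerInf.toHol b) = holMer (MerInf.toHol a) ∧
    ModularCurve.coeffMap ι (f : LaurentSeries K) * laurentHom 1 b = laurentHom 1 a := by
  obtain ⟨a, b, hb, rfl⟩ := exists_frac K N f
  have hb' : incl K N b ≠ 0 := fun h => hb (incl_injective K N (by rw [h, map_zero]))
  have hb2 : (b : LaurentSeries K) ≠ 0 := fun h => hb (Subtype.ext h)
  refine ⟨⟨_, evA_mem ι N a⟩, ⟨_, evA_mem ι N b⟩, ?_, ?_, ?_⟩
  · intro h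
    apply hb
    apply evA_injective ι N
    rw [map_zero]
    exact Subtype.ext (congrArg (fun z : MerInf 1 => (z : ℍ → ℂ)) h)
  · have h1 : MerInf.toHol (⟨_, evA_mem ι N b⟩ : MerInf 1) = evA ι N b := rfl
    have h2 : MerInf.toHol (⟨_, evA_mem ι N a⟩ : MerInf 1) = evA ι N a := rfl
    rw [h1, h2, map_div₀, evF_incl, evF_incl, div_mul_cancel₀]
    intro h
    apply hb
    apply evA_injective ι N
    apply holMer_injective
    rw [h, map_zero, map_zero]
  · rw [laurentHom_evA, laurentHom_evA]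
    have h3 : ((incl K N a / incl K N b : FF1 K N) : LaurentSeries K) =
        (a : LaurentSeries K) / (b : LaurentSeries K) := rfl
    rw [h3, map_div₀, div_mul_cancel₀]
    exact (map_ne_zero _).2 hb2

end Fermat.Agent.G1.A
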