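import Fermat.Agent.GR.A.CuspChar
import Fermat.Agent.G1.A.CuspHalfC
import Fermat.Agent.GR.A.SL2Fix2

/-!
# G1-A, (A1), parabolic elements : leaf L3
-/

set_option autoImplicit false

namespace Fermat.Agent.G1.A

open Fermat.Agent.GR Fermat.Agent.GR.A Fermat.Agent.G1

open UpperHalfPlane Function AlgebraicCurve CongruenceSubgroup IntermediateField
open Fermat.Agent.S24 (Hol constHol compHom taylorHom MerInf laurentHom jfun jdfun jHol
  compHom_mul compHom_one compHom_apply local_laurentHom_congr coeff_laurentHom_compHom_T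
  laurentHom_injective)
open scoped Manifold MatrixGroups Real

section Generic

variable {K : Type} [Field K] [IsAlgClosed K] [CharZero K] (ι : K →+* ℂ) (N : ℕ) [NeZero N]

theorem compHom_conj_eq {δ γ : SL(2, ℤ)} {w : Hol} {z : ℂ}
    (h : compHom (δ * γ * δ⁻¹) w = constHol z * w) :
    compHom γ (compHom δ w) = constHol z * compHom δ w := by
  rw [compHom_mul, compHom_mul] at h
  have h2 := congrArg (compHom δ) h
  rw [← compHom_mul δ⁻¹ δ, inv_mul_cancel, compHom_one, map_mul, S24.compHom_constHol] at h2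
  exact h2

/-- **(A1), parabolic elements** (generic base field). -/
theorem eq_zero_of_parabolic_core (n : ℕ) [NeZero n] (f : FF1 K N) (hf : f ≠ 0) (c w : Hol)
    (hc : evF ι N f = holMer c) (hcusp : ∀ δ : SL(2, ℤ), ((compHom δ c : Hol) : ℍ → ℂ) ∈ MerInf N)
    (hw : w ^ n = c) (hK : ∀ v : Place K (FF1 K N), (n : ℤ) ∣ v.ord f)
    (δ : SL(2, ℤ)) (m : ℕ) (hm : δ * ModularGroup.T ^ m * δ⁻¹ ∈ Gpm N) (aN am : ZMod n)
    (hN : compHom (δ * ModularGroup.T ^ N * δ⁻¹) w = constHol (ZMod.stdAddChar aN) * w)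
    (hm' : compHom (δ * ModularGroup.T ^ m * δ⁻¹) w = constHol (ZMod.stdAddChar am) * w) :
    am = 0 := by
  have hn : 0 < n := Nat.pos_of_ne_zero (NeZero.ne n)
  obtain ⟨U, -, hUφ⟩ := (preUnifInfty ι N).toUnifDataInv
  have hx : Transcendental K (jF K N)⁻¹ := S24.transcendental_inv (transcendental_jF ι N)
  haveI := finiteDimensional_FF ι N
  haveI : FiniteDimensional K⟮(jF K N)⁻¹⟯ (FF1 K N) :=
    S24.finiteDimensional_of_eq (S24.adjoin_inv (jF K N))
  set i : Cosets1 N := QuotientGroup.mk δ⁻¹ with hi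
  obtain ⟨v, -, hv⟩ := U.exists_place hx i
  obtain ⟨k, hk, hkf⟩ := S24.exists_order_eq_mul_ord v (U.φ i) hv
  -- `N ∣ m k`
  have hper : (permOf1 N ModularGroup.T ^ m) i = i := by
    rw [local_permOf_pow]
    have h1 : (ModularGroup.T ^ m) • (QuotientGroup.mk δ⁻¹ : Cosets1 N) =
        QuotientGroup.mk (ModularGroup.T ^ m * δ⁻¹) := rfl
    rw [hi, h1, eq_comm, QuotientGroup.eq, inv_inv, ← mul_assoc]
    exact hm
  have hNmk : (N : ℤ) ∣ (m : ℤ) * k := by
    obtain ⟨ϖ, hϖ⟩ := IsDiscreteValuationRing.exists_irreducible v.toValuationSubring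
    have h1 := U.order_dvd i m hper (ϖ : FF1 K N)
    rwa [hkf, v.ord_coe_irreducible hϖ, mul_one] at h1
  -- the functions
  set W := compHom δ w with hW
  set C := compHom δ c with hC
  have hWn : W ^ n = C := by rw [hW, hC, ← map_pow, hw]
  have hCmem : (C : ℍ → ℂ) ∈ MerInf N := hcusp δ
  have hc0 : c ≠ 0 := by
    rintro rfl
    rw [map_zero] at hc
    exact hf ((map_eq_zero _).1 hc)
  have hC0 : C ≠ 0 := fun h => hc0 (compHom_injective δ (by rw [← hC, h, map_zero]))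
  have hW0 : W ≠ 0 := by
    rintro h
    rw [h, zero_pow hn.ne'] at hWn
    exact hC0 hWn.symm
  have hord2 : (laurentHom N ⟨_, hCmem⟩).order = (k : ℤ) * v.ord f := by
    rw [← hkf]
    obtain ⟨a, b, hb, rfl⟩ := exists_frac K N f
    have ha : a ≠ 0 := by
      rintro rfl
      apply hf
      rw [map_zero, zero_div]
    have hb' : incl K N b ≠ 0 := fun h => hb (incl_injective K N (by rw [h, map_zero]))
    have ha' : incl K N a ≠ 0 := fun h => ha (incl_injective K N (by rw [h, map_zero]))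
    rw [S24.order_map_div _ ha' hb', hUφ, hUφ]
    show _ = (localPsiInf ι N _ a).order - (localPsiInf ι N _ b).order
    rw [localPsiInf_apply, localPsiInf_apply]
    have hrel : evA ι N a = c * evA ι N b := by
      apply holMer_injective
      rw [map_mul, ← hc, map_div₀, evF_incl, evF_incl, div_mul_cancel₀]
      intro h
      exact hb (evA_injective ι N (holMer_injective (by rw [h, map_zero, map_zero])))
    have hrel2 : conjHom ι N i a = C * conjHom ι N i b := by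
      rw [hi, conjHom_mk, conjHom_mk, hrel, map_mul, inv_inv]
    have h3 : (⟨_, conjHom_mem_MerInf ι N i a⟩ : MerInf N) =
        (⟨_, hCmem⟩ : MerInf N) * ⟨_, conjHom_mem_MerInf ι N i b⟩ := by
      apply Subtype.ext
      exact congrArg (fun g : Hol => (g : ℍ → ℂ)) hrel2
    rw [h3, map_mul, HahnSeries.order_mul (laurentHom_order_ne hCmem hC0)]
    · ring
    · refine laurentHom_order_ne (conjHom_mem_MerInf ι N i b) ?_
      intro h0
      exact hb (conjHom_injective ι N i (by rw [h0, map_zero]))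
  obtain ⟨s, hs⟩ := hK v
  -- step 1
  have hWnmem : ((W ^ n : Hol) : ℍ → ℂ) ∈ MerInf N := by rw [hWn]; exact hCmem
  have hordWn : (laurentHom N ⟨_, hWnmem⟩).order = (k : ℤ) * v.ord f := by
    rw [← hord2]
    exact congrArg HahnSeries.order (local_laurentHom_congr N hWnmem hCmem (by rw [hWn]))
  have haN : aN = 0 := by
    refine eq_zero_of_dvd_order N n W hW0 aN (compHom_conj_eq hN) hWnmem ?_
    rw [hordWn, hs]
    exact ⟨k * s, by ring⟩
  -- step 2
  have hWper : compHom (ModularGroup.T ^ N) W = W := by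
    have := compHom_conj_eq hN
    rwa [haN, AddChar.map_zero_eq_one, map_one, one_mul] at this
  have hWmem : (W : ℍ → ℂ) ∈ MerInf N := mem_MerInf_of_pow_mem N n hn W hWper hWnmem
  have hord1 : (laurentHom N ⟨_, hWnmem⟩).order = (n : ℤ) * (laurentHom N ⟨_, hWmem⟩).order := by
    have h1 : (⟨_, hWnmem⟩ : MerInf N) = (⟨_, hWmem⟩ : MerInf N) ^ n := rfl
    rw [h1, map_pow, HahnSeries.order_pow, nsmul_eq_mul]
  have hM : (laurentHom N ⟨_, hWmem⟩).order = (k : ℤ) * s := by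
    have h5 : (n : ℤ) * (laurentHom N ⟨_, hWmem⟩).order = (n : ℤ) * ((k : ℤ) * s) := by
      rw [← hord1, hordWn, hs]; ring
    exact mul_left_cancel₀ (by exact_mod_cast hn.ne') h5
  -- step 3
  have h6 := eq_exp_of_T_pow N W hWmem hW0 m _ (compHom_conj_eq hm')
  rw [hM] at h6
  obtain ⟨t, ht⟩ := hNmk
  have hNC : (N : ℂ) ≠ 0 := by exact_mod_cast NeZero.ne N
  have h7 : Complex.exp (2 * π * Complex.I * ((m : ℤ) : ℂ) * (((k : ℤ) * s : ℤ) : ℂ) / N) = 1 := by
    rw [Complex.exp_eq_one_iff]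
    refine ⟨t * s, ?_⟩
    have h8 : (((m : ℤ) : ℂ)) * ((k : ℤ) : ℂ) = (N : ℂ) * t := by exact_mod_cast ht
    push_cast
    push_cast at h8
    field_simp
    linear_combination (s : ℂ) * h8
  rw [h7] at h6
  apply ZMod.injective_stdAddChar
  rw [h6, AddChar.map_zero_eq_one]

end Generic

variable {N : ℕ} [NeZero N] {n : ℕ} [NeZero n] {c w : ℍ → ℂ} {φ : Additive (Gamma1 N) →+ ZMod n}

theorem HasRoot.compHom_eq_mul (h : HasRoot N n c w φ) (γ : SL(2, ℤ)) (hγ : γ ∈ Gamma1 N) :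
    compHom γ (⟨w, h.mdiff⟩ : Hol) =
      constHol (ZMod.stdAddChar (φ (Additive.ofMul ⟨γ, hγ⟩))) * ⟨w, h.mdiff⟩ := by
  apply Subtype.ext
  funext τ
  exact h.char ⟨γ, hγ⟩ τ

theorem HasRoot.exists_ne_zero (h : HasRoot N n c w φ) : ∃ τ, w τ ≠ 0 := by
  obtain ⟨τ, hτ⟩ := h.ne_zero
  refine ⟨τ, fun h0 => hτ ?_⟩
  rw [← h.pow_eq, h0, zero_pow (NeZero.ne n)]

/-- the natural-exponent case (regular and irregular cusps) -/
theorem HasRoot.eq_zero_of_conj_T_pow (h : HasRoot N n c w φ) (hK : IsKummer1 (M := N) n (qexp c))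
    (γ : Gamma1 N) (δ : SL(2, ℤ)) (m : ℕ)
    (hγ : (γ : SL(2, ℤ)) = δ * ModularGroup.T ^ m * δ⁻¹ ∨
      (γ : SL(2, ℤ)) = -(δ * ModularGroup.T ^ m * δ⁻¹)) :
    φ (Additive.ofMul γ) = 0 := by
  obtain ⟨-, hmem, hord⟩ := hK
  have hNmem : δ * ModularGroup.T ^ N * δ⁻¹ ∈ Gamma1 N := by
    have := conj_T_pow_mem_Gamma0 N δ
    rwa [zpow_natCast] at this
  have hm : δ * ModularGroup.T ^ m * δ⁻¹ ∈ Gpm N := by
    rcases hγ with hγ | hγ
    · exact Or.inl (hγ ▸ γ.2)
    · exact Or.inr (hγ ▸ γ.2)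
  have hcomp : compHom (δ * ModularGroup.T ^ m * δ⁻¹) (⟨w, h.mdiff⟩ : Hol) =
      constHol (ZMod.stdAddChar (φ (Additive.ofMul γ))) * ⟨w, h.mdiff⟩ := by
    have h1 := h.compHom_eq_mul γ γ.2
    rcases hγ with hγ | hγ
    · rw [← hγ]
      exact h1
    · have h2 : compHom (δ * ModularGroup.T ^ m * δ⁻¹) (⟨w, h.mdiff⟩ : Hol) =
          compHom (γ : SL(2, ℤ)) (⟨w, h.mdiff⟩ : Hol) := by
        ext τ
        rw [compHom_apply, compHom_apply, hγ, ModularGroup.SL_neg_smul]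
      rw [h2]
      exact h1
  exact eq_zero_of_parabolic_core (RingHom.id ℂ) N n _ h.qexp_ne_zero ⟨c, h.modFun.mdiff⟩
    ⟨w, h.mdiff⟩ (evF_qexp h.modFun) (fun δ => h.modFun.cusp δ) h.pow_eq_hol hord δ m hm _ _
    (h.compHom_eq_mul _ hNmem) hcomp

/-- L3. -/
theorem HasRoot.eq_zero_of_trace (h : HasRoot N n c w φ) (hK : IsKummer1 (M := N) n (qexp c))
    (γ : Gamma1 N) (hγ : ((γ : SL(2, ℤ)) : Matrix (Fin 2) (Fin 2) ℤ).trace ^ 2 = 4) :
    φ (Additive.ofMul γ) = 0 := by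
  obtain ⟨δ, k, hk⟩ := exists_conj_T_of_trace (γ : SL(2, ℤ)) hγ
  obtain ⟨m, rfl | rfl⟩ := k.eq_nat_or_neg
  · refine h.eq_zero_of_conj_T_pow hK γ δ m ?_
    rw [zpow_natCast] at hk
    exact hk
  · have hinv : (δ * ModularGroup.T ^ (-(m : ℤ)) * δ⁻¹)⁻¹ = δ * ModularGroup.T ^ m * δ⁻¹ := by
      rw [zpow_neg, zpow_natCast]; group
    have h1 := h.eq_zero_of_conj_T_pow hK γ⁻¹ δ m (by
      rw [Subgroup.coe_inv, ← hinv]
      rcases hk with hk | hk
      · left
        rw [hk]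
      · right
        rw [hk, inv_eq_iff_mul_eq_one, neg_mul_neg, mul_inv_cancel])
    rw [ofMul_inv, map_neg, neg_eq_zero] at h1
    exact h1

end Fermat.Agent.G1.A
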