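import Fermat.Agent.S24.Hol
import Fermat.Agent.S28.An.Defs
import Fermat.Agent.G1.Defs

/-!
# G1-A / G1-B: shared definitions for the analytic side (over `ℂ`), port of `GR/A/ModDefs.lean`

* `IsModFun M h`: `h` is a holomorphic modular function for `Γ₁(M)` (holomorphic on `ℍ`, invariant,
  meromorphic at all cusps).
* `HasRoot M n c w φ`: `w` is a holomorphic `n`-th root of the holomorphic modular function `c ≠ 0`,
  and `w ∘ γ = e(φ γ / n) w` for `γ ∈ Γ₁(M)`.
* `HasChar M n u φ`: the class of `u ∈ ℂ((q))` modulo `n`-th powers of the function field contains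
  the `q`-expansion of such a `c`.
-/

set_option autoImplicit false

open UpperHalfPlane CongruenceSubgroup
open scoped MatrixGroups Manifold

namespace Fermat.Agent.G1.A

/-- holomorphic modular functions for `Γ₁(M)`. -/
def IsModFun (M : ℕ) (h : ℍ → ℂ) : Prop :=
  MDiff h ∧ (∀ γ ∈ Gamma1 M, ∀ τ : ℍ, h (γ • τ) = h τ) ∧
    ∀ γ : SL(2, ℤ), (fun τ : ℍ => h (γ • τ)) ∈ S24.MerInf M

/-- `w` is a holomorphic `n`-th root of the nonzero holomorphic modular function `c`, with
character `φ`. -/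
structure HasRoot (M n : ℕ) [NeZero n] (c w : ℍ → ℂ) (φ : Additive (Gamma1 M) →+ ZMod n) :
    Prop where
  modFun : IsModFun M c
  ne_zero : ∃ τ, c τ ≠ 0
  mdiff : MDiff w
  pow_eq : ∀ τ, w τ ^ n = c τ
  char : ∀ (γ : Gamma1 M) (τ : ℍ),
    w ((γ : SL(2, ℤ)) • τ) = ZMod.stdAddChar (φ (Additive.ofMul γ)) * w τ

/-- "`χ_u = φ`": modulo `n`-th powers of `FF1 ℂ M`, `u` is the `q`-expansion of a holomorphic
modular function having a holomorphic `n`-th root with character `φ`. -/
def HasChar (M n : ℕ) [NeZero n] (u : LaurentSeries ℂ) (φ : Additive (Gamma1 M) →+ ZMod n) :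
    Prop :=
  ∃ (c w : ℍ → ℂ) (f : LaurentSeries ℂ), HasRoot M n c w φ ∧ S28.IsExp 1 c f ∧
    KummerEquiv1 M n f u

end Fermat.Agent.G1.A
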