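import Fermat.Agent.G1.A.ModFun
import Fermat.Agent.G1.B.ModFrac

/-!
# G1-A: the interface `G1.B.MemFF1 M` of G1-B (the `q`-expansion of a holomorphic modular function for
`Γ₁(M)` lies in `FF1 ℂ M`)
-/

set_option autoImplicit false

namespace Fermat.Agent.G1.A

/-- **(M1)** in the form used by G1-B. -/
theorem memFF1 (M : ℕ) [NeZero M] : G1.B.MemFF1 M := by
  intro f s hf hs
  rw [hs.unique one_pos (IsModFun.isExp hf)]
  exact IsModFun.qexp_mem hf

end Fermat.Agent.G1.A
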