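import Fermat.Agent.G1.A.ModFun
import Fermat.Agent.GR.A.RootHol

/-!
# GR-A, L6: a holomorphic `n`-th root of a modular function has a character
-/

set_option autoImplicit false

open UpperHalfPlane CongruenceSubgroup ModularCurve
open scoped MatrixGroups Manifold

namespace Fermat.Agent.G1.A

open Fermat.Agent.GR Fermat.Agent.GR.A Fermat.Agent.G1

/-- every `n`-th root of unity is a value of the standard additive character of `ZMod n`. -/
theorem RootChar_exists_stdAddChar_eq {n : ℕ} [NeZero n] {ζ : ℂ} (hζ : ζ ^ n = 1) :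
    ∃ k : ZMod n, ZMod.stdAddChar k = ζ := by
  obtain ⟨i, -, hi⟩ := (Complex.isPrimitiveRoot_exp n (NeZero.ne n)).eq_pow_of_pow_eq_one hζ
  refine ⟨((i : ℤ) : ZMod n), ?_⟩
  rw [ZMod.stdAddChar_coe, ← hi, ← Complex.exp_nat_mul]
  congr 1
  push_cast
  ring

theorem exists_hasRoot_of_pow_eq {N : ℕ} [NeZero N] {n : ℕ} [NeZero n] {c w : ℍ → ℂ} (hc : IsModFun N c) (hc0 : c ≠ 0) (hw : MDiff w) (hwc : ∀ τ, w τ ^ n = c τ) : ∃ φ : Additive (Gamma1 N) →+ ZMod n, HasRoot N n c w φ := by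
  have hn : 0 < n := Nat.pos_of_ne_zero (NeZero.ne n)
  obtain ⟨τ₀, hτ₀⟩ : ∃ τ, c τ ≠ 0 := by
    by_contra hcon
    push Not at hcon
    exact hc0 (funext hcon)
  have hwτ₀ : w τ₀ ≠ 0 := by
    intro h0
    apply hτ₀
    rw [← hwc, h0, zero_pow hn.ne']
  set W : S24.Hol := ⟨w, hw⟩ with hW
  have hW0 : W ≠ 0 := by
    intro h0
    apply hwτ₀
    have := congrArg (fun f : S24.Hol => (f : ℍ → ℂ) τ₀) h0
    simpa [hW] using this
  -- the character
  have hex : ∀ γ : Gamma1 N, ∃ k : ZMod n, ∀ τ : ℍ,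
      w ((γ : SL(2, ℤ)) • τ) = ZMod.stdAddChar k * w τ := by
    intro γ
    have hpow : (S24.compHom (γ : SL(2, ℤ)) W) ^ n = W ^ n := by
      ext τ
      show w ((γ : SL(2, ℤ)) • τ) ^ n = w τ ^ n
      rw [hwc, hwc, hc.2.1 _ γ.2]
    obtain ⟨ζ, hζ, hζW⟩ := hol_root_unique n hn W _ hW0 hpow
    obtain ⟨k, hk⟩ := RootChar_exists_stdAddChar_eq hζ
    refine ⟨k, fun τ => ?_⟩
    have := congrArg (fun f : S24.Hol => (f : ℍ → ℂ) τ) hζW
    rw [hk]
    exact this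
  choose k hk using hex
  have hadd : ∀ γ δ : Gamma1 N, k (γ * δ) = k γ + k δ := by
    intro γ δ
    apply ZMod.injective_stdAddChar
    apply mul_right_cancel₀ hwτ₀
    rw [← hk, Subgroup.coe_mul, mul_smul, hk, hk, AddChar.map_add_eq_mul, mul_assoc]
  refine ⟨AddMonoidHom.mk' (fun γ => k (Additive.toMul γ)) (fun a b => hadd _ _), ?_⟩
  exact ⟨hc, ⟨τ₀, hτ₀⟩, hw, hwc, fun γ τ => hk γ τ⟩

end Fermat.Agent.G1.A
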