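import Fermat.Agent.G1.A.EvF
import Fermat.Agent.G1.A.DegreeC
import Fermat.Agent.G1.A.LocalC
import Fermat.Agent.GR.A.Count
import Fermat.Agent.S24.Final

/-!
# GR-A, (A2), the finite places

If `c` is (the analytic realisation of) an element `f` of the function field, holomorphic on `ℍ`,
with a holomorphic `n`-th root `w` which is invariant under all elements of finite order of `Γ₀(N)`,
then `n ∣ ord_v f` for every place `v` with `v(j) ≥ 0`.
-/

set_option autoImplicit false

namespace Fermat.Agent.G1.A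

open Fermat.Agent.GR Fermat.Agent.GR.A Fermat.Agent.G1

open UpperHalfPlane Function AlgebraicCurve CongruenceSubgroup IntermediateField
open Fermat.Agent.S24 (Hol constHol compHom taylorHom MerInf laurentHom jfun jdfun jHol
  compHom_mul compHom_one compHom_apply taylorHom_injective local_order_ofPowerSeries rhoPt)
open scoped Manifold MatrixGroups

/-- Taylor expansion at `τ`, as a Laurent series. -/
noncomputable def tayL (τ : ℍ) : Hol →+* LaurentSeries ℂ :=
  (HahnSeries.ofPowerSeries ℤ ℂ).comp (taylorHom τ)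

theorem tayL_injective (τ : ℍ) : Function.Injective (tayL τ) :=
  HahnSeries.ofPowerSeries_injective.comp (taylorHom_injective τ)

theorem order_tayL (τ : ℍ) (F : Hol) : (tayL τ F).order = ((taylorHom τ F).order.toNat : ℤ) :=
  local_order_ofPowerSeries _

variable {K : Type} [Field K] [IsAlgClosed K] [CharZero K] (ι : K →+* ℂ) (N : ℕ) [NeZero N]

/-- common core of the three cases `j = 0`, `j = 1728`, `j` generic. -/
theorem dvd_ord_of_root_core (τ0 : ℍ) (c0 : K) (e0 : ℕ) (g : Equiv.Perm (Cosets1 N))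
    (P : PreUnif ι N c0 e0 e0 g) (hP : P.Ψ = localPsi ι N τ0) (he0 : e0 = 1 ∨ e0.Prime)
    (n : ℕ) (hn : 0 < n) (f : FF1 K N) (hf : f ≠ 0) (c w : Hol)
    (hc : evF ι N f = holMer c) (hw : w ^ n = c)
    (hkey : ∀ δ : SL(2, ℤ), g (QuotientGroup.mk δ⁻¹) = QuotientGroup.mk δ⁻¹ →
      e0 ∣ (taylorHom τ0 (compHom δ w)).order.toNat)
    (v : Place K (FF1 K N)) (hv : 0 < v.ord (jF K N - algebraMap K (FF1 K N) c0)) :
    (n : ℤ) ∣ v.ord f := by
  obtain ⟨U, -, hUφ⟩ := P.toUnifData
  have hx : Transcendental K (jF K N - algebraMap K (FF1 K N) c0) :=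
    S24.transcendental_sub_algebraMap (transcendental_jF ι N) c0
  haveI := finiteDimensional_FF ι N
  haveI : FiniteDimensional K⟮jF K N - algebraMap K (FF1 K N) c0⟯ (FF1 K N) :=
    S24.finiteDimensional_of_eq (S24.adjoin_sub_algebraMap (jF K N) c0)
  have hcard : Nat.card (Cosets1 N) =
      Module.finrank K⟮jF K N - algebraMap K (FF1 K N) c0⟯ (FF1 K N) := by
    rw [finrank_FF ι N, S24.finrank_eq_of_eq (S24.adjoin_sub_algebraMap (jF K N) c0)]
  obtain ⟨i, hi⟩ := U.exists_induced hx hcard v hv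
  obtain ⟨k, hk, hkw, hkf⟩ := exists_mul_minimalPeriod_eq U hx hcard i v hi
  obtain ⟨gg, rfl⟩ := QuotientGroup.mk_surjective i
  set δ := gg⁻¹ with hδ
  set W := compHom δ w with hW
  set C := compHom δ c with hC
  have hWn : W ^ n = C := by rw [hW, hC, ← map_pow, hw]
  have hc0 : c ≠ 0 := by
    rintro rfl
    rw [map_zero] at hc
    exact hf ((map_eq_zero _).1 hc)
  have hC0 : C ≠ 0 := fun h => hc0 (compHom_injective δ (by rw [← hC, h, map_zero]))
  have hord1 : (tayL τ0 C).order = (n : ℤ) * (tayL τ0 W).order := by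
    rw [← hWn, map_pow, HahnSeries.order_pow, nsmul_eq_mul]
  have hord2 : (tayL τ0 C).order = (k : ℤ) * v.ord f := by
    rw [← hkf]
    obtain ⟨a, b, hb, rfl⟩ := exists_frac K N f
    have ha : a ≠ 0 := by
      rintro rfl
      apply hf
      rw [map_zero, zero_div]
    have hb' : incl K N b ≠ 0 := fun h => hb (incl_injective K N (by rw [h, map_zero]))
    have ha' : incl K N a ≠ 0 := fun h => ha (incl_injective K N (by rw [h, map_zero]))
    rw [S24.order_map_div _ ha' hb', hUφ, hUφ, hP]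
    have hrel : evA ι N a = c * evA ι N b := by
      apply holMer_injective
      rw [map_mul, ← hc, map_div₀, evF_incl, evF_incl, div_mul_cancel₀]
      intro h
      exact hb (evA_injective ι N (holMer_injective (by rw [h, map_zero, map_zero])))
    have hrel2 : conjHom ι N (QuotientGroup.mk gg) a = C * conjHom ι N (QuotientGroup.mk gg) b := by
      rw [conjHom_mk, conjHom_mk, hrel, map_mul]
    have e1 : localPsi ι N τ0 (QuotientGroup.mk gg) a =
        tayL τ0 C * localPsi ι N τ0 (QuotientGroup.mk gg) b := by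
      rw [localPsi_apply, localPsi_apply, hrel2, map_mul, map_mul]
      rfl
    rw [e1, HahnSeries.order_mul]
    · ring
    · exact fun h0 => hC0 (tayL_injective τ0 (by rw [h0, map_zero]))
    · exact fun h0 => hb (localPsi_injective ι N τ0 _ (by rw [h0, map_zero]))
  have hkM : (k : ℤ) ∣ (tayL τ0 W).order := by
    rcases eq_or_ne k 1 with rfl | hk1
    · simp
    · have hprime : e0.Prime := by
        rcases he0 with h1 | h1
        · exfalso
          rw [h1] at hkw
          exact hk1 (Nat.eq_one_of_mul_eq_one_right hkw)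
        · exact h1
      have hke : k = e0 := by
        rcases (Nat.dvd_prime hprime).1 (Dvd.intro _ hkw) with h | h
        · exact absurd h hk1
        · exact h
      have hper1 : Function.minimalPeriod g (QuotientGroup.mk gg) = 1 := by
        rw [hke] at hkw
        exact Nat.eq_of_mul_eq_mul_left hprime.pos (by rw [hkw, mul_one])
      have hfix : g (QuotientGroup.mk gg) = QuotientGroup.mk gg :=
        Function.minimalPeriod_eq_one_iff_isFixedPt.1 hper1
      have := hkey δ (by rw [hδ, inv_inv]; exact hfix)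
      rw [order_tayL, hke]
      exact_mod_cast this
  obtain ⟨M', hM'⟩ := hkM
  refine ⟨M', ?_⟩
  have h5 : (k : ℤ) * v.ord f = (k : ℤ) * ((n : ℤ) * M') := by
    rw [← hord2, hord1, hM']; ring
  exact mul_left_cancel₀ (by exact_mod_cast hk.ne') h5

/-- the invariance step used at the two elliptic points -/
theorem compHom_of_fixed_coset (γ0 : SL(2, ℤ)) (hfin : IsOfFinOrder γ0) (w : Hol)
    (hell : ∀ γ ∈ Gamma1 N, IsOfFinOrder γ → compHom γ w = w) (δ : SL(2, ℤ))
    (h : permOf1 N γ0 (QuotientGroup.mk δ⁻¹) = QuotientGroup.mk δ⁻¹) :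
    compHom γ0 (compHom δ w) = compHom δ w := by
  have h1 : permOf1 N γ0 (QuotientGroup.mk δ⁻¹ : Cosets1 N) = QuotientGroup.mk (γ0 * δ⁻¹) := rfl
  rw [h1, eq_comm, QuotientGroup.eq, inv_inv, ← mul_assoc] at h
  have hfin' : IsOfFinOrder (δ * γ0 * δ⁻¹) := by
    obtain ⟨m, hm, hm1⟩ := isOfFinOrder_iff_pow_eq_one.1 hfin
    refine isOfFinOrder_iff_pow_eq_one.2 ⟨m, hm, ?_⟩
    rw [conj_pow, hm1, mul_one, mul_inv_cancel]
  have h2 : compHom (δ * γ0 * δ⁻¹) w = w := by
    rcases h with h | h
    · exact hell _ h hfin'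
    · have hneg : IsOfFinOrder (-(δ * γ0 * δ⁻¹)) := by
        obtain ⟨m, hm, hm1⟩ := isOfFinOrder_iff_pow_eq_one.1 hfin'
        refine isOfFinOrder_iff_pow_eq_one.2 ⟨2 * m, by omega, ?_⟩
        rw [pow_mul, neg_sq, ← pow_mul, mul_comm, pow_mul, hm1, one_pow]
      have h3 := hell _ h hneg
      have h4 : compHom (-(δ * γ0 * δ⁻¹)) w = compHom (δ * γ0 * δ⁻¹) w := by
        ext τ
        rw [compHom_apply, compHom_apply, ModularGroup.SL_neg_smul]
      rw [← h4]
      exact h3
  rw [compHom_mul, compHom_mul] at h2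
  have h3 := congrArg (compHom δ) h2
  rw [← compHom_mul δ⁻¹ δ, inv_mul_cancel, compHom_one] at h3
  exact h3

theorem isOfFinOrder_S : IsOfFinOrder ModularGroup.S :=
  isOfFinOrder_iff_pow_eq_one.2 ⟨4, by norm_num, by
    rw [show (4 : ℕ) = 2 * 2 from rfl, pow_mul, S24.local_S_sq]; simp⟩

theorem isOfFinOrder_ST : IsOfFinOrder (ModularGroup.S * ModularGroup.T) :=
  isOfFinOrder_iff_pow_eq_one.2 ⟨6, by norm_num, by
    rw [show (6 : ℕ) = 3 * 2 from rfl, pow_mul, S24.local_ST_cube]; simp⟩

/-- **(A2), finite places** (generic base field). -/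
theorem dvd_ord_of_root_of_ord_j_nonneg (n : ℕ) (hn : 0 < n) (f : FF1 K N) (hf : f ≠ 0) (c w : Hol)
    (hc : evF ι N f = holMer c) (hw : w ^ n = c)
    (hell : ∀ γ ∈ Gamma1 N, IsOfFinOrder γ → compHom γ w = w)
    (v : Place K (FF1 K N)) (hv : 0 ≤ v.ord (jF K N)) : (n : ℤ) ∣ v.ord f := by
  haveI := finiteDimensional_FF ι N
  have hw0 : w ≠ 0 := by
    rintro rfl
    rw [zero_pow hn.ne'] at hw
    rw [← hw, map_zero] at hc
    exact hf ((map_eq_zero _).1 hc)
  have hW0 : ∀ δ : SL(2, ℤ), compHom δ w ≠ 0 := fun δ h =>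
    hw0 (compHom_injective δ (by rw [h, map_zero]))
  rcases S24.exists_center (jF K N) (transcendental_jF ι N) v with h | ⟨c0, hc0⟩
  · rw [v.ord_inv] at h
    omega
  by_cases h0 : c0 = 0
  · subst h0
    refine dvd_ord_of_root_core ι N rhoPt 0 3 _ (preUnifZero ι N) rfl (Or.inr Nat.prime_three)
      n hn f hf c w hc hw (fun δ hδ => ?_) v hc0
    exact S24.three_dvd_order_of_invariant _ (hW0 δ)
      (compHom_of_fixed_coset N _ isOfFinOrder_ST w hell δ hδ)
  by_cases h1 : c0 = 1728
  · subst h1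
    refine dvd_ord_of_root_core ι N UpperHalfPlane.I 1728 2 _ (preUnif1728 ι N) rfl
      (Or.inr Nat.prime_two) n hn f hf c w hc hw (fun δ hδ => ?_) v hc0
    exact S24.two_dvd_order_of_invariant _ (hW0 δ)
      (compHom_of_fixed_coset N _ isOfFinOrder_S w hell δ hδ)
  · obtain ⟨τ0, hτ0⟩ := S24.exists_jfun_eq (ι c0)
    exact dvd_ord_of_root_core ι N τ0 c0 1 _ (preUnifGeneric ι N c0 h0 h1 τ0 hτ0) rfl (Or.inl rfl)
      n hn f hf c w hc hw (fun δ _ => one_dvd _) v hc0

end Fermat.Agent.G1.A
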