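import Fermat.Agent.G1.A.Mod
import Fermat.Agent.G1.A.EvC
import Fermat.Agent.G1.A.ModDefs
import Fermat.Agent.G1.A.EisChar
import Fermat.Agent.S24.Degree
import Fermat.Agent.S24.Local

/-!
# GR-A: the ring of holomorphic modular functions for `Γ₀(N)`

`IsModFun N h`: `h : ℍ → ℂ` is holomorphic, `Γ₀(N)`-invariant and meromorphic at all cusps.
-/

set_option autoImplicit false

namespace Fermat.Agent.G1.A

open Fermat.Agent.GR Fermat.Agent.GR.A Fermat.Agent.G1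

open ModularCurve UpperHalfPlane Complex Function
open scoped MatrixGroups Real Manifold
open Fermat.Agent.S28 (IsExp tParam)
open Fermat.Agent.S24 (MerInf laurentHom)

local notation "𝕢" => Periodic.qParam

noncomputable section

/-- bridge `S24.MerInf/laurentHom` → `S28.IsExp`. -/
theorem isExp_laurentHom (N : ℕ) [NeZero N] (f : MerInf N) :
    IsExp N (f : ℍ → ℂ) (laurentHom N f) := by
  intro τ
  obtain ⟨m, hm⟩ := S24.local_exists_bound (laurentHom N f)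
  have h1 := S24.hasSum_laurentHom N f m hm τ
  have hq : 𝕢 (N : ℝ) (τ : ℂ) ≠ 0 := Periodic.qParam_ne_zero _
  have h2 := h1.mul_right ((𝕢 (N : ℝ) (τ : ℂ) ^ m)⁻¹)
  have hinj : Function.Injective (fun n : ℕ => (n : ℤ) - m) := by
    intro a b hab
    simpa using hab
  rw [← hinj.hasSum_iff]
  · have e1 : ((fun k : ℤ => (laurentHom N f).coeff k * tParam N τ ^ k) ∘
        fun n : ℕ => (n : ℤ) - m) = fun i : ℕ => (laurentHom N f).coeff ((i : ℤ) - m) *
          𝕢 (N : ℝ) (τ : ℂ) ^ i * (𝕢 (N : ℝ) (τ : ℂ) ^ m)⁻¹ := by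
      funext n
      simp only [Function.comp_apply, tParam]
      rw [zpow_sub₀ hq, zpow_natCast, zpow_natCast]
      ring
    have e2 : (f : ℍ → ℂ) τ = (f : ℍ → ℂ) τ * 𝕢 (N : ℝ) (τ : ℂ) ^ m *
        (𝕢 (N : ℝ) (τ : ℂ) ^ m)⁻¹ := by
      field_simp
    rw [e1, e2]
    exact h2
  · intro k hk
    have : k < -(m : ℤ) := by
      by_contra hlt
      push Not at hlt
      exact hk ⟨(k + m).toNat, by simp only; omega⟩
    rw [hm k this, zero_mul]

/-- bridge `S28.IsExp` → `S24.MerInf`. -/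
theorem mem_MerInf_of_isExp (N : ℕ) [NeZero N] {f : ℍ → ℂ} {F : LaurentSeries ℂ}
    (H : IsExp N f F) : f ∈ MerInf N := by
  obtain ⟨m, hm⟩ := S24.local_exists_bound F
  refine S24.mem_MerInf_of_hasSum N f F m fun τ => ?_
  have h1 := H.dictB_hasSum_nat (-(m : ℤ)) hm τ
  have e1 : (fun n : ℕ => F.coeff ((n : ℤ) - m) * 𝕢 (N : ℝ) (τ : ℂ) ^ n) =
      fun n : ℕ => F.coeff (-(m : ℤ) + n) • 𝕢 (N : ℝ) (τ : ℂ) ^ n := by
    funext n
    rw [smul_eq_mul]
    congr 2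
    ring
  rw [e1]
  rw [neg_neg, zpow_natCast] at h1
  exact h1

theorem laurentHom_eq_of_isExp (N : ℕ) [NeZero N] {f : ℍ → ℂ} {F : LaurentSeries ℂ}
    (H : IsExp N f F) (hf : f ∈ MerInf N) : laurentHom N ⟨f, hf⟩ = F :=
  (isExp_laurentHom N ⟨f, hf⟩).unique (Nat.pos_of_ne_zero (NeZero.ne N)) H

variable {N : ℕ} {h h₁ h₂ : ℍ → ℂ}

theorem IsModFun.mdiff (H : IsModFun N h) : MDiff h := H.1

theorem IsModFun.inv (H : IsModFun N h) :
    ∀ γ ∈ CongruenceSubgroup.Gamma1 N, ∀ τ, h (γ • τ) = h τ := H.2.1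

theorem IsModFun.cusp (H : IsModFun N h) (γ : SL(2, ℤ)) : (fun τ => h (γ • τ)) ∈ MerInf N :=
  H.2.2 γ

theorem IsModFun.mem_MerInf (H : IsModFun N h) : h ∈ MerInf N := by
  have := H.cusp 1
  simpa using this

/-- constructor (holomorphy follows from the condition at the cusp `∞`). -/
theorem IsModFun.intro (inv : ∀ γ ∈ CongruenceSubgroup.Gamma1 N, ∀ τ, h (γ • τ) = h τ)
    (cusp : ∀ γ : SL(2, ℤ), (fun τ => h (γ • τ)) ∈ MerInf N) : IsModFun N h := by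
  refine ⟨?_, inv, cusp⟩
  have := cusp 1
  simp only [one_smul] at this
  exact this.1

theorem T_mem_Gamma0 (N : ℕ) : ModularGroup.T ∈ CongruenceSubgroup.Gamma1 N := (TGamma1 N).2

theorem IsModFun.mem_MerInf_one [NeZero N] (H : IsModFun N h) : h ∈ MerInf 1 :=
  S24.degree_mem_MerInf_one N h H.mem_MerInf (H.inv _ (T_mem_Gamma0 N))

/-- the `q`-expansion of a holomorphic modular function. -/
def qexp (h : ℍ → ℂ) : LaurentSeries ℂ :=
  open Classical in if hh : h ∈ MerInf 1 then laurentHom 1 ⟨h, hh⟩ else 0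

theorem qexp_eq (hh : h ∈ MerInf 1) : qexp h = laurentHom 1 ⟨h, hh⟩ := by
  rw [qexp, dif_pos hh]

theorem IsModFun.isExp [NeZero N] (H : IsModFun N h) : IsExp 1 h (qexp h) := by
  rw [qexp_eq H.mem_MerInf_one]
  exact isExp_laurentHom 1 ⟨h, H.mem_MerInf_one⟩

/-- **(M1)** the `q`-expansion of a holomorphic modular function lies in the function field. -/
theorem IsModFun.qexp_mem [NeZero N] (H : IsModFun N h) : qexp h ∈ FF1 ℂ N :=
  mem_FF_of_invariant N h (qexp h) H.mdiff H.inv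
    (fun γ => ⟨_, isExp_laurentHom N ⟨_, H.cusp γ⟩⟩) H.isExp

theorem IsModFun.add (H₁ : IsModFun N h₁) (H₂ : IsModFun N h₂) : IsModFun N (h₁ + h₂) :=
  IsModFun.intro (fun γ hγ τ => by simp only [Pi.add_apply, H₁.inv γ hγ, H₂.inv γ hγ])
    (fun γ => (MerInf N).add_mem (H₁.cusp γ) (H₂.cusp γ))

theorem IsModFun.mul (H₁ : IsModFun N h₁) (H₂ : IsModFun N h₂) : IsModFun N (h₁ * h₂) :=
  IsModFun.intro (fun γ hγ τ => by simp only [Pi.mul_apply, H₁.inv γ hγ, H₂.inv γ hγ])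
    (fun γ => (MerInf N).mul_mem (H₁.cusp γ) (H₂.cusp γ))

theorem IsModFun.neg (H : IsModFun N h) : IsModFun N (-h) :=
  IsModFun.intro (fun γ hγ τ => by simp only [Pi.neg_apply, H.inv γ hγ])
    (fun γ => (MerInf N).neg_mem (H.cusp γ))

theorem isModFun_const (N : ℕ) (c : ℂ) : IsModFun N (fun _ => c) :=
  IsModFun.intro (fun _ _ _ => rfl) (fun _ => S24.Conj.constHol_mem_MerInf N c)

theorem isModFun_one (N : ℕ) : IsModFun N 1 := isModFun_const N 1

theorem isModFun_zero (N : ℕ) : IsModFun N 0 := isModFun_const N 0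

theorem IsModFun.pow (H : IsModFun N h) (n : ℕ) : IsModFun N (h ^ n) := by
  induction n with
  | zero => simpa using isModFun_one N
  | succ n ih => rw [pow_succ]; exact ih.mul H

theorem IsModFun.prod {ι : Type*} (s : Finset ι) (f : ι → ℍ → ℂ) (H : ∀ i ∈ s, IsModFun N (f i)) :
    IsModFun N (∏ i ∈ s, f i) := by
  classical
  induction s using Finset.induction_on with
  | empty => simpa using isModFun_one N
  | insert a s ha ih =>
    rw [Finset.prod_insert ha]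
    exact (H a (Finset.mem_insert_self a s)).mul
      (ih fun i hi => H i (Finset.mem_insert_of_mem hi))

theorem IsModFun.sum {ι : Type*} (s : Finset ι) (f : ι → ℍ → ℂ) (H : ∀ i ∈ s, IsModFun N (f i)) :
    IsModFun N (∑ i ∈ s, f i) := by
  classical
  induction s using Finset.induction_on with
  | empty => simpa using isModFun_zero N
  | insert a s ha ih =>
    rw [Finset.sum_insert ha]
    exact (H a (Finset.mem_insert_self a s)).add
      (ih fun i hi => H i (Finset.mem_insert_of_mem hi))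

theorem qexp_add [NeZero N] (H₁ : IsModFun N h₁) (H₂ : IsModFun N h₂) :
    qexp (h₁ + h₂) = qexp h₁ + qexp h₂ :=
  (H₁.add H₂).isExp.unique one_pos (H₁.isExp.add H₂.isExp)

theorem qexp_mul [NeZero N] (H₁ : IsModFun N h₁) (H₂ : IsModFun N h₂) :
    qexp (h₁ * h₂) = qexp h₁ * qexp h₂ :=
  (H₁.mul H₂).isExp.unique one_pos (H₁.isExp.mul H₂.isExp)

theorem qexp_pow [NeZero N] (H : IsModFun N h) (n : ℕ) : qexp (h ^ n) = qexp h ^ n :=
  (H.pow n).isExp.unique one_pos (H.isExp.pow n)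

theorem qexp_const (c : ℂ) : qexp (fun _ : ℍ => c) = HahnSeries.C c :=
  (isModFun_const 1 c).isExp.unique one_pos (S28.isExp_C 1 c)

theorem IsModFun.qexp_eq_zero_iff [NeZero N] (H : IsModFun N h) : qexp h = 0 ↔ h = 0 := by
  constructor
  · intro h0
    have h1 := H.isExp
    rw [h0] at h1
    funext τ
    exact h1.fun_unique (S28.isExp_zero 1) τ
  · rintro rfl
    exact (isModFun_zero N).isExp.unique one_pos (S28.isExp_zero 1)

theorem isModFun_jdF (N : ℕ) [NeZero N] (d : ℕ) [NeZero d] (hd : d ∣ N) :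
    IsModFun N (S28.jdF d) :=
  IsModFun.intro (fun γ hγ => S28.jdF_smul_of_mem_Gamma0 N d hd γ
    (CongruenceSubgroup.Gamma1_in_Gamma0 N hγ)) (fun γ => by
    obtain ⟨F, hF⟩ := S28.exists_isExp_jdF_smul N d hd γ
    exact mem_MerInf_of_isExp N hF)

theorem qexp_jdF (N : ℕ) [NeZero N] (d : ℕ) [NeZero d] (hd : d ∣ N) :
    qexp (S28.jdF d) = qExpand ℂ d (jqModC ℂ) := by
  apply qExpand_injective N
  exact (isExp_level N (isModFun_jdF N d hd).isExp).unique (Nat.pos_of_ne_zero (NeZero.ne N))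
    (S28.isExp_jdF N d hd)

theorem isModFun_genF (N : ℕ) [NeZero N] (b : ℤ) (d : ℕ) [NeZero d] (hd : d ∣ N) :
    IsModFun N (genF N b d) :=
  IsModFun.intro (fun γ hγ => genF_smul_of_mem_Gpm N b d hd γ (Gamma1_le_Gpm N hγ))
    (fun γ => genF_smul_mem_MerInf N b d hd γ)

theorem qexp_genF (N : ℕ) [NeZero N] (b : ℤ) (hb : ¬ (N : ℤ) ∣ b) (d : ℕ) [NeZero d] (hd : d ∣ N) :
    qexp (genF N b d) = uB ℂ N d (b : ZMod N) :=
  (isModFun_genF N b d hd).isExp.unique one_pos (isExp_genF N b hb d)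

/-- every polynomial in the generators is the expansion of a holomorphic modular function. -/
theorem exists_isModFun_of_mem_adjoin (N : ℕ) [NeZero N] {x : LaurentSeries ℂ}
    (hx : x ∈ Algebra.adjoin ℂ (divisorExpansionsC ℂ N ∪ eisGens ℂ N)) :
    ∃ f, IsModFun N f ∧ qexp f = x := by
  induction hx using Algebra.adjoin_induction with
  | mem x hx =>
    rcases hx with hx | hx
    · obtain ⟨d, hd0, hd, rfl⟩ := hx
      exact ⟨S28.jdF d, isModFun_jdF N d hd, qexp_jdF N d hd⟩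
    · obtain ⟨d, hd0, b, hd, hb, rfl⟩ := hx
      refine ⟨genF N (b.val : ℤ) d, isModFun_genF N _ d hd, ?_⟩
      rw [qexp_genF N _ (not_dvd_val N hb) d hd, intCast_val_eq]
  | algebraMap c =>
    refine ⟨fun _ => c, isModFun_const N c, ?_⟩
    rw [qexp_const, algebraMap_laurentSeries_eq_single]
    rfl
  | add x y _ _ hx hy =>
    obtain ⟨f, hf, rfl⟩ := hx
    obtain ⟨g, hg, rfl⟩ := hy
    exact ⟨f + g, hf.add hg, qexp_add hf hg⟩
  | mul x y _ _ hx hy =>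
    obtain ⟨f, hf, rfl⟩ := hx
    obtain ⟨g, hg, rfl⟩ := hy
    exact ⟨f * g, hf.mul hg, qexp_mul hf hg⟩

theorem IsModFun.ext_qexp [NeZero N] (H₁ : IsModFun N h₁) (H₂ : IsModFun N h₂)
    (h : qexp h₁ = qexp h₂) : h₁ = h₂ := by
  funext τ
  have h1 := H₁.isExp
  rw [h] at h1
  exact h1.fun_unique H₂.isExp τ

/-- **(M2)** every holomorphic modular function is a quotient of two polynomials in the `j(q^d)`,
as functions. -/
theorem IsModFun.exists_frac [NeZero N] (H : IsModFun N h) :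
    ∃ fa fb : ℍ → ℂ, IsModFun N fa ∧ IsModFun N fb ∧ fb ≠ 0 ∧
      qexp fa ∈ Algebra.adjoin ℂ (divisorExpansionsC ℂ N ∪ eisGens ℂ N) ∧
      qexp fb ∈ Algebra.adjoin ℂ (divisorExpansionsC ℂ N ∪ eisGens ℂ N) ∧ h * fb = fa := by
  obtain ⟨a, ha, b, hb, hab⟩ := IntermediateField.mem_adjoin_iff_div.mp H.qexp_mem
  by_cases hb0 : b = 0
  · have h0 : h = 0 := by
      rw [← H.qexp_eq_zero_iff, hab, hb0, div_zero]
    refine ⟨0, 1, isModFun_zero N, isModFun_one N, one_ne_zero, ?_, ?_, by rw [h0, zero_mul]⟩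
    · rw [(isModFun_zero N).qexp_eq_zero_iff.mpr rfl]
      exact zero_mem _
    · have : qexp (1 : ℍ → ℂ) = 1 := by
        have h1 := qexp_const 1
        rw [map_one] at h1
        exact h1
      rw [this]
      exact one_mem _
  · obtain ⟨fa, hfa, rfl⟩ := exists_isModFun_of_mem_adjoin N ha
    obtain ⟨fb, hfb, rfl⟩ := exists_isModFun_of_mem_adjoin N hb
    refine ⟨fa, fb, hfa, hfb, fun h0 => hb0 (hfb.qexp_eq_zero_iff.mpr h0), ha, hb, ?_⟩
    apply (H.mul hfb).ext_qexp hfa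
    rw [qexp_mul H hfb, hab, div_mul_cancel₀ _ hb0]

theorem conj_T_pow_mem_Gamma0 (N : ℕ) (γ : SL(2, ℤ)) :
    γ * ModularGroup.T ^ (N : ℤ) * γ⁻¹ ∈ CongruenceSubgroup.Gamma1 N := by
  have h1 : ModularGroup.T ^ (N : ℤ) ∈ CongruenceSubgroup.Gamma N := by
    simpa using CongruenceSubgroup.ModularGroup_T_pow_mem_Gamma (N : ℤ) (N : ℤ) dvd_rfl
  have h2 := (CongruenceSubgroup.Gamma_normal N).conj_mem _ h1 γ
  rw [CongruenceSubgroup.Gamma_mem] at h2
  rw [CongruenceSubgroup.Gamma1_mem]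
  exact ⟨h2.1, h2.2.2.2, h2.2.2.1⟩

/-- a `Γ₀(N)`-invariant function composed with any `γ ∈ SL₂(ℤ)` has period `N`. -/
theorem periodic_comp_smul {w : ℍ → ℂ}
    (hinv : ∀ γ ∈ CongruenceSubgroup.Gamma1 N, ∀ τ, w (γ • τ) = w τ) (γ : SL(2, ℤ)) :
    Periodic ((fun τ => w (γ • τ)) ∘ ofComplex) ((N : ℝ) : ℂ) := by
  refine S24.Hol_periodic_of_forall N fun τ τ' hτ => ?_
  have h1 : τ' = (ModularGroup.T ^ (N : ℤ)) • τ := by
    rw [UpperHalfPlane.modular_T_zpow_smul]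
    apply UpperHalfPlane.ext
    rw [hτ, UpperHalfPlane.coe_vadd]
    push_cast
    ring
  have h2 : γ * ModularGroup.T ^ (N : ℤ) = (γ * ModularGroup.T ^ (N : ℤ) * γ⁻¹) * γ := by group
  show w (γ • τ') = w (γ • τ)
  rw [h1, ← mul_smul, h2, mul_smul, hinv _ (conj_T_pow_mem_Gamma0 N γ)]

theorem isBoundedAtImInfty_of_pow {f : ℍ → ℂ} {n m : ℕ} (hn : 0 < n)
    (hb : IsBoundedAtImInfty (fun τ : ℍ => f τ ^ n * 𝕢 (N : ℝ) τ ^ m)) :
    IsBoundedAtImInfty (fun τ : ℍ => f τ * 𝕢 (N : ℝ) τ ^ m) := by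
  rw [isBoundedAtImInfty_iff] at hb ⊢
  obtain ⟨M, A, hM⟩ := hb
  refine ⟨max 1 M, A, fun z hz => ?_⟩
  by_contra hlt
  push Not at hlt
  have hx1 : 1 < ‖f z * 𝕢 (N : ℝ) z ^ m‖ := lt_of_le_of_lt (le_max_left _ _) hlt
  have hxM : M < ‖f z * 𝕢 (N : ℝ) z ^ m‖ := lt_of_le_of_lt (le_max_right _ _) hlt
  have h1 : ‖f z * 𝕢 (N : ℝ) z ^ m‖ ≤ ‖f z * 𝕢 (N : ℝ) z ^ m‖ ^ n :=
    le_self_pow₀ hx1.le hn.ne'
  have hq : ‖𝕢 (N : ℝ) z‖ ≤ 1 := S24.Hol_norm_qParam_le_one N z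
  have h2 : ‖f z * 𝕢 (N : ℝ) z ^ m‖ ^ n ≤ ‖f z ^ n * 𝕢 (N : ℝ) z ^ m‖ := by
    rw [norm_mul, norm_mul, mul_pow, norm_pow, norm_pow, ← pow_mul]
    refine mul_le_mul_of_nonneg_left ?_ (by positivity)
    exact pow_le_pow_of_le_one (norm_nonneg _) hq (Nat.le_mul_of_pos_right m hn)
  linarith [hM z hz]

/-- **(M3)** an invariant holomorphic `n`-th root of a holomorphic modular function is a holomorphic
modular function. -/
theorem IsModFun.of_pow {n : ℕ} (hn : 0 < n) {w : ℍ → ℂ} (hw : MDiff w)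
    (hinv : ∀ γ ∈ CongruenceSubgroup.Gamma1 N, ∀ τ, w (γ • τ) = w τ)
    (hp : IsModFun N (w ^ n)) : IsModFun N w :=
  IsModFun.intro hinv (fun γ => by
    obtain ⟨-, -, m, hm⟩ := S24.mem_MerInf.mp (hp.cusp γ)
    exact S24.mem_MerInf.mpr ⟨S28.mdiff_comp_smul hw γ, periodic_comp_smul hinv γ, m,
      isBoundedAtImInfty_of_pow hn hm⟩)

/-- **(b)**: if the `n`-th root is invariant, the expansion is an `n`-th power in the function
field. -/
theorem exists_root_of_invariant [NeZero N] {n : ℕ} (hn : 0 < n) {w : ℍ → ℂ} (hw : MDiff w)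
    (hinv : ∀ γ ∈ CongruenceSubgroup.Gamma1 N, ∀ τ, w (γ • τ) = w τ)
    (hp : IsModFun N (w ^ n)) : qexp w ∈ FF1 ℂ N ∧ qexp w ^ n = qexp (w ^ n) :=
  ⟨(IsModFun.of_pow hn hw hinv hp).qexp_mem, (qexp_pow (IsModFun.of_pow hn hw hinv hp) n).symm⟩

/-! ### (M4): a holomorphic function on `ℍ` with a prescribed character -/

section RootChar

open CongruenceSubgroup
open Fermat.Agent.S28 (DeltaF)
open scoped ModularForm

/-- `E_{12,χ} / Δ`: holomorphic on `ℍ`, of weight `0` and character `χ`. -/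
def rootChar (χ : Gamma1 N →* ℂˣ) (τ : ℍ) : ℂ := eisChar 12 χ τ / DeltaF τ

variable {χ : Gamma1 N →* ℂˣ}

theorem mdiff_rootChar (hfin : ∀ γ, ‖(χ γ : ℂ)‖ = 1) : MDiff (rootChar χ) := by
  have h4 : MDiff (eisChar 12 χ) := mdiff_eisChar (by norm_num) hfin
  rw [UpperHalfPlane.mdifferentiable_iff] at h4 ⊢
  have hD := UpperHalfPlane.mdifferentiable_iff.1 S28.mdiff_DeltaF
  have : rootChar χ ∘ ofComplex = fun z => (eisChar 12 χ ∘ ofComplex) z /
      (DeltaF ∘ ofComplex) z := rfl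
  rw [this]
  exact h4.div hD (fun z _ => S28.DeltaF_ne_zero _)

theorem rootChar_smul (γ : SL(2, ℤ)) (τ : ℍ) :
    rootChar χ (γ • τ) = (eisChar 12 χ ∣[(12 : ℤ)] γ) τ / DeltaF τ := by
  unfold rootChar
  rw [S28.DeltaF_smul, ModularForm.SL_slash_apply]
  have h1 : denom γ τ ≠ 0 := denom_ne_zero _ τ
  have h2 := S28.DeltaF_ne_zero τ
  rw [zpow_neg]
  have h3 : denom γ τ ^ (12 : ℤ) = denom γ τ ^ 12 := by norm_cast
  rw [h3]
  field_simp

theorem rootChar_smul_Gamma0 (hpar : ∀ γ : Gamma1 N, (γ : SL(2, ℤ)) 1 0 = 0 → χ γ = 1)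
    (γ : Gamma1 N) (τ : ℍ) : rootChar χ ((γ : SL(2, ℤ)) • τ) = (χ γ : ℂ) * rootChar χ τ := by
  rw [rootChar_smul, eisChar_slash hpar]
  simp only [Pi.smul_apply, smul_eq_mul, rootChar]
  ring

theorem rootChar_ne_zero (hfin : ∀ γ, ‖(χ γ : ℂ)‖ = 1)
    (hpar : ∀ γ : Gamma1 N, (γ : SL(2, ℤ)) 1 0 = 0 → χ γ = 1) : rootChar χ ≠ 0 := by
  intro h0
  obtain ⟨c, hc, h1⟩ := tendsto_eisChar (k := 12) (by norm_num) (by decide) hfin hpar
  have h2 : eisChar 12 χ = 0 := by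
    funext τ
    have := congrFun h0 τ
    simp only [rootChar, Pi.zero_apply, div_eq_zero_iff] at this
    rcases this with h | h
    · exact h
    · exact absurd h (S28.DeltaF_ne_zero τ)
  rw [h2] at h1
  have h3 : Filter.Tendsto (0 : ℍ → ℂ) atImInfty (nhds 0) := tendsto_const_nhds
  exact hc (tendsto_nhds_unique h1 h3)

theorem exists_isBounded_inv_DeltaF (N : ℕ) [NeZero N] :
    ∃ m : ℕ, IsBoundedAtImInfty (fun τ : ℍ => (DeltaF τ)⁻¹ * 𝕢 (N : ℝ) τ ^ m) := by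
  obtain ⟨-, -, m, hm⟩ := S24.mem_MerInf.mp (mem_MerInf_of_isExp 1 S28.isExp_delta_inv)
  refine ⟨N * m, ?_⟩
  have : (fun τ : ℍ => (DeltaF τ)⁻¹ * 𝕢 (N : ℝ) τ ^ (N * m)) =
      fun τ : ℍ => (DeltaF τ)⁻¹ * 𝕢 ((1 : ℕ) : ℝ) τ ^ m := by
    funext τ
    rw [S24.local_qParam_pow N, pow_mul]
  rw [this]
  exact hm

/-- **(M4)** `(E_{12,χ}/Δ)^n` is a holomorphic modular function if `χ^n = 1`. -/
theorem isModFun_rootChar_pow [NeZero N] {n : ℕ} (hn : ∀ γ, χ γ ^ n = 1)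
    (hfin : ∀ γ, ‖(χ γ : ℂ)‖ = 1)
    (hpar : ∀ γ : Gamma1 N, (γ : SL(2, ℤ)) 1 0 = 0 → χ γ = 1) :
    IsModFun N (rootChar χ ^ n) := by
  have hinv : ∀ γ ∈ Gamma1 N, ∀ τ, (rootChar χ ^ n) (γ • τ) = (rootChar χ ^ n) τ := by
    intro γ hγ τ
    have h1 := rootChar_smul_Gamma0 hpar ⟨γ, hγ⟩ τ
    simp only at h1
    have h2 : ((χ ⟨γ, hγ⟩ : ℂˣ) : ℂ) ^ n = 1 := by
      have := congrArg Units.val (hn ⟨γ, hγ⟩)
      simpa using this
    simp only [Pi.pow_apply]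
    rw [h1, mul_pow, h2, one_mul]
  refine IsModFun.intro hinv fun γ => ?_
  obtain ⟨m, hm⟩ := exists_isBounded_inv_DeltaF N
  refine S24.mem_MerInf.mpr ⟨S28.mdiff_comp_smul ((mdiff_rootChar hfin).pow n) γ,
    periodic_comp_smul hinv γ, m * n, ?_⟩
  have h1 := isBoundedAtImInfty_pow
    ((isBoundedAtImInfty_eisChar_slash (k := 12) (by norm_num) hfin γ).mul hm) n
  have h2 : (fun τ : ℍ => (rootChar χ ^ n) (γ • τ) * 𝕢 (N : ℝ) τ ^ (m * n)) =
      ((eisChar 12 χ ∣[(12 : ℤ)] γ) * fun τ : ℍ => (DeltaF τ)⁻¹ * 𝕢 (N : ℝ) τ ^ m) ^ n := by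
    funext τ
    simp only [Pi.pow_apply, Pi.mul_apply]
    rw [rootChar_smul, pow_mul, ← mul_pow]
    congr 1
    ring
  rw [h2]
  exact h1

/-- **(c)**, bundled: every character of `Γ₀(N)` of order dividing `n` which is trivial on the
stabiliser of `∞` is the character of a holomorphic `n`-th root of a holomorphic modular
function. -/
theorem exists_root_with_char (N : ℕ) [NeZero N] (n : ℕ) (hn0 : n ≠ 0) (χ : Gamma1 N →* ℂˣ)
    (hn : ∀ γ, χ γ ^ n = 1)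
    (hpar : ∀ γ : Gamma1 N, (γ : SL(2, ℤ)) 1 0 = 0 → χ γ = 1) :
    ∃ w : ℍ → ℂ, MDiff w ∧ w ≠ 0 ∧
      (∀ (γ : Gamma1 N) (τ : ℍ), w ((γ : SL(2, ℤ)) • τ) = (χ γ : ℂ) * w τ) ∧
      IsModFun N (w ^ n) := by
  have hfin : ∀ γ, ‖(χ γ : ℂ)‖ = 1 := fun γ => by
    have h1 : (χ γ : ℂ) ^ n = 1 := by
      have := congrArg Units.val (hn γ)
      simpa using this
    exact Complex.norm_eq_one_of_pow_eq_one h1 hn0
  exact ⟨rootChar χ, mdiff_rootChar hfin, rootChar_ne_zero hfin hpar, rootChar_smul_Gamma0 hpar,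
    isModFun_rootChar_pow hn hfin hpar⟩

end RootChar

end

end Fermat.Agent.G1.A
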