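import Fermat.Agent.G1.A.CuspHalf
import Fermat.Agent.G1.A.FiniteHalf
import Fermat.Agent.G1.A.ModFun
import Fermat.Agent.G1.C.Main
import Fermat.Agent.S48.Per.Defs

/-!
# G1-A, (A2) : `HasChar N n u φ`, `Kills φ` ⟹ `IsKummer1 n u`
-/

set_option autoImplicit false

namespace Fermat.Agent.G1.A

open Fermat.Agent.GR Fermat.Agent.GR.A Fermat.Agent.G1

open UpperHalfPlane Function AlgebraicCurve CongruenceSubgroup IntermediateField
open Fermat.Agent.S24 (Hol constHol compHom taylorHom MerInf laurentHom)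
open Fermat.Agent.S48.Per (Kills1)
open scoped Manifold MatrixGroups

theorem coeffMap_id (x : LaurentSeries ℂ) : ModularCurve.coeffMap (RingHom.id ℂ) x = x := by
  ext k
  simp

variable {N : ℕ} [NeZero N]

/-- the analytic realisation of the `q`-expansion of a polynomial in the `j(dτ)`. -/
theorem evA_qexp {h : ℍ → ℂ} (H : IsModFun N h) (hmem : qexp h ∈ A1 ℂ N) :
    evA (RingHom.id ℂ) N ⟨qexp h, hmem⟩ = ⟨h, H.mdiff⟩ := by
  apply Subtype.ext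
  apply evA_eq_of_laurentHom (RingHom.id ℂ) N _ h H.mem_MerInf_one
  rw [coeffMap_id]
  exact (qexp_eq H.mem_MerInf_one).symm

/-- the analytic realisation of the `q`-expansion of a holomorphic modular function. -/
theorem evF_qexp {h : ℍ → ℂ} (H : IsModFun N h) :
    evF (RingHom.id ℂ) N ⟨qexp h, H.qexp_mem⟩ = holMer ⟨h, H.mdiff⟩ := by
  obtain ⟨fa, fb, Ha, Hb, hb0, hma, hmb, hrel⟩ := H.exists_frac
  have hma' : qexp fa ∈ A1 ℂ N := hma
  have hmb' : qexp fb ∈ A1 ℂ N := hmb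
  have h1 : (⟨qexp h, H.qexp_mem⟩ : FF1 ℂ N) * incl ℂ N ⟨qexp fb, hmb'⟩ =
      incl ℂ N ⟨qexp fa, hma'⟩ := by
    apply Subtype.ext
    show qexp h * qexp fb = qexp fa
    rw [← qexp_mul H Hb, hrel]
  have h2 := congrArg (evF (RingHom.id ℂ) N) h1
  rw [map_mul, evF_incl, evF_incl, evA_qexp Ha, evA_qexp Hb] at h2
  have h3 : (⟨fa, Ha.mdiff⟩ : Hol) = ⟨h, H.mdiff⟩ * ⟨fb, Hb.mdiff⟩ := Subtype.ext hrel.symm
  rw [h3, map_mul] at h2
  refine mul_right_cancel₀ ?_ h2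
  intro h0
  apply hb0
  have := holMer_injective (h0.trans (map_zero holMer).symm)
  exact congrArg Subtype.val this

/-- **(A2)** for `HasRoot`. -/
theorem isKummer_qexp_of_hasRoot {n : ℕ} [NeZero n] {c w : ℍ → ℂ}
    {φ : Additive (Gamma1 N) →+ ZMod n} (H : HasRoot N n c w φ) (hφ : Kills1 φ) :
    IsKummer1 (M := N) n (qexp c) := by
  have hn : 0 < n := Nat.pos_of_ne_zero (NeZero.ne n)
  have hc0 : qexp c ≠ 0 := by
    intro h0
    obtain ⟨τ, hτ⟩ := H.ne_zero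
    apply hτ
    rw [(H.modFun.qexp_eq_zero_iff).1 h0]
    rfl
  refine ⟨hc0, H.modFun.qexp_mem, fun v => ?_⟩
  have hf : (⟨qexp c, H.modFun.qexp_mem⟩ : FF1 ℂ N) ≠ 0 := fun h => hc0 (congrArg Subtype.val h)
  have hw : (⟨w, H.mdiff⟩ : Hol) ^ n = ⟨c, H.modFun.mdiff⟩ := by
    apply Subtype.ext
    funext τ
    exact H.pow_eq τ
  have hinv : ∀ γ : SL(2, ℤ), ∀ hγ : γ ∈ Gamma1 N, φ (Additive.ofMul ⟨γ, hγ⟩) = 0 →
      compHom γ (⟨w, H.mdiff⟩ : Hol) = ⟨w, H.mdiff⟩ := by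
    intro γ hγ h0
    apply Subtype.ext
    funext τ
    have := H.char ⟨γ, hγ⟩ τ
    rw [h0, AddChar.map_zero_eq_one, one_mul] at this
    exact this
  rcases lt_or_ge (v.ord (jF ℂ N)) 0 with hv | hv
  · refine dvd_ord_of_root_of_ord_j_neg (RingHom.id ℂ) N n hn _ hf ⟨c, H.modFun.mdiff⟩
      ⟨w, H.mdiff⟩ (evF_qexp H.modFun) (fun δ => H.modFun.cusp δ) hw
      (fun γ hγ htr => hinv γ hγ (hφ ⟨γ, hγ⟩ (Or.inr htr))) v hv
  · exact dvd_ord_of_root_of_ord_j_nonneg (RingHom.id ℂ) N n hn _ hf ⟨c, H.modFun.mdiff⟩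
      ⟨w, H.mdiff⟩ (evF_qexp H.modFun) hw
      (fun γ hγ hfin => hinv γ hγ (hφ ⟨γ, hγ⟩ (Or.inl hfin))) v hv

/-- **(A2)**. -/
theorem isKummer_of_hasChar {n : ℕ} [NeZero n] {u : LaurentSeries ℂ}
    {φ : Additive (Gamma1 N) →+ ZMod n} (H : HasChar N n u φ) (hφ : Kills1 φ) :
    IsKummer1 (M := N) n u := by
  obtain ⟨c, w, f, HR, hexp, hequiv⟩ := H
  have hf : qexp c = f := HR.modFun.isExp.unique one_pos hexp
  rw [← hf] at hequiv
  exact G1.C.isKummer_of_kummerEquiv (isKummer_qexp_of_hasRoot HR hφ) hequiv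

end Fermat.Agent.G1.A
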