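import Fermat.Agent.GR.A.Mod
import Fermat.Agent.G1.A.Gen

/-!
# G1-A / (A-mod): holomorphic `Γ₁(N)`-invariant functions with Laurent expansions at all cusps
lie in the function field `FF1 ℂ N`.
-/

set_option autoImplicit false

namespace Fermat.Agent.G1.A

open Fermat.Agent.GR Fermat.Agent.GR.A Fermat.Agent.G1

open ModularCurve Polynomial UpperHalfPlane Complex
open scoped MatrixGroups Real Manifold
open Fermat.Agent.S28

noncomputable section

variable (N : ℕ) [NeZero N]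

/-- representatives of the right cosets `±Γ₁(N) γ`. -/
def cosRep (q : Cosets1 N) : SL(2, ℤ) := (Quotient.out q)⁻¹

omit [NeZero N] in
theorem cosRep_smul {φ : ℍ → ℂ} (hφ : ∀ γ ∈ Gpm N, ∀ τ, φ (γ • τ) = φ τ)
    (γ : SL(2, ℤ)) (q : Cosets1 N) (τ : ℍ) :
    φ (cosRep N q • (γ • τ)) = φ (cosRep N (γ⁻¹ • q) • τ) := by
  obtain ⟨h, hh⟩ := QuotientGroup.mk_out_eq_mul (Gpm N) (γ⁻¹ * Quotient.out q)
  have hq : (γ⁻¹ • q : Cosets1 N) = ((γ⁻¹ * Quotient.out q : SL(2, ℤ)) : Cosets1 N) := by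
    conv_lhs => rw [← QuotientGroup.out_eq' q]
    rfl
  have h1 : cosRep N (γ⁻¹ • q) = (h : SL(2, ℤ))⁻¹ * (cosRep N q * γ) := by
    unfold cosRep
    rw [hq, hh]
    group
  rw [h1, mul_smul, hφ _ (inv_mem h.2), mul_smul]

omit [NeZero N] in
theorem cosRep_one_mem : cosRep N ((1 : SL(2, ℤ)) : Cosets1 N) ∈ Gpm N := by
  obtain ⟨h, hh⟩ := QuotientGroup.mk_out_eq_mul (Gpm N) 1
  unfold cosRep
  rw [hh, one_mul]
  exact inv_mem h.2

omit [NeZero N] in
theorem cosRep_not_mem {q : Cosets1 N} (hq : q ≠ ((1 : SL(2, ℤ)) : Cosets1 N)) :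
    cosRep N q ∉ Gpm N := by
  intro h
  apply hq
  rw [← QuotientGroup.out_eq' q, QuotientGroup.eq]
  simpa [cosRep] using h

/-- the candidates for a primitive element of `FF1 ℂ N` over `ℂ(j)`. -/
def primF (c : ℂ) (τ : ℍ) : ℂ := S28.jdF N τ + c * genF N 1 1 τ

theorem primF_smul_of_mem_Gpm (c : ℂ) : ∀ γ ∈ Gpm N, ∀ τ, primF N c (γ • τ) = primF N c τ := by
  intro γ hγ τ
  unfold primF
  rw [S28.jdF_smul_of_mem_Gamma0 N N dvd_rfl γ (Gpm_le_Gamma0 N hγ) τ,
    genF_smul_of_mem_Gpm N 1 1 (one_dvd N) γ hγ τ]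

theorem mdiff_primF (c : ℂ) : MDiff (primF N c) := by
  have h1 := S28.mdiff_jdF N
  have h2 := mdiff_genF N 1 1
  rw [UpperHalfPlane.mdifferentiable_iff] at h1 h2 ⊢
  have e : primF N c ∘ ofComplex = fun z => (S28.jdF N ∘ ofComplex) z +
      c * (genF N 1 1 ∘ ofComplex) z := rfl
  rw [e]
  exact h1.add (h2.const_mul c)

theorem exists_isExp_primF_smul (c : ℂ) (γ : SL(2, ℤ)) :
    ∃ F : LaurentSeries ℂ, IsExp N (fun τ => primF N c (γ • τ)) F := by
  obtain ⟨F1, hF1⟩ := S28.exists_isExp_jdF_smul N N dvd_rfl γ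
  obtain ⟨F2, hF2⟩ := exists_isExp_genF_smul N 1 1 (one_dvd N) γ
  exact ⟨_, (hF1.add ((isExp_C N c).mul hF2)).congr fun τ => rfl⟩

theorem isExp_primF (hN1 : N ≠ 1) (c : ℂ) :
    IsExp 1 (primF N c)
      (qExpand ℂ N (jqModC ℂ) + HahnSeries.C c * uB ℂ N 1 ((1 : ℤ) : ZMod N)) := by
  have h := S28.isExp_jF.comp_affH (N := 1) (a := N) (δ := 1) (m := N) 0
    one_pos (Nat.pos_of_ne_zero (NeZero.ne N)) one_pos rfl
  rw [S28.rootU_one, S28.substL_one] at h
  have h1 : ¬ (N : ℤ) ∣ 1 := by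
    intro hdvd
    have h2 := Int.le_of_dvd one_pos hdvd
    have h3 := NeZero.ne N
    omega
  exact (h.add ((isExp_C 1 c).mul (isExp_genF N 1 h1 1))).congr fun τ => rfl

/-- for all but finitely many `c`, the stabiliser of `primF N c` in `SL₂(ℤ)` is `±Γ₁(N)`. -/
theorem exists_primF : ∃ c : ℂ, ∀ γ : SL(2, ℤ), γ ∉ Gpm N → ∃ τ : ℍ, primF N c (γ • τ) ≠ primF N c τ := by
  classical
  set q₀ : Cosets1 N := ((1 : SL(2, ℤ)) : Cosets1 N) with hq₀
  let B : Cosets1 N → Set ℂ := fun q =>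
    {c | q ≠ q₀ ∧ ∀ τ, primF N c (cosRep N q • τ) = primF N c τ}
  have hsub : ∀ q, (B q).Subsingleton := by
    intro q c hc c' hc'
    by_contra hne
    apply cosRep_not_mem N hc.1
    have hgen : ∀ τ : ℍ, genF N 1 1 (cosRep N q • τ) = genF N 1 1 τ := by
      intro τ
      have h1 := hc.2 τ
      have h2 := hc'.2 τ
      unfold primF at h1 h2
      have h3 : (c - c') * (genF N 1 1 (cosRep N q • τ) - genF N 1 1 τ) = 0 := by
        linear_combination h1 - h2
      rcases mul_eq_zero.1 h3 with h4 | h4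
      · exact absurd (sub_eq_zero.1 h4) hne
      · exact sub_eq_zero.1 h4
    refine mem_Gpm_of_smul N _ (fun τ => ?_) hgen
    rw [← GR.A.mod_jdF_eq_jdfun, ← GR.A.mod_jdF_eq_jdfun]
    have h1 := hc.2 τ
    unfold primF at h1
    rw [hgen τ] at h1
    exact add_right_cancel h1
  have hfin : (⋃ q, B q).Finite := Set.finite_iUnion fun q => (hsub q).finite
  obtain ⟨c, hc⟩ := hfin.exists_notMem
  refine ⟨c, fun γ hγ => ?_⟩
  by_contra hcon
  push Not at hcon
  apply hc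
  rw [Set.mem_iUnion]
  refine ⟨γ⁻¹ • q₀, ?_, fun τ => ?_⟩
  · intro h
    apply hγ
    have h1 : ((γ⁻¹ * 1 : SL(2, ℤ)) : Cosets1 N) = ((1 : SL(2, ℤ)) : Cosets1 N) := h
    rw [QuotientGroup.eq] at h1
    simpa using h1
  · rw [← cosRep_smul N (primF_smul_of_mem_Gpm N c) γ q₀ τ,
      primF_smul_of_mem_Gpm N c _ (cosRep_one_mem N), hcon]

/-- **(A-mod), holomorphic case.** A holomorphic `Γ₁(N)`-invariant function on `ℍ` having a Laurent
expansion in `t = q^{1/N}` at every cusp is (the function of) an element of `FF1 ℂ N`. -/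
theorem mem_FF_of_invariant (h : ℍ → ℂ) (u : LaurentSeries ℂ)
    (hhol : MDiff h)
    (hinv : ∀ γ ∈ CongruenceSubgroup.Gamma1 N, ∀ τ, h (γ • τ) = h τ)
    (hcusp : ∀ γ : SL(2, ℤ), ∃ F : LaurentSeries ℂ, IsExp N (fun τ => h (γ • τ)) F)
    (hu : IsExp 1 h u) : u ∈ FF1 ℂ N := by
  classical
  by_cases hN1 : N = 1
  · subst hN1
    refine FF_le_FF1 ℂ 1 (GR.A.mem_FF_of_invariant 1 h u hhol (fun γ _ τ => hinv γ ?_ τ) hcusp hu)
    exact (CongruenceSubgroup.Gamma1_mem 1 γ).mpr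
      ⟨Subsingleton.elim _ _, Subsingleton.elim _ _, Subsingleton.elim _ _⟩
  obtain ⟨c, hc⟩ := exists_primF N
  have hinv' := inv_Gpm_of_inv_Gamma1 hinv
  let _ : Fintype (Cosets1 N) := Fintype.ofFinite _
  have hN : 0 < N := Nat.pos_of_ne_zero (NeZero.ne N)
  set q₀ : Cosets1 N := ((1 : SL(2, ℤ)) : Cosets1 N) with hq₀
  let f : Cosets1 N → ℍ → ℂ := fun q τ => primF N c (cosRep N q • τ)
  choose F hF using fun q : Cosets1 N => exists_isExp_primF_smul N c (cosRep N q)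
  have hholf : ∀ q, MDiff (f q) := fun q => mdiff_comp_smul (mdiff_primF N c) (cosRep N q)
  let perm : SL(2, ℤ) → Equiv.Perm (Cosets1 N) := fun γ => MulAction.toPerm γ⁻¹
  have hperm : ∀ γ q τ, f q (γ • τ) = f (perm γ q) τ := fun γ q τ =>
    cosRep_smul N (primF_smul_of_mem_Gpm N c) γ q τ
  let g : Cosets1 N → ℍ → ℂ := fun q τ => h (cosRep N q • τ)
  choose G hG using fun q : Cosets1 N => hcusp (cosRep N q)
  have hholg : ∀ q, MDiff (g q) := fun q => mdiff_comp_smul hhol (cosRep N q)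
  have hpermg : ∀ γ q τ, g q (γ • τ) = g (perm γ q) τ := fun γ q τ => cosRep_smul N hinv' γ q τ
  have hf₀ : f q₀ = primF N c := by
    funext τ
    exact primF_smul_of_mem_Gpm N c _ (cosRep_one_mem N) τ
  set x : LaurentSeries ℂ := jqModC ℂ with hx
  set y : LaurentSeries ℂ := qExpand ℂ N x + HahnSeries.C c * uB ℂ N 1 ((1 : ℤ) : ZMod N) with hy
  have hF₀ : F q₀ = qExpand ℂ N y := by
    refine IsExp.unique hN (hF q₀) ?_
    have h1 := isExp_level N (isExp_primF N hN1 c)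
    rw [← hf₀] at h1
    exact h1
  have hG₀ : G q₀ = qExpand ℂ N u := by
    refine IsExp.unique hN (hG q₀) ?_
    have h1 := isExp_level N hu
    have h2 : g q₀ = h := by
      funext τ
      exact hinv' _ (cosRep_one_mem N) τ
    rw [← h2] at h1
    exact h1
  obtain ⟨W, hW⟩ := sym_prod N f F hF hholf perm hperm
  obtain ⟨P, hP⟩ := sym_interp N f F hF hholf g G hG hholg perm hperm hpermg
  set D : LaurentSeries ℂ := ∏ k ∈ Finset.univ.erase q₀, (F q₀ - F k) with hD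
  have hD0 : D ≠ 0 := by
    rw [hD, Finset.prod_ne_zero_iff]
    intro k hk h0
    have hk' : k ≠ q₀ := Finset.ne_of_mem_erase hk
    obtain ⟨τ, hτ⟩ := hc _ (cosRep_not_mem N hk')
    apply hτ
    have h1 : F q₀ = F k := sub_eq_zero.mp h0
    have h2 := hF q₀
    rw [h1] at h2
    have h3 := IsExp.fun_unique (hF k) h2 τ
    rw [h3]
    exact congrFun hf₀ τ
  have hPev : P.eval₂ (evP ℂ (JC N)) (F q₀) = G q₀ * D := by
    rw [← Polynomial.eval_map, hP, Polynomial.eval_finsetSum, Finset.sum_eq_single q₀]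
    · rw [Polynomial.eval_mul, Polynomial.eval_C, Polynomial.eval_prod]
      simp [hD]
    · intro q _ hq
      rw [Polynomial.eval_mul, Polynomial.eval_prod,
        Finset.prod_eq_zero (Finset.mem_erase.mpr ⟨Ne.symm hq, Finset.mem_univ q₀⟩), mul_zero]
      simp
    · intro h
      exact absurd (Finset.mem_univ q₀) h
  have hWev : (derivative W).eval₂ (evP ℂ (JC N)) (F q₀) = D := by
    rw [← Polynomial.eval_map, ← Polynomial.derivative_map, hW,
      ← Finset.mul_prod_erase Finset.univ _ (Finset.mem_univ q₀), Polynomial.derivative_mul]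
    simp [hD, Polynomial.eval_prod]
  have hJ : JC N = qExpand ℂ N x := rfl
  rw [hJ, hF₀, mod_eval₂_qExpand] at hPev hWev
  rw [hG₀, ← hWev, ← map_mul] at hPev
  have hmain := qExpand_injective N hPev
  have hW0 : (derivative W).eval₂ (evP ℂ x) y ≠ 0 := by
    intro h0
    rw [h0, map_zero] at hWev
    exact hD0 hWev.symm
  have hxm : x ∈ FF1 ℂ N := FF_le_FF1 ℂ N (jqModC_mem_full ℂ N)
  have h1ne : ((1 : ℤ) : ZMod N) ≠ 0 := by
    have : Fact (1 < N) := ⟨by omega⟩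
    rw [Int.cast_one]
    exact one_ne_zero
  have hCm : (HahnSeries.C c : LaurentSeries ℂ) ∈ FF1 ℂ N := by
    rw [HahnSeries.C_apply, ← algebraMap_laurentSeries_eq_single]
    exact (FF1 ℂ N).algebraMap_mem c
  have hym : y ∈ FF1 ℂ N :=
    add_mem (FF_le_FF1 ℂ N (jqModCd_mem_full ℂ N dvd_rfl))
      (mul_mem hCm (uB_mem_FF1 (one_dvd N) h1ne))
  have : u = P.eval₂ (evP ℂ x) y / (derivative W).eval₂ (evP ℂ x) y := by
    rw [hmain, mul_div_assoc, div_self hW0, mul_one]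
  rw [this]
  exact div_mem (mod_eval₂_mem _ hxm hym P) (mod_eval₂_mem _ hxm hym _)

end

end Fermat.Agent.G1.A
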